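import Mathlib
import Fermat.Agent.Lib.QuadRep.Algebra

/-!
# S40 block (E), leaf (ALG): two simple modules with the same quadratic relations are isomorphic
(Boston-Lenstra-Ribet), in the presence of a "complex conjugation" `c`.
-/

set_option autoImplicit false

namespace Fermat.Agent.S40Lib

section ALG

variable {k : Type} [Field k] {G : Type} [Group G]

/-- `AC + CA = t(gc) + t(g) C` -/
private lemma ALG_anti {M : Type} [AddCommGroup M] [Module k M]
    (π : G →* Module.End k M) (d : G →* kˣ) (t : G → k)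
    (hq : ∀ g, π g * π g - t g • π g + ((d g : kˣ) : k) • (1 : Module.End k M) = 0)
    (c : G) (hc : c * c = 1) (hdc : ((d c : kˣ) : k) = -1) (g : G) (x : M) :
    π g (π c x) + π c (π g x) = t (g * c) • x + t g • π c x := by
  have E1 := QRLib.q1_gen_add hq g
  have E2 := QRLib.q1_gen_add hq (g * c)
  have hci : c⁻¹ = c := inv_eq_of_mul_eq_one_left hc
  rw [mul_inv_rev, hci, map_mul, map_mul, map_mul, Units.val_mul, hdc] at E2
  have e1 := LinearMap.congr_fun E1 x
  have e2 := LinearMap.congr_fun E2 x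
  simp only [LinearMap.add_apply, LinearMap.smul_apply, Module.End.mul_apply,
    Module.End.one_apply] at e1 e2
  have e3 := congrArg (π c) e1
  simp only [map_add, map_smul] at e3
  rw [mul_neg_one, neg_smul] at e2
  rw [← e2, ← e3]
  abel

private lemma ALG_cc {M : Type} [AddCommGroup M] [Module k M]
    (π : G →* Module.End k M) (c : G) (hc : c * c = 1) (x : M) : π c (π c x) = x := by
  rw [← Module.End.mul_apply, ← map_mul, hc, map_one, Module.End.one_apply]

/-- `(1 + εC) A (1 + εC) = (t(g) + ε t(gc)) (1 + εC)` -/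
private lemma ALG_zgz {M : Type} [AddCommGroup M] [Module k M]
    (π : G →* Module.End k M) (d : G →* kˣ) (t : G → k)
    (hq : ∀ g, π g * π g - t g • π g + ((d g : kˣ) : k) • (1 : Module.End k M) = 0)
    (c : G) (hc : c * c = 1) (hdc : ((d c : kˣ) : k) = -1) (ε : k) (hε : ε = 1 ∨ ε = -1) (g : G) :
    (1 + ε • π c) * π g * (1 + ε • π c) = (t g + ε * t (g * c)) • (1 + ε • π c) := by
  ext x
  have h1 := ALG_anti π d t hq c hc hdc g x
  have h2 := congrArg (π c) h1
  simp only [map_add, map_smul, ALG_cc π c hc] at h2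
  simp only [Module.End.mul_apply, LinearMap.add_apply, LinearMap.smul_apply,
    Module.End.one_apply, map_add, map_smul]
  have h3 : π c (π g (π c x)) = t (g * c) • π c x + t g • x - π g x := by
    rw [← h2]; abel
  have h4 : π g (π c x) = t (g * c) • x + t g • π c x - π c (π g x) := by
    rw [← h1]; abel
  rw [h3, h4]
  rcases hε with rfl | rfl <;> module

/-- if `C = -ε` then every `π g` is a scalar -/
private lemma ALG_scalar {M : Type} [AddCommGroup M] [Module k M] (h2 : (2 : k) ≠ 0)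
    (π : G →* Module.End k M) (d : G →* kˣ) (t : G → k)
    (hq : ∀ g, π g * π g - t g • π g + ((d g : kˣ) : k) • (1 : Module.End k M) = 0)
    (c : G) (hc : c * c = 1) (hdc : ((d c : kˣ) : k) = -1) (ε : k) (hε : ε = 1 ∨ ε = -1)
    (hz : (1 + ε • π c : Module.End k M) = 0) (g : G) (x : M) :
    ∃ s : k, π g x = s • x := by
  have hC : ∀ y, π c y = -ε • y := by
    intro y
    have h := LinearMap.congr_fun hz y
    simp only [LinearMap.add_apply, LinearMap.smul_apply, Module.End.one_apply,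
      LinearMap.zero_apply] at h
    rcases hε with rfl | rfl
    · rw [one_smul] at h
      rw [neg_smul, one_smul]
      exact eq_neg_of_add_eq_zero_right h
    · rw [neg_smul, one_smul, ← sub_eq_add_neg, sub_eq_zero] at h
      rw [neg_neg, one_smul]
      exact h.symm
  have h1 := ALG_anti π d t hq c hc hdc g x
  rw [hC x, hC (π g x), map_smul] at h1
  refine ⟨(2 : k)⁻¹ * (t g - ε * t (g * c)), ?_⟩
  have h3 : (2 : k) • π g x = (t g - ε * t (g * c)) • x := by
    rcases hε with rfl | rfl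
    · have : (2 : k) • π g x = -((-1 : k) • π g x + (-1 : k) • π g x) := by module
      rw [this, h1]; module
    · have : (2 : k) • π g x = (- -1 : k) • π g x + (- -1 : k) • π g x := by module
      rw [this, h1]; module
  rw [mul_smul, ← h3, smul_smul, inv_mul_cancel₀ h2, one_smul]

/-- the common scalar -/
private lemma ALG_key {U V : Type} [AddCommGroup U] [Module k U] [AddCommGroup V] [Module k V]
    (πU : G →* Module.End k U) (πV : G →* Module.End k V) (zU : Module.End k U)
    (zV : Module.End k V)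
    (h : ∀ g, ∃ s : k, zU * πU g * zU = s • zU ∧ zV * πV g * zV = s • zV)
    (b : MonoidAlgebra k G) :
    ∃ s : k, zU * MonoidAlgebra.lift k (Module.End k U) G πU b * zU = s • zU ∧
      zV * MonoidAlgebra.lift k (Module.End k V) G πV b * zV = s • zV := by
  induction b using MonoidAlgebra.induction_on with
  | of g =>
    rw [MonoidAlgebra.lift_of, MonoidAlgebra.lift_of]
    exact h g
  | add x y hx hy =>
    obtain ⟨s, h1, h2⟩ := hx
    obtain ⟨s', h1', h2'⟩ := hy
    refine ⟨s + s', ?_, ?_⟩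
    · rw [map_add, mul_add, add_mul, h1, h1', add_smul]
    · rw [map_add, mul_add, add_mul, h2, h2', add_smul]
  | smul r x hx =>
    obtain ⟨s, h1, h2⟩ := hx
    refine ⟨r * s, ?_, ?_⟩
    · rw [map_smul, mul_smul_comm, smul_mul_assoc, h1, mul_smul]
    · rw [map_smul, mul_smul_comm, smul_mul_assoc, h2, mul_smul]

/-- transitivity of the group algebra on a simple module -/
private lemma ALG_trans {V : Type} [AddCommGroup V] [Module k V] (πV : G →* Module.End k V)
    (hV : ∀ N : Submodule k V, (∀ g, ∀ x ∈ N, πV g x ∈ N) → N = ⊥ ∨ N = ⊤)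
    {w : V} (hw : w ≠ 0) (x : V) :
    ∃ y : MonoidAlgebra k G, MonoidAlgebra.lift k (Module.End k V) G πV y w = x := by
  let f : MonoidAlgebra k G →ₗ[k] V :=
    (LinearMap.applyₗ w).comp (MonoidAlgebra.lift k (Module.End k V) G πV).toLinearMap
  have hf : ∀ y, f y = MonoidAlgebra.lift k (Module.End k V) G πV y w := fun _ => rfl
  have hst : ∀ g, ∀ x ∈ LinearMap.range f, πV g x ∈ LinearMap.range f := by
    rintro g _ ⟨y, rfl⟩
    refine ⟨MonoidAlgebra.of k G g * y, ?_⟩
    rw [hf, hf, map_mul, MonoidAlgebra.lift_of, Module.End.mul_apply]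
  have hw' : w ∈ LinearMap.range f := ⟨1, by rw [hf, map_one, Module.End.one_apply]⟩
  rcases hV _ hst with h | h
  · rw [h] at hw'
    exact absurd ((Submodule.mem_bot k).1 hw') hw
  · have : x ∈ LinearMap.range f := h ▸ Submodule.mem_top
    exact this

private lemma ALG_ker {U V : Type} [AddCommGroup U] [Module k U] [AddCommGroup V] [Module k V]
    (πU : G →* Module.End k U) (πV : G →* Module.End k V) (zU : Module.End k U)
    (zV : Module.End k V)
    (h : ∀ g, ∃ s : k, zU * πU g * zU = s • zU ∧ zV * πV g * zV = s • zV)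
    (hV : ∀ N : Submodule k V, (∀ g, ∀ x ∈ N, πV g x ∈ N) → N = ⊥ ∨ N = ⊤)
    (u₀ : U) (v₀ : V) (hu : zU u₀ ≠ 0) (b : MonoidAlgebra k G)
    (hb : MonoidAlgebra.lift k (Module.End k U) G πU b (zU u₀) = 0) :
    MonoidAlgebra.lift k (Module.End k V) G πV b (zV v₀) = 0 := by
  by_contra hw
  obtain ⟨y, hy⟩ := ALG_trans πV hV hw v₀
  obtain ⟨s, h1, h2⟩ := ALG_key πU πV zU zV h (y * b)
  have e1 := LinearMap.congr_fun h1 u₀
  have e2 := LinearMap.congr_fun h2 v₀
  simp only [map_mul, Module.End.mul_apply, LinearMap.smul_apply] at e1 e2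
  rw [hb, map_zero, map_zero] at e1
  have hs : s = 0 := by
    rcases smul_eq_zero.1 e1.symm with h | h
    · exact h
    · exact absurd h hu
  rw [hy, hs, zero_smul] at e2
  rw [e2, map_zero] at hw
  exact hw rfl

end ALG

theorem exists_equiv_of_quadratic {k : Type} [Field k] (h2 : (2 : k) ≠ 0) {G : Type} [Group G]
    {U V : Type} [AddCommGroup U] [Module k U] [AddCommGroup V] [Module k V] [Nontrivial V]
    (πU : G →* Module.End k U) (πV : G →* Module.End k V) (d : G →* kˣ) (t : G → k)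
    (hqU : ∀ g, πU g * πU g - t g • πU g + ((d g : kˣ) : k) • (1 : Module.End k U) = 0)
    (hqV : ∀ g, πV g * πV g - t g • πV g + ((d g : kˣ) : k) • (1 : Module.End k V) = 0)
    (hU : ∀ N : Submodule k U, (∀ g, ∀ x ∈ N, πU g x ∈ N) → N = ⊥ ∨ N = ⊤)
    (hV : ∀ N : Submodule k V, (∀ g, ∀ x ∈ N, πV g x ∈ N) → N = ⊥ ∨ N = ⊤)
    (hdim : Module.finrank k U = 2) (c : G) (hc : c * c = 1) (hdc : ((d c : kˣ) : k) = -1) :
    ∃ φ : U ≃ₗ[k] V, ∀ g u, φ (πU g u) = πV g (φ u) := by
  -- `1 + εC ≠ 0` on `U`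
  have hzU : ∀ ε : k, (ε = 1 ∨ ε = -1) → (1 + ε • πU c : Module.End k U) ≠ 0 := by
    intro ε hε hz
    have hnt : Nontrivial U := Module.nontrivial_of_finrank_pos (R := k) (by rw [hdim]; norm_num)
    obtain ⟨u, hu⟩ := exists_ne (0 : U)
    have hst : ∀ g, ∀ x ∈ Submodule.span k {u}, πU g x ∈ Submodule.span k {u} := by
      intro g x hx
      obtain ⟨s, hs⟩ := ALG_scalar h2 πU d t hqU c hc hdc ε hε hz g x
      rw [hs]
      exact Submodule.smul_mem _ _ hx
    rcases hU _ hst with h | h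
    · rw [Submodule.span_singleton_eq_bot] at h
      exact hu h
    · have h1 := finrank_span_singleton (K := k) hu
      rw [h, finrank_top, hdim] at h1
      norm_num at h1
  -- the choice of the sign
  obtain ⟨ε, hε, hzV⟩ : ∃ ε : k, (ε = 1 ∨ ε = -1) ∧ (1 + ε • πV c : Module.End k V) ≠ 0 := by
    by_cases h : (1 + (1 : k) • πV c : Module.End k V) = 0
    · refine ⟨-1, Or.inr rfl, fun h' => ?_⟩
      have h3 : (2 : k) • (1 : Module.End k V) = 0 := by
        have : (2 : k) • (1 : Module.End k V)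
            = (1 + (1 : k) • πV c) + (1 + (-1 : k) • πV c) := by module
        rw [this, h, h', add_zero]
      rcases smul_eq_zero.1 h3 with h4 | h4
      · exact h2 h4
      · exact one_ne_zero h4
    · exact ⟨1, Or.inl rfl, h⟩
  set zU : Module.End k U := 1 + ε • πU c with hzUdef
  set zV : Module.End k V := 1 + ε • πV c with hzVdef
  obtain ⟨u₀, hu₀⟩ : ∃ u₀, zU u₀ ≠ 0 := by
    by_contra hcon
    push Not at hcon
    exact hzU ε hε (LinearMap.ext hcon)
  obtain ⟨v₀, hv₀⟩ : ∃ v₀, zV v₀ ≠ 0 := by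
    by_contra hcon
    push Not at hcon
    exact hzV (LinearMap.ext hcon)
  have hkey : ∀ g, ∃ s : k, zU * πU g * zU = s • zU ∧ zV * πV g * zV = s • zV := fun g =>
    ⟨t g + ε * t (g * c), ALG_zgz πU d t hqU c hc hdc ε hε g, ALG_zgz πV d t hqV c hc hdc ε hε g⟩
  have hkey' : ∀ g, ∃ s : k, zV * πV g * zV = s • zV ∧ zU * πU g * zU = s • zU := fun g => by
    obtain ⟨s, h1, h2⟩ := hkey g
    exact ⟨s, h2, h1⟩
  let fU : MonoidAlgebra k G →ₗ[k] U :=
    (LinearMap.applyₗ (zU u₀)).comp (MonoidAlgebra.lift k (Module.End k U) G πU).toLinearMap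
  let fV : MonoidAlgebra k G →ₗ[k] V :=
    (LinearMap.applyₗ (zV v₀)).comp (MonoidAlgebra.lift k (Module.End k V) G πV).toLinearMap
  have hfU : ∀ y, fU y = MonoidAlgebra.lift k (Module.End k U) G πU y (zU u₀) := fun _ => rfl
  have hfV : ∀ y, fV y = MonoidAlgebra.lift k (Module.End k V) G πV y (zV v₀) := fun _ => rfl
  have hsU : Function.Surjective fU := fun x => ALG_trans πU hU hu₀ x
  have hsV : Function.Surjective fV := fun x => ALG_trans πV hV hv₀ x
  have hker : LinearMap.ker fU = LinearMap.ker fV := by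
    ext b
    rw [LinearMap.mem_ker, LinearMap.mem_ker, hfU, hfV]
    exact ⟨ALG_ker πU πV zU zV hkey hV u₀ v₀ hu₀ b, ALG_ker πV πU zV zU hkey' hU v₀ u₀ hv₀ b⟩
  let φ : U ≃ₗ[k] V := (fU.quotKerEquivOfSurjective hsU).symm ≪≫ₗ
    (Submodule.quotEquivOfEq _ _ hker) ≪≫ₗ (fV.quotKerEquivOfSurjective hsV)
  have hφ : ∀ b, φ (fU b) = fV b := by
    intro b
    have h1 : (fU.quotKerEquivOfSurjective hsU).symm (fU b) = Submodule.Quotient.mk b := by
      rw [LinearEquiv.symm_apply_eq]
      rfl
    show (fV.quotKerEquivOfSurjective hsV) ((Submodule.quotEquivOfEq _ _ hker)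
      ((fU.quotKerEquivOfSurjective hsU).symm (fU b))) = fV b
    rw [h1]
    rfl
  refine ⟨φ, ?_⟩
  intro g u
  obtain ⟨b, rfl⟩ := hsU u
  have h1 : πU g (fU b) = fU (MonoidAlgebra.of k G g * b) := by
    rw [hfU, hfU, map_mul, MonoidAlgebra.lift_of, Module.End.mul_apply]
  have h2 : πV g (fV b) = fV (MonoidAlgebra.of k G g * b) := by
    rw [hfV, hfV, map_mul, MonoidAlgebra.lift_of, Module.End.mul_apply]
  rw [h1, hφ, hφ, h2]

end Fermat.Agent.S40Lib
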