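import Fermat.Agent.S40.EDefs
import Fermat.Agent.S13.Ladder

/-!
# S40 block (E), leaf (CARD): at least `n²` points of `n`-torsion
-/

set_option autoImplicit false

namespace Fermat.Agent.S40Lib

open Polynomial
open Fermat.Agent.S05Lib Fermat.Agent.S13Lib

private lemma CARD_LC_deriv {R : Type*} [CommRing R] {p : R[X]} {d : ℕ} {c : R}
    (hp : Lad.LC p d c) : Lad.LC (X * derivative p) d ((d : R) * c) := by
  constructor
  · rw [natDegree_le_iff_coeff_eq_zero]
    intro m hm
    obtain ⟨k, rfl⟩ : ∃ k, m = k + 1 := ⟨m - 1, by omega⟩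
    rw [coeff_X_mul, coeff_derivative, coeff_eq_zero_of_natDegree_lt (lt_of_le_of_lt hp.1 hm),
      zero_mul]
  · rcases d with _ | k
    · simp
    · rw [coeff_X_mul, coeff_derivative, hp.2]
      push_cast
      ring

section

variable {L : Type} [Field L] [IsAlgClosed L] [CharZero L] {G : Type}
    [AddCommGroup G] {a₂ a₄ : L}

private lemma CARD_rep (M : XYModel L G a₂ a₄) (h4 : a₄ ≠ 0) (hd : a₂ ^ 2 - 4 * a₄ ≠ 0)
    (hsurj : ∀ X Y : L, Y ^ 2 = X ^ 3 + a₂ * X ^ 2 + a₄ * X → ∃ P : G, M.co P = some (X, Y))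
    (n : ℕ) (x : L) :
    ∃ (R : G) (Y : L), M.co R = some (x, Y) ∧
      Lad.Rep M (n • R) ((Lad.xz (C a₂) (C a₄) X n).1.eval x, (Lad.xz (C a₂) (C a₄) X n).2.eval x) := by
  obtain ⟨Y, hY⟩ := IsAlgClosed.exists_pow_nat_eq (x ^ 3 + a₂ * x ^ 2 + a₄ * x) (n := 2)
    (by norm_num)
  obtain ⟨R, hR⟩ := hsurj x Y hY
  refine ⟨R, Y, hR, ?_⟩
  have h := Lad.xz_map (evalRingHom x) (C a₂) (C a₄) Polynomial.X n
  simp only [coe_evalRingHom, eval_C, eval_X] at h
  rw [← h]
  exact Lad.xz_rep M two_ne_zero h4 hd hR n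

end

theorem le_ncard_torsion {L : Type} [Field L] [IsAlgClosed L] [CharZero L] {G : Type}
    [AddCommGroup G] {a₂ a₄ : L} (M : XYModel L G a₂ a₄) (h4 : a₄ ≠ 0) (hd : a₂ ^ 2 - 4 * a₄ ≠ 0)
    (hsurj : ∀ X Y : L, Y ^ 2 = X ^ 3 + a₂ * X ^ 2 + a₄ * X → ∃ P : G, M.co P = some (X, Y))
    (n : ℕ) (hn : 0 < n) : n ^ 2 ≤ {x : G | n • x = 0}.ncard ∨ {x : G | n • x = 0}.Infinite := by
  classical
  have hrep := CARD_rep M h4 hd hsurj n
  obtain ⟨lN, lD⟩ := Lad.xz_LC a₂ a₄ n hn
  generalize (Lad.xz (C a₂) (C a₄) X n).1 = N at hrep lN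
  generalize (Lad.xz (C a₂) (C a₄) X n).2 = D at hrep lD
  obtain ⟨e, he⟩ : ∃ e, n ^ 2 = e + 1 := ⟨n ^ 2 - 1, (Nat.sub_add_cancel (Nat.pow_pos hn)).symm⟩
  rw [he] at lN lD
  rw [Nat.add_sub_cancel] at lD
  -- the Wronskian is nonzero
  have hWr : derivative N * D - N * derivative D ≠ 0 := by
    intro h0
    have l1 := CARD_LC_deriv lN
    have l2 := CARD_LC_deriv lD
    have l3 := (l1.mul lD).sub (lN.mul l2)
    have e1 : X * derivative N * D - N * (X * derivative D)
        = X * (derivative N * D - N * derivative D) := by ring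
    rw [e1, h0, mul_zero] at l3
    have h1 := l3.2
    rw [coeff_zero] at h1
    have h3 : ((n : L)) ^ 2 = 0 := by
      have : (((e + 1 : ℕ) : L)) * 1 * (n : L) ^ 2 - 1 * ((e : L) * (n : L) ^ 2) = (n : L) ^ 2 := by
        push_cast; ring
      rw [← this, ← h1]
    have h5 : (n : L) = 0 := by simpa using h3
    exact hn.ne' (by exact_mod_cast h5)
  -- the choice of `X₀`
  obtain ⟨X₀, hX₀⟩ := Infinite.exists_notMem_finset
    ((derivative N * D - N * derivative D).roots.toFinset.image (fun x => N.eval x / D.eval x))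
  -- no common zero of `N` and `D`
  have hND : ∀ x, N.eval x = X₀ * D.eval x → D.eval x ≠ 0 := by
    intro x hx h0
    obtain ⟨R, Y, -, hR⟩ := hrep x
    rcases hR with ⟨-, -, h3⟩ | ⟨_, _, -, h3, -⟩
    · apply h3
      simp only
      rw [hx, h0, mul_zero]
    · exact h3 h0
  set F : L[X] := N - C X₀ * D with hF
  have lF : Lad.LC F (e + 1) 1 :=
    (lN.sub (((Lad.LC.const X₀).mul lD).mono (by omega))).congr rfl (by ring)
  have hF0 : F ≠ 0 := by
    intro h
    have := lF.2
    rw [h, coeff_zero] at this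
    exact zero_ne_one this
  have hFdeg : F.natDegree = e + 1 :=
    natDegree_eq_of_le_of_coeff_ne_zero lF.1 (by rw [lF.2]; exact one_ne_zero)
  have hFroot : ∀ x, F.IsRoot x ↔ N.eval x = X₀ * D.eval x := by
    intro x
    rw [IsRoot.def, hF, eval_sub, eval_mul, eval_C, sub_eq_zero]
  have hnodup : F.roots.Nodup := by
    rw [Multiset.nodup_iff_count_le_one]
    intro x
    rw [count_roots]
    by_contra hlt
    rw [not_le, one_lt_rootMultiplicity_iff_isRoot hF0] at hlt
    obtain ⟨r1, r2⟩ := hlt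
    rw [hFroot] at r1
    have hD0 := hND x r1
    rw [IsRoot.def, hF, derivative_sub, derivative_mul, derivative_C, zero_mul, zero_add, eval_sub,
      eval_mul, eval_C, sub_eq_zero] at r2
    apply hX₀
    rw [Finset.mem_image]
    refine ⟨x, ?_, ?_⟩
    · rw [Multiset.mem_toFinset, mem_roots hWr, IsRoot.def, eval_sub, eval_mul, eval_mul, r1, r2]
      ring
    · rw [r1, mul_div_assoc, div_self hD0, mul_one]
  have hcard : F.roots.toFinset.card = n ^ 2 := by
    rw [Multiset.toFinset_card_of_nodup hnodup, IsAlgClosed.card_roots_eq_natDegree, hFdeg, he]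
  -- the point `T`
  obtain ⟨T, YT, hT, -⟩ := hrep X₀
  have hpt : ∀ x, F.IsRoot x → ∃ (R : G) (Y : L), M.co R = some (x, Y) ∧ n • R = T := by
    intro x hx
    rw [hFroot] at hx
    have hD0 := hND x hx
    obtain ⟨R, Y, hR, hR'⟩ := hrep x
    rcases hR' with ⟨-, h3, -⟩ | ⟨x', y', h1, -, h3⟩
    · exact absurd h3 hD0
    · simp only at h3
      have hx' : x' = X₀ := by
        rw [hx] at h3
        exact (mul_right_cancel₀ hD0 h3).symm
      subst hx'
      rcases M.eq_or_eq_neg h1 hT with h | h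
      · exact ⟨R, Y, hR, h⟩
      · exact ⟨-R, -Y, M.co_neg hR, by rw [smul_neg, h, neg_neg]⟩
  choose! g gY hg hgT using hpt
  have hginj : Set.InjOn g (F.roots.toFinset : Set L) := by
    intro x hx x' hx' h
    have hx1 : F.IsRoot x := by
      have : x ∈ F.roots := by simpa using hx
      exact (mem_roots hF0).mp this
    have hx2 : F.IsRoot x' := by
      have : x' ∈ F.roots := by simpa using hx'
      exact (mem_roots hF0).mp this
    have h1 := hg x hx1
    have h2 := hg x' hx2
    rw [h, h2] at h1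
    simp only [Option.some.injEq, Prod.mk.injEq] at h1
    exact h1.1.symm
  obtain ⟨x₀, hx₀⟩ : F.roots.toFinset.Nonempty := by
    rw [← Finset.card_pos, hcard]
    exact Nat.pow_pos hn
  have hx₀' : F.IsRoot x₀ := by
    have : x₀ ∈ F.roots := by simpa using hx₀
    exact (mem_roots hF0).mp this
  by_cases hfin : {x : G | n • x = 0}.Finite
  · left
    have hsub : (fun x => g x - g x₀) '' (F.roots.toFinset : Set L) ⊆ {x : G | n • x = 0} := by
      rintro _ ⟨x, hx, rfl⟩
      have hx1 : F.IsRoot x := by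
        have : x ∈ F.roots := by simpa using hx
        exact (mem_roots hF0).mp this
      show n • (g x - g x₀) = 0
      rw [smul_sub, hgT x hx1, hgT x₀ hx₀', sub_self]
    have hinj : Set.InjOn (fun x => g x - g x₀) (F.roots.toFinset : Set L) := by
      intro x hx x' hx' h
      exact hginj hx hx' (sub_left_injective h)
    calc n ^ 2 = (F.roots.toFinset : Set L).ncard := by rw [Set.ncard_coe_finset, hcard]
      _ = ((fun x => g x - g x₀) '' (F.roots.toFinset : Set L)).ncard :=
          hinj.ncard_image.symm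
      _ ≤ {x : G | n • x = 0}.ncard := Set.ncard_le_ncard hsub hfin
  · right
    exact hfin

end Fermat.Agent.S40Lib
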