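import Fermat.Agent.S33.XDefs
import Fermat.Agent.S33.XScale

/-!
# S40 library, block (GAPW), leaf (GW1): boundary case of `pow_leading`
-/

set_option autoImplicit false

open Fermat.Agent.S18Lib Fermat.Agent.S34Lib Fermat.Agent.S33Lib

namespace Fermat.Agent.S40Lib

variable {K k F Φ : Type*} [Field K] [Field k] [Field F] [Algebra K F] [CommRing Φ] [Algebra k Φ]
  {A : ValuationSubring K} {resK : A →+* k}

/-- (GW1) `S40/GapwPow.lean` : boundary case of `pow_leading` -/
theorem pow_boundary [Nontrivial Φ] [IsReduced Φ] {p : ℕ} [Fact p.Prime] (R : RedG A resK F Φ)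
    (g ρ : R.O) (hg : R.red g = 1) (π c : A) (hπ0 : π ≠ 0) (hπ : resK π = 0)
    (hc : (p : A) = c * π ^ (p - 1)) (h : g ^ p = 1 + R.const (π ^ p) * ρ) :
    ∃ g₁ : R.O, g = 1 + R.const π * g₁ ∧
      R.red ρ = R.red g₁ ^ p + algebraMap k Φ (resK c) * R.red g₁ := by
  have hp : p.Prime := Fact.out
  have hp1 : p - 1 ≠ 0 := by have := hp.two_le; omega
  have hpp : p - 1 + 1 = p := by have := hp.two_le; omega
  have hπK : (π : K) ≠ 0 := fun h0 => hπ0 (Subtype.ext h0)
  have hcancel : ∀ (a : A) (y z : R.O), a ≠ 0 → xsC R a * y = xsC R a * z → y = z := by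
    intro a y z ha hyz
    have haK : algebraMap K F (a : K) ≠ 0 := by
      have : (a : K) ≠ 0 := fun h0 => ha (Subtype.ext h0)
      simpa using this
    apply Subtype.ext
    have h1 : algebraMap K F (a : K) * ((y : R.O) : F) = algebraMap K F (a : K) * ((z : R.O) : F) :=
      congrArg (fun t : R.O => (t : F)) hyz
    exact mul_left_cancel₀ haK h1
  rw [xs_const] at h
  simp only [xs_const]
  by_cases hg1 : g = 1
  · refine ⟨0, by rw [hg1, mul_zero, add_zero], ?_⟩
    rw [hg1, one_pow, left_eq_add] at h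
    have h3 : ρ = 0 := hcancel (π ^ p) ρ 0 (pow_ne_zero _ hπ0) (by rw [h, mul_zero])
    rw [h3, map_zero, zero_pow hp.ne_zero, mul_zero, add_zero]
  have hx0 : ((g - 1 : R.O) : F) ≠ 0 := by
    intro h0
    apply hg1
    have : g - 1 = 0 := Subtype.ext h0
    exact sub_eq_zero.1 this
  obtain ⟨γ₀, hγ₀0, g₁, hg₁, hx⟩ := R.exists_scale _ hx0
  have hγA : γ₀ ∈ A := by
    rw [← A.valuation_le_one_iff]
    have := xs_le_of_red_ne_zero' R g₁ (g - 1) γ₀ 1 hg₁ (by rw [map_one, one_mul, hx])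
    rwa [map_one] at this
  set γ : A := ⟨γ₀, hγA⟩ with hγ
  have hγne : γ ≠ 0 := fun h0 => hγ₀0 (congrArg Subtype.val h0)
  have hgG : g = 1 + xsC R γ * g₁ := by
    have : g - 1 = xsC R γ * g₁ := Subtype.ext hx
    rw [← this]; ring
  have hresγ : resK γ = 0 := by
    by_contra hne
    apply hg₁
    have h1 := congrArg R.red hgG
    rw [hg, map_add, map_one, map_mul, xs_red_C, left_eq_add] at h1
    have h2 : algebraMap k Φ ((resK γ)⁻¹ * resK γ) * R.red g₁ = 0 := by
      rw [map_mul, mul_assoc, h1, mul_zero]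
    rwa [inv_mul_cancel₀ hne, map_one, one_mul] at h2
  set G : R.O := xsC R γ * g₁ with hG
  obtain ⟨Q, hQ⟩ := xs_binom hp (1 : R.O) G
  rw [one_pow, one_pow] at hQ
  have hmain : xsC R (π ^ p) * ρ = G ^ p + p * G * (1 + G * Q) := by
    have : (1 : R.O) + xsC R (π ^ p) * ρ = 1 + G ^ p + p * G * (1 + G * Q) := by
      rw [← h, hgG, hQ]
    exact add_left_cancel (a := (1 : R.O)) (by rw [this]; ring)
  have hredG : R.red G = 0 := by rw [hG, map_mul, xs_red_C, hresγ, map_zero, zero_mul]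
  have hpR : (p : R.O) = xsC R c * xsC R π ^ (p - 1) := by
    rw [← map_natCast (xsC R) p, hc, map_mul, map_pow]
  have alg1 : ∀ (P X Cc T : R.O),
      (P * X) ^ p + Cc * P ^ (p - 1) * (P * X) * T = P ^ p * (X ^ p + Cc * X * T) := by
    intro P X Cc T
    have : P ^ p = P ^ (p - 1) * P := by rw [← pow_succ, hpp]
    rw [mul_pow, this]; ring
  -- first case : `π ∣ γ`
  have case1 : ∀ e : A, γ = π * e → ∃ g₁ : R.O, g = 1 + xsC R π * g₁ ∧
      R.red ρ = R.red g₁ ^ p + algebraMap k Φ (resK c) * R.red g₁ := by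
    intro e he
    have e1 : G = xsC R π * (xsC R e * g₁) := by rw [hG, he, map_mul]; ring
    refine ⟨xsC R e * g₁, by rw [hgG, e1], ?_⟩
    have h1 : xsC R (π ^ p) * ρ = xsC R (π ^ p) *
        ((xsC R e * g₁) ^ p + xsC R c * (xsC R e * g₁) * (1 + G * Q)) := by
      rw [hmain, map_pow, ← alg1, ← e1, ← hpR]
    have h2 := hcancel _ _ _ (pow_ne_zero _ hπ0) h1
    rw [h2]
    simp only [map_add, map_mul, map_pow, map_one, xs_red_C, hredG, zero_mul, add_zero, mul_one]
  rcases ValuationRing.dvd_total π γ with ⟨e, he⟩ | ⟨e, he⟩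
  · exact case1 e he
  by_cases heu : resK e = 0
  swap
  · rw [xs_ker R, not_not] at heu
    obtain ⟨e', hee'⟩ := heu.exists_right_inv
    exact case1 e' (by rw [he, mul_assoc, hee', mul_one])
  exfalso
  apply hg₁
  have h1 : xsC R (γ ^ p) * (xsC R (e ^ p) * ρ) = xsC R (γ ^ p) *
      (g₁ ^ p + (xsC R c * xsC R e ^ (p - 1)) * g₁ * (1 + G * Q)) := by
    have e3 : xsC R (γ ^ p) * (xsC R (e ^ p) * ρ) = xsC R (π ^ p) * ρ := by
      rw [he, mul_pow, map_mul]; ring
    have e4 : (p : R.O) = xsC R c * xsC R e ^ (p - 1) * xsC R γ ^ (p - 1) := by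
      rw [hpR, he, map_mul, mul_pow]; ring
    rw [e3, hmain, map_pow, ← alg1, ← hG, ← e4]
  have h2 := hcancel _ _ _ (pow_ne_zero _ hγne) h1
  have h3 := congrArg R.red h2
  simp only [map_add, map_mul, map_pow, map_one, xs_red_C, hredG, heu, zero_mul, add_zero, mul_one,
    map_zero, zero_pow hp.ne_zero, zero_pow hp1, mul_zero] at h3
  exact (pow_eq_zero_iff hp.ne_zero).1 h3.symm

end Fermat.Agent.S40Lib
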