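import Fermat.Agent.S33.MKeyP
import Fermat.Agent.S33.MGapExcl
import Fermat.Agent.S33.GTame
import Fermat.Agent.S40.GapwPow

/-!
# S40 library, block (GAPW), (GW10a): Artin-Schreier triviality of the first component
-/

set_option autoImplicit false
set_option synthInstance.maxHeartbeats 400000
set_option linter.unusedSectionVars false
set_option maxHeartbeats 400000

open AlgebraicCurve IntermediateField ModularCurve
  Fermat.Agent.S24Lib Fermat.Agent.FFLib Fermat.Agent.S18Lib Fermat.Agent.S28Lib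
  Fermat.Agent.ESLib Fermat.Agent.S34Lib Fermat.Agent.S36Lib Fermat.Agent.S33Lib

namespace Fermat.Agent.S40Lib

noncomputable section

variable {M p : ℕ} [NeZero M] [NeZero p] [hpF : Fact p.Prime] {hpM : ¬ p ∣ M}
variable {A : ValuationSubring Qb}
variable {R : RedG A (IsLocalRing.residue A) (FB (p * M)) (FT A M × FT A M)}

/-- (GW10a) `S40/GapwToric.lean` : Artin-Schreier triviality of the first component -/
theorem toric_fst (hA : A.LiesOverPrime p) (hR : IsQRed2 M p hpM A R)
    (lam : A) (hlam : lam ^ (p - 1) = -(p : A)) (r : R.O) (a : FB M)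
    (h : nrm (pi1 M p) ((1 + R.const (lam ^ p) * r : R.O) : FB (p * M)) = a ^ p) :
    ∃ t : FT A M, (R.red r).1 = t ^ p - t := by
  have := isAlgClosed_kk A
  have : CharP (kk A) p := charP_kk hpF.out hA
  have hp := hpF.out
  have hp1 : p - 1 ≠ 0 := by have := hp.two_le; omega
  have hpA : (p : A) ≠ 0 := by
    intro h0
    have : ((p : A) : Qb) = 0 := by rw [h0]; rfl
    rw [show ((p : A) : Qb) = (p : Qb) from by push_cast; rfl] at this
    exact hp.ne_zero (by exact_mod_cast this)
  have hl0 : lam ≠ 0 := by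
    intro h0
    rw [h0, zero_pow hp1] at hlam
    exact hpA (neg_eq_zero.1 hlam.symm)
  have hlr : IsLocalRing.residue A lam = 0 := by
    have h1 : IsLocalRing.residue A lam ^ (p - 1) = 0 := by
      rw [← map_pow, hlam, map_neg, map_natCast, CharP.cast_eq_zero, neg_zero]
    exact pow_eq_zero_iff hp1 |>.1 h1
  have hδ : IsLocalRing.residue A (lam ^ p) = 0 := by rw [map_pow, hlr, zero_pow hp.ne_zero]
  have hδ0 : lam ^ p ≠ 0 := pow_ne_zero _ hl0
  obtain ⟨r', hr', hred⟩ := nrm_rep hA hR (lam ^ p) hδ hδ0 r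
  set e : (RG1 M p hpM A hA).O := 1 + (RG1 M p hpM A hA).const (lam ^ p) * r' with he
  have hered : (RG1 M p hpM A hA).red e = 1 := by
    rw [he, map_add, map_one, map_mul, RedG.red_const, hδ, map_zero, zero_mul, add_zero]
  have hae : a ^ p = (e : FB M) := by rw [← h, hr']
  have hmem : a ^ p ∈ (RG1 M p hpM A hA).O := by rw [hae]; exact e.2
  have hr1 : (RG1 M p hpM A hA).red ⟨_, hmem⟩ = 1 := by
    rw [← hered]
    congr 1
    exact Subtype.ext hae
  obtain ⟨ham, har⟩ := KP_root_mem M p hpM A hA a hmem hr1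
  obtain ⟨g₁, -, hg₁⟩ := pow_boundary (RG1 M p hpM A hA) (⟨a, ham⟩ : (RG1 M p hpM A hA).O) r' har
    lam (-1) hl0 hlr (by rw [hlam]; ring) (Subtype.ext hae)
  refine ⟨(RG1 M p hpM A hA).red g₁, ?_⟩
  rw [← hred, hg₁, map_neg, map_one, map_neg, map_one]
  ring

end

end Fermat.Agent.S40Lib
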