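import Fermat.Agent.S33.MKeyP
import Fermat.Agent.S33.MGapExcl
import Fermat.Agent.S33.GTame

/-!
# S40 library, block (GAPW), (GW9): the gap of a class killed by both norms
-/

set_option autoImplicit false
set_option synthInstance.maxHeartbeats 400000
set_option linter.unusedSectionVars false
set_option maxHeartbeats 400000

open AlgebraicCurve IntermediateField ModularCurve
  Fermat.Agent.S24Lib Fermat.Agent.FFLib Fermat.Agent.S18Lib Fermat.Agent.S28Lib
  Fermat.Agent.ESLib Fermat.Agent.S34Lib Fermat.Agent.S36Lib Fermat.Agent.S33Lib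

namespace Fermat.Agent.S40Lib

noncomputable section

variable {M p : ℕ} [NeZero M] [NeZero p] [hpF : Fact p.Prime] {hpM : ¬ p ∣ M}
variable {A : ValuationSubring Qb}
variable {R : RedG A (IsLocalRing.residue A) (FB (p * M)) (FT A M × FT A M)}

/-- the first component of the leading term of a class whose norm is a `p`-th power is a
`p`-th power (below the boundary) -/
theorem GW9_fst (hA : A.LiesOverPrime p) (hR : IsQRed2 M p hpM A R)
    (δ : A) (hδ : IsLocalRing.residue A δ = 0) (hδ0 : δ ≠ 0)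
    (hlt : A.valuation (p : Qb) ^ p < A.valuation (δ : Qb) ^ (p - 1))
    (r : R.O) (a : FB M)
    (ha : nrm (pi1 M p) ((1 + R.const δ * r : R.O) : FB (p * M)) = a ^ p) :
    ∃ y : FT A M, (R.red r).1 = y ^ p := by
  have := isAlgClosed_kk A
  have : CharP (kk A) p := charP_kk hpF.out hA
  obtain ⟨r', hr', hred⟩ := nrm_rep hA hR δ hδ hδ0 r
  set e : (RG1 M p hpM A hA).O := 1 + (RG1 M p hpM A hA).const δ * r' with he
  have hered : (RG1 M p hpM A hA).red e = 1 := by
    rw [he, map_add, map_one, map_mul, RedG.red_const, hδ, map_zero, zero_mul, add_zero]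
  have hae : a ^ p = (e : FB M) := by rw [← ha, hr']
  have hmem : a ^ p ∈ (RG1 M p hpM A hA).O := by rw [hae]; exact e.2
  have hr1 : (RG1 M p hpM A hA).red ⟨_, hmem⟩ = 1 := by
    rw [← hered]
    congr 1
    exact Subtype.ext hae
  obtain ⟨ham, har⟩ := KP_root_mem M p hpM A hA a hmem hr1
  obtain ⟨y, hy⟩ := pow_leading (RG1 M p hpM A hA) (⟨a, ham⟩ : (RG1 M p hpM A hA).O) r' har δ hlt
    (Subtype.ext hae)
  exact ⟨y, by rw [← hred, hy]⟩

/-- (GW9) `S40/GapwVal.lean` : (G1) the gap of a class killed by both norms is `1/(p-1)` -/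
theorem gapw_val (hA : A.LiesOverPrime p) (hR : IsQRed2 M p hpM A R)
    {x : R.O} {𝓛 : ℕ → Submodule (kk A) (FT A M × FT A M)} {n : ℕ}
    (C : IsChartAt R IsLocalRing.residue_surjective p x 𝓛 n) (u : R.O) (hu : R.red u = 1)
    (a₁ a₂ : FB M) (h1 : nrm (pi1 M p) ((u : R.O) : FB (p * M)) = a₁ ^ p)
    (h2 : nrm (pi1 M p) (wq M p hpM ((u : R.O) : FB (p * M))) = a₂ ^ p) (π : A)
    (hπ : HasGap R IsLocalRing.residue_surjective p x 𝓛 n u π) :
    A.valuation (π : Qb) ^ (p - 1) = A.valuation (p : Qb) := by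
  have := isAlgClosed_kk A
  have : CharP (kk A) p := charP_kk hpF.out hA
  have hp := hpF.out
  by_contra hne1
  obtain ⟨hπ0, hπr, hlt, g₁, r, hg₁, hrep, hnot⟩ :=
    hasGap_rep R IsLocalRing.residue_surjective C u hu π hπ hne1
  have hδ : IsLocalRing.residue A (π ^ p) = 0 := by rw [map_pow, hπr, zero_pow hp.ne_zero]
  have hδ0 : π ^ p ≠ 0 := pow_ne_zero _ hπ0
  have hrepF : ((1 + R.const (π ^ p) * r : R.O) : FB (p * M)) =
      ((g₁ : R.O) : FB (p * M)) ^ p * ((u : R.O) : FB (p * M)) := by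
    rw [hrep]; rfl
  have hn1 : nrm (pi1 M p) ((1 + R.const (π ^ p) * r : R.O) : FB (p * M)) =
      (nrm (pi1 M p) ((g₁ : R.O) : FB (p * M)) * a₁) ^ p := by
    rw [hrepF, map_mul, map_pow, h1, mul_pow]
  obtain ⟨y₁, hy₁⟩ := GW9_fst hA hR (π ^ p) hδ hδ0 hlt r _ hn1
  obtain ⟨hwm, hwr⟩ := wq_mem hR r
  have hwrep : ((1 + R.const (π ^ p) * ⟨_, hwm⟩ : R.O) : FB (p * M)) =
      wq M p hpM ((1 + R.const (π ^ p) * r : R.O) : FB (p * M)) := by
    push_cast
    rw [map_add, map_one, map_mul, R.coe_const, AlgEquiv.commutes]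
  have hn2 : nrm (pi1 M p) ((1 + R.const (π ^ p) * ⟨_, hwm⟩ : R.O) : FB (p * M)) =
      (nrm (pi1 M p) (wq M p hpM ((g₁ : R.O) : FB (p * M))) * a₂) ^ p := by
    rw [hwrep, hrepF, map_mul, map_pow, map_mul, map_pow, h2, mul_pow]
  obtain ⟨y₂, hy₂⟩ := GW9_fst hA hR (π ^ p) hδ hδ0 hlt ⟨_, hwm⟩ _ hn2
  rw [hwr] at hy₂
  exact hnot (y₁, y₂) (Prod.ext hy₁ hy₂)

end

end Fermat.Agent.S40Lib
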