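import Fermat.Agent.S33.MKeyP
import Fermat.Agent.S33.MGapExcl
import Fermat.Agent.S33.GTame

/-!
# S40 library, block (GAPW), leaf (GW7): the tame character on `π`, `v(π) = 1/(p-1)`
-/

set_option autoImplicit false
set_option synthInstance.maxHeartbeats 400000
set_option linter.unusedSectionVars false
set_option maxHeartbeats 400000

open AlgebraicCurve IntermediateField ModularCurve
  Fermat.Agent.S24Lib Fermat.Agent.FFLib Fermat.Agent.S18Lib Fermat.Agent.S28Lib
  Fermat.Agent.ESLib Fermat.Agent.S34Lib Fermat.Agent.S36Lib Fermat.Agent.S33Lib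

namespace Fermat.Agent.S40Lib

noncomputable section

/-- (GW7) `S40/GapwTame.lean` : the tame character on `π`, `v(π) = 1/(p-1)` -/
theorem tame_theta (p : ℕ) (hp : p.Prime) (A : ValuationSubring Qb) (hA : A.LiesOverPrime p)
    (τ : GQ) (hτ : τ ∈ A.inertiaSubgroupIn ℚ) (ζ : Qb) (hζ : ζ ^ p = 1) (hζ1 : ζ ≠ 1) (j : ℕ)
    (hj : τ ζ = ζ ^ j) (π : A) (hπ : A.valuation (π : Qb) ^ (p - 1) = A.valuation (p : Qb)) :
    ∃ θ : A, τ (π : Qb) = θ * π ∧ IsLocalRing.residue A θ = (j : kk A) := by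
  have hp1 : p - 1 ≠ 0 := by have := hp.two_le; omega
  have hvp : A.valuation (p : Qb) < 1 := (A.mem_nonunits_iff).1 hA
  have hp0 : (p : Qb) ≠ 0 := by exact_mod_cast hp.ne_zero
  have hlam := valuation_one_sub_zeta p hp A hA ζ hζ hζ1
  set lam : Qb := 1 - ζ with hlamdef
  have hlam0 : lam ≠ 0 := sub_ne_zero.2 (Ne.symm hζ1)
  have hπ0 : (π : Qb) ≠ 0 := by
    intro h
    rw [h, map_zero, zero_pow hp1] at hπ
    exact hp0 ((map_eq_zero A.valuation).1 hπ.symm)
  have hveq : A.valuation (π : Qb) = A.valuation lam :=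
    (pow_left_injective hp1) (by
      show A.valuation (π : Qb) ^ (p - 1) = A.valuation lam ^ (p - 1)
      rw [hπ, hlam])
  have hvlam : A.valuation lam < 1 := by
    by_contra hcon
    rw [not_lt] at hcon
    have := one_le_pow₀ (n := p - 1) hcon
    rw [hlam] at this
    exact absurd hvp (not_lt.2 this)
  have hζA : ζ ∈ A := (A.valuation_le_one_iff ζ).1 (G_root_mem A ζ hp.ne_zero hζ).le
  -- the unit `ε = π / lam`
  set ε : Qb := (π : Qb) / lam with hε
  have hvε : A.valuation ε = 1 := by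
    rw [hε, map_div₀, hveq]
    exact div_self (by rw [Ne, map_eq_zero]; exact hlam0)
  have hε0 : ε ≠ 0 := div_ne_zero hπ0 hlam0
  have h1 : A.valuation (τ ε / ε - 1) < 1 := by
    have h2 := tame_unit A τ hτ ε hvε
    have h3 : τ ε / ε - 1 = (τ ε - ε) / ε := by field_simp
    rw [h3, map_div₀, hvε, div_one]
    exact h2
  -- the geometric sum
  set s : Qb := ∑ i ∈ Finset.range j, ζ ^ i with hs
  have hsA : A.valuation s ≤ 1 :=
    (A.valuation_le_one_iff s).2 (A.sum_mem fun i _ => A.pow_mem hζA i)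
  have hsj : A.valuation (s - (j : Qb)) < 1 := by
    have h2 : s - (j : Qb) = ∑ i ∈ Finset.range j, (ζ ^ i - 1) := by
      rw [Finset.sum_sub_distrib, hs]
      simp
    rw [h2]
    refine A.valuation.map_sum_lt one_ne_zero (fun i _ => ?_)
    have h3 := G_one_sub_pow_le A ζ hζA i
    rw [← neg_sub, Valuation.map_neg]
    exact lt_of_le_of_lt h3 hvlam
  have hτlam : τ lam = lam * s := by
    rw [hlamdef, map_sub, map_one, hj, hs, ← mul_neg_geom_sum]
  -- `θ`
  set θ : Qb := (τ ε / ε) * s with hθ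
  have hθj : A.valuation (θ - (j : Qb)) < 1 := by
    have h2 : θ - (j : Qb) = (τ ε / ε - 1) * s + (s - (j : Qb)) := by rw [hθ]; ring
    rw [h2]
    refine A.valuation.map_add_lt ?_ hsj
    rw [map_mul]
    exact mul_lt_one_of_lt_of_le h1 hsA
  have hjA : ((j : ℕ) : Qb) ∈ A := natCast_mem A j
  have hθA : θ ∈ A := by
    have h2 : θ = (θ - (j : Qb)) + (j : Qb) := by ring
    rw [h2]
    exact A.add_mem _ _ ((A.valuation_le_one_iff _).1 hθj.le) hjA
  refine ⟨⟨θ, hθA⟩, ?_, ?_⟩
  · show τ (π : Qb) = θ * π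
    have h2 : (π : Qb) = ε * lam := by rw [hε]; field_simp
    have h3 : τ (π : Qb) = τ ε * τ lam := by
      conv_lhs => rw [h2]
      rw [map_mul]
    rw [h3, hτlam, hθ]
    conv_rhs => rw [h2]
    field_simp
  · rw [← sub_eq_zero, ← map_natCast (IsLocalRing.residue A) j, ← map_sub,
      IsLocalRing.residue_eq_zero_iff, ValuationSubring.valuation_lt_one_iff]
    exact hθj

end

end Fermat.Agent.S40Lib
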