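import Fermat.Agent.S40.EDefs
import Fermat.Agent.Lib.QuadRep.Engine
import Fermat.Agent.S30.Cyclo

/-!
# S40 block (E), leaf (CY): the mod `p` cyclotomic character
-/

set_option autoImplicit false

namespace Fermat.Agent.S40Lib

open Polynomial

local notation "Qb" => AlgebraicClosure ℚ
local notation "GQ" => (AlgebraicClosure ℚ ≃ₐ[ℚ] AlgebraicClosure ℚ)

theorem exists_cyclo_zeta (p : ℕ) [Fact p.Prime] {ζ : Qb} (hζ : IsPrimitiveRoot ζ p) :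
    ∃ ω : GQ →* (ZMod p)ˣ,
      (∃ L : IntermediateField ℚ Qb, FiniteDimensional ℚ L ∧
        ∀ σ : GQ, (∀ x ∈ L, σ x = x) → ω σ = 1) ∧
      (∀ ℓ : ℕ, ℓ.Prime → ℓ ≠ p → ∀ A : ValuationSubring Qb, A.LiesOverPrime ℓ →
        ∀ σ : GQ, A.IsFrobeniusAt σ ℓ → ((ω σ : (ZMod p)ˣ) : ZMod p) = (ℓ : ZMod p)) ∧
      (∀ (σ : GQ) (j : ℕ), σ ζ = ζ ^ j → ((ω σ : (ZMod p)ˣ) : ZMod p) = (j : ZMod p)) ∧
      ((ω complexConjugation : (ZMod p)ˣ) : ZMod p) = -1 := by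
  have hp : p.Prime := Fact.out
  have hint : IsIntegral ℤ ζ := hζ.isIntegral hp.pos
  have key : ∀ (σ : GQ) (j : ℕ), σ ζ = ζ ^ j →
      ((hζ.autToPow ℚ σ : (ZMod p)ˣ) : ZMod p) = (j : ZMod p) := by
    intro σ j h1
    have hspec := hζ.autToPow_spec ℚ σ
    rw [h1] at hspec
    have h3 := QRLib.Q3.modEq_of_pow_eq hp hζ.pow_eq_one (hζ.ne_one hp.one_lt) hspec
    rw [← ZMod.natCast_eq_natCast_iff, ZMod.natCast_zmod_val] at h3
    exact h3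
  refine ⟨hζ.autToPow ℚ, ?_, ?_, key, ?_⟩
  · refine ⟨IntermediateField.adjoin ℚ {ζ},
      IntermediateField.adjoin.finiteDimensional (hint.tower_top), ?_⟩
    intro σ hσ
    have h1 : σ ζ = ζ ^ 1 := by
      rw [pow_one]; exact hσ ζ (IntermediateField.mem_adjoin_simple_self ℚ ζ)
    have h3 := key σ 1 h1
    rw [Nat.cast_one] at h3
    exact Units.ext h3
  · intro ℓ hℓ hℓp A hA σ hσ
    obtain ⟨hd, hF⟩ := hσ
    have hζA : ζ ∈ A := Fermat.Agent.FrobLib.integral_mem_valuationSubring A hint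
    exact QRLib.Q3.key hζ hℓ hℓp A hA hζA ⟨σ, hd⟩ ℓ (hF _)
  · have h1 : complexConjugation ζ = ζ ^ (p - 1) := by
      rw [S30Lib.cy_conj_zeta hp.ne_zero ζ hζ.pow_eq_one]
      have h0 : ζ ≠ 0 := hζ.ne_zero hp.ne_zero
      apply inv_eq_of_mul_eq_one_right
      rw [← pow_succ', Nat.sub_add_cancel hp.one_le]
      exact hζ.pow_eq_one
    rw [key _ _ h1, Nat.cast_sub hp.one_le, ZMod.natCast_self, Nat.cast_one, zero_sub]

/-- quadratic Frobenius relations propagate to all of `GQ` (weak Chebotarev; copy of the first half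
of `QRLib.exists_residualRep_of_quadratic`) -/
theorem exists_trace_of_quadratic {p : ℕ} [Fact p.Prime] (ω : GQ →* (ZMod p)ˣ)
    (hωlev : ∃ L : IntermediateField ℚ Qb, FiniteDimensional ℚ L ∧
        ∀ σ : GQ, (∀ x ∈ L, σ x = x) → ω σ = 1)
    (hωF : ∀ ℓ : ℕ, ℓ.Prime → ℓ ≠ p → ∀ A : ValuationSubring Qb, A.LiesOverPrime ℓ →
        ∀ σ : GQ, A.IsFrobeniusAt σ ℓ → ((ω σ : (ZMod p)ˣ) : ZMod p) = (ℓ : ZMod p))
    {V : Type} [AddCommGroup V] [Module (ZMod p) V]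
    (ρ : GQ →* Module.End (ZMod p) V) (hlev : GaloisFactorsThroughFiniteLevel ρ)
    (D : ℕ) (hD : D ≠ 0) (hpD : p ∣ D) (a : ℕ → ZMod p)
    (hquad : ∀ ℓ : ℕ, ℓ.Prime → ¬ ℓ ∣ D → ∀ A : ValuationSubring Qb, A.LiesOverPrime ℓ →
      ∀ σ : GQ, A.IsFrobeniusAt σ ℓ →
        ρ σ * ρ σ - a ℓ • ρ σ + (ℓ : ZMod p) • (1 : Module.End (ZMod p) V) = 0) :
    ∃ t : GQ → ZMod p, ∀ g,
      ρ g * ρ g - t g • ρ g + ((ω g : (ZMod p)ˣ) : ZMod p) • (1 : Module.End (ZMod p) V) = 0 := by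
  obtain ⟨Lω, hLω, hω1⟩ := hωlev
  obtain ⟨Lρ, hLρ, hρ1⟩ := hlev
  have hne : ∀ ℓ : ℕ, ¬ ℓ ∣ D → ℓ ≠ p := fun ℓ h e => h (e ▸ hpD)
  -- the common finite level
  have hLfin : FiniteDimensional ℚ (Lρ ⊔ Lω : IntermediateField ℚ Qb) :=
    IntermediateField.finiteDimensional_sup Lρ Lω
  have hL1 : ∀ σ : GQ, (∀ x ∈ (Lρ ⊔ Lω : IntermediateField ℚ Qb), σ x = x) →
      ρ σ = 1 ∧ ω σ = 1 := fun σ hσ =>
    ⟨hρ1 σ fun x hx => hσ x ((le_sup_left : Lρ ≤ Lρ ⊔ Lω) hx),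
      hω1 σ fun x hx => hσ x ((le_sup_right : Lω ≤ Lρ ⊔ Lω) hx)⟩
  -- the open normal subgroup
  set U : Subgroup GQ := (ρ.toHomUnits.prod ω).ker with hUdef
  have hUmem : ∀ σ : GQ, σ ∈ U ↔ ρ σ = 1 ∧ ω σ = 1 := by
    intro σ
    rw [hUdef, MonoidHom.mem_ker, MonoidHom.prod_apply, Prod.mk_eq_one, Units.ext_iff]
    simp
  have hUn : U.Normal := MonoidHom.normal_ker _
  have hUo : IsOpen (U : Set GQ) := by
    refine Subgroup.isOpen_mono (H₁ := (Lρ ⊔ Lω : IntermediateField ℚ Qb).fixingSubgroup) ?_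
      (IntermediateField.fixingSubgroup_isOpen _)
    intro σ hσ
    rw [hUmem]
    apply hL1
    intro x hx
    exact (IntermediateField.mem_fixingSubgroup_iff _ σ).1 hσ x hx
  -- quadratic relation for every element
  have hex : ∀ g : GQ, ∃ t : ZMod p,
      ρ g * ρ g - t • ρ g + ((ω g : (ZMod p)ˣ) : ZMod p) • (1 : Module.End (ZMod p) V) = 0 := by
    intro g
    obtain ⟨ℓ, A, τ, n, -, hℓ, hℓS, hA, hτ, hg, -⟩ :=
      Fermat.Agent.ChebLib.weak_chebotarev U hUo hUn g D.primeFactors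
    have hℓD : ¬ ℓ ∣ D := fun h => hℓS (Nat.mem_primeFactors.2 ⟨hℓ, h, hD⟩)
    obtain ⟨h1, h2⟩ := (hUmem _).1 hg
    have e1 : ρ g = ρ τ ^ n := by
      calc ρ g = ρ g * ρ (g⁻¹ * τ ^ n) := by rw [h1, mul_one]
        _ = ρ τ ^ n := by rw [← map_mul, mul_inv_cancel_left, map_pow]
    have e2 : ω g = ω τ ^ n := by
      calc ω g = ω g * ω (g⁻¹ * τ ^ n) := by rw [h2, mul_one]
        _ = ω τ ^ n := by rw [← map_mul, mul_inv_cancel_left, map_pow]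
    obtain ⟨t, ht⟩ := QRLib.quadratic_pow (ρ τ) (a ℓ) (ℓ : ZMod p) (hquad ℓ hℓ hℓD A hA τ hτ) n
    refine ⟨t, ?_⟩
    rw [e1, e2, Units.val_pow_eq_pow_val, hωF ℓ hℓ (hne ℓ hℓD) A hA τ hτ]
    exact ht
  choose t ht using hex
  exact ⟨t, ht⟩

end Fermat.Agent.S40Lib
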