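import Fermat.Agent.SMO.Killer
import Fermat.Agent.S36.Defs
import Fermat.Agent.S22
import Fermat.Prelude.Def_FLTPrelim_ModularRep

/-!
# S40 library: the Deligne-Serre lifting lemma, the killer polynomial modulo `p`, eigenvectors
modulo `p`

* (DS) `exists_eigenform_of_char_mod` : a character of `heckeAlgebra N 2 S` with values in a field of
  characteristic `p` is the reduction of the eigencharacter of a normalised eigenform
* (KILP) `exists_killer_mod` : if `W` is not residually modular of level `M` there is a polynomial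
  `P` in the `T_ℓ`, `ℓ ∉ S`, with `P(T_ℓ) = 0` at level `M` and `P(a_ℓ(W)) ≡ 1 mod p`
* (EVP) `exists_eigenvector_mod` : an eigencharacter which is congruent to integers `a t` modulo a
  maximal ideal over `p` occurs in `(ℤ/p)^r`
-/

set_option autoImplicit false
set_option synthInstance.maxHeartbeats 400000

namespace Fermat.Agent.S40Lib

open CuspForm ModularFormClass CongruenceSubgroup Matrix

/-- (DS) -/
theorem exists_eigenform_of_char_mod (N : ℕ) [NeZero N] (S : Set ℕ) {p : ℕ}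
    {k : Type} [Field k] [CharP k p] (χ : heckeAlgebra N 2 S →+* k) :
    ∃ (h : CuspForm (Gamma0 N) 2) (𝔪 : Ideal (integralClosure ℤ ℂ)), h.IsNormalizedEigenform ∧
      𝔪.IsMaximal ∧ (p : integralClosure ℤ ℂ) ∈ 𝔪 ∧
      ∀ (ℓ : ℕ) (hℓ : ℓ.Prime) (hℓN : ¬ ℓ ∣ N) (hℓS : ℓ ∉ S) (a : ℤ),
        χ (heckeAlgebra.T hℓ hℓN hℓS) = (a : k) →
        ∃ α : integralClosure ℤ ℂ, (α : ℂ) = qCoeff h ℓ ∧
          α - (a : integralClosure ℤ ℂ) ∈ 𝔪 := by
  have hfd : FiniteDimensional ℂ (CuspForm (Gamma0 N) 2) :=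
    FiniteDimensional.of_injective _ (Fermat.Agent.S23Lib.coeffMap_injective N 2)
  have hfin : Module.Finite ℤ (heckeAlgebra N 2 S) := Fermat.Agent.S22.result N 2 S
  have h𝔫 : (RingHom.ker χ).IsPrime := RingHom.ker_isPrime χ
  obtain ⟨v, χ₀, hv0, hχ₀, hker⟩ := Fermat.Agent.S49Lib.exists_eigenchar_ker_le (K := ℂ)
    (V := CuspForm (Gamma0 N) 2) ((heckeAlgebra N 2 S).val.toRingHom)
    Subtype.val_injective (RingHom.ker χ)
  obtain ⟨g, hg, hgχ⟩ := Fermat.Agent.SMOLib.exists_eigenform_of_char N S χ₀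
  have hint : ∀ t, χ₀ t ∈ integralClosure ℤ ℂ := fun t =>
    map_isIntegral_int χ₀ (Algebra.IsIntegral.isIntegral (R := ℤ) t)
  let χ' : heckeAlgebra N 2 S →+* integralClosure ℤ ℂ :=
    χ₀.codRestrict (integralClosure ℤ ℂ) hint
  have hker' : RingHom.ker χ' ≤ RingHom.ker χ := by
    intro t ht
    apply hker
    rw [RingHom.mem_ker] at ht ⊢
    exact congrArg Subtype.val ht
  have hχ'int : χ'.IsIntegral := by
    apply RingHom.IsIntegral.tower_top (Int.castRingHom (heckeAlgebra N 2 S)) χ'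
    have : χ'.comp (Int.castRingHom (heckeAlgebra N 2 S)) =
        algebraMap ℤ (integralClosure ℤ ℂ) := RingHom.ext_int _ _
    rw [this]
    exact algebraMap_isIntegral_iff.mpr inferInstance
  have hmap : (RingHom.ker χ).map χ' ≠ ⊤ := fun htop =>
    h𝔫.ne_top ((Ideal.map_eq_top_iff_of_ker_le χ' hker' hχ'int).mp htop)
  obtain ⟨𝔪', h𝔪'max, h𝔪'⟩ := Ideal.exists_le_maximal _ hmap
  refine ⟨g, 𝔪', hg, h𝔪'max, ?_, ?_⟩
  · have hp : (p : heckeAlgebra N 2 S) ∈ RingHom.ker χ := by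
      rw [RingHom.mem_ker, map_natCast, CharP.cast_eq_zero]
    have := h𝔪' (Ideal.mem_map_of_mem χ' hp)
    rwa [map_natCast] at this
  · intro ℓ hℓ hℓN hℓS a ha
    refine ⟨χ' (heckeAlgebra.T hℓ hℓN hℓS), (hgχ ℓ hℓ hℓN hℓS).symm, ?_⟩
    have hmem : heckeAlgebra.T hℓ hℓN hℓS - (a : heckeAlgebra N 2 S) ∈ RingHom.ker χ := by
      rw [RingHom.mem_ker, map_sub, ha, map_intCast, sub_self]
    have := h𝔪' (Ideal.mem_map_of_mem χ' hmem)
    rwa [map_sub, map_intCast] at this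

/-- (KILP) -/
theorem exists_killer_mod (W : WeierstrassCurve ℤ) {p : ℕ} (hp : p.Prime) (M : ℕ) [NeZero M]
    (S : Finset ℕ) (hMS : ∀ q : ℕ, q.Prime → q ∣ M → q ∈ S)
    (hS : ∀ ℓ : ℕ, ℓ.Prime → W.IsGoodPrimeFor ℓ → ¬ ℓ ∣ M → ℓ ≠ p → ℓ ∉ S)
    (hnot : ¬ W.IsResiduallyModularOfLevel p M) :
    ∃ P : MvPolynomial ℕ ℤ, (∀ ℓ ∈ P.vars, ℓ.Prime ∧ ℓ ∉ S) ∧
      MvPolynomial.aeval (Fermat.Agent.S36Lib.evT M) P = 0 ∧
      (p : ℤ) ∣ MvPolynomial.eval (fun ℓ => W.apOfModel ℓ) P - 1 := by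
  classical
  have : Fact p.Prime := ⟨hp⟩
  by_contra hcon
  push Not at hcon
  let e' : MvPolynomial (Fermat.Agent.SMOLib.PI S) ℤ →+* heckeAlgebra M 2 (↑S : Set ℕ) :=
    (Fermat.Agent.SMOLib.evT M S hMS).toRingHom
  let ψ : MvPolynomial (Fermat.Agent.SMOLib.PI S) ℤ →+* ZMod p :=
    (Int.castRingHom (ZMod p)).comp
      (MvPolynomial.eval (fun ℓ : Fermat.Agent.SMOLib.PI S => W.apOfModel ℓ.1))
  have hsur : Function.Surjective e' := Fermat.Agent.SMOLib.evT_surjective M S hMS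
  have hren : ∀ Q : MvPolynomial (Fermat.Agent.SMOLib.PI S) ℤ, e' Q = 0 →
      MvPolynomial.aeval (Fermat.Agent.S36Lib.evT M) (MvPolynomial.rename Subtype.val Q) = 0 := by
    intro Q hQ
    rw [MvPolynomial.aeval_rename]
    have : (MvPolynomial.aeval (Fermat.Agent.S36Lib.evT M ∘ Subtype.val) :
        MvPolynomial (Fermat.Agent.SMOLib.PI S) ℤ →ₐ[ℤ] _) =
        (Subalgebra.inclusion (Fermat.Agent.S36Lib.heckeAlgebra_le M S hMS)).comp
          (Fermat.Agent.SMOLib.evT M S hMS) := by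
      apply MvPolynomial.algHom_ext
      intro x
      rw [MvPolynomial.aeval_X, AlgHom.comp_apply, Fermat.Agent.SMOLib.evT_X, Function.comp_apply,
        Fermat.Agent.S36Lib.evT_of_prime M x.2.1 (fun h => x.2.2 (hMS _ x.2.1 h))]
      rfl
    rw [this, AlgHom.comp_apply]
    have hQ' : Fermat.Agent.SMOLib.evT M S hMS Q = 0 := hQ
    rw [hQ', map_zero]
  have hker : RingHom.ker e' ≤ RingHom.ker ψ := by
    intro Q hQ
    rw [RingHom.mem_ker] at hQ ⊢
    by_contra hc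
    obtain ⟨c', hc'⟩ := ZMod.intCast_surjective (ψ Q)⁻¹
    apply hcon (MvPolynomial.rename Subtype.val (MvPolynomial.C c' * Q))
    · intro ℓ hℓ
      have := MvPolynomial.vars_rename (Subtype.val : Fermat.Agent.SMOLib.PI S → ℕ) _ hℓ
      rw [Finset.mem_image] at this
      obtain ⟨x, -, rfl⟩ := this
      exact x.2
    · apply hren
      rw [map_mul, hQ, mul_zero]
    · rw [MvPolynomial.eval_rename, ← ZMod.intCast_zmod_eq_zero_iff_dvd]  
      push_cast
      have h1 : ((MvPolynomial.eval ((fun ℓ => W.apOfModel ℓ) ∘ Subtype.val)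
          (MvPolynomial.C c' * Q) : ℤ) : ZMod p) = ψ (MvPolynomial.C c' * Q) := rfl
      rw [h1, map_mul]
      have h2 : ψ (MvPolynomial.C c') = (c' : ZMod p) := by
        simp [ψ]
      rw [h2, hc', inv_mul_cancel₀ hc, sub_self]
  let χ : heckeAlgebra M 2 (↑S : Set ℕ) →+* ZMod p :=
    RingHom.liftOfSurjective e' hsur ⟨ψ, hker⟩
  have hχ : ∀ Q, χ (e' Q) = ψ Q := fun Q =>
    RingHom.liftOfRightInverse_comp_apply e' _ (Function.rightInverse_surjInv hsur) ⟨ψ, hker⟩ Q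
  obtain ⟨h, 𝔪, hh, h𝔪, hp𝔪, hcong⟩ := exists_eigenform_of_char_mod M (↑S : Set ℕ) (p := p) χ
  apply hnot
  refine ⟨h, 𝔪, hh, h𝔪, hp𝔪, fun ℓ hℓ hgood hℓM hℓp => ?_⟩
  have hℓS : ℓ ∉ S := hS ℓ hℓ hgood hℓM hℓp
  have hℓS' : ℓ ∉ (↑S : Set ℕ) := by simpa using hℓS
  apply hcong ℓ hℓ hℓM hℓS' (W.apOfModel ℓ)
  have e1 : e' (MvPolynomial.X ⟨ℓ, hℓ, hℓS⟩) = heckeAlgebra.T hℓ hℓM hℓS' :=
    Fermat.Agent.SMOLib.evT_X M S hMS ⟨ℓ, hℓ, hℓS⟩
  rw [← e1, hχ]
  simp [ψ]

/-- an element of `T` whose matrix is divisible by `p` is killed by every character to a reduced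
ring of characteristic `p` -/
theorem EVP_ker_le {T : Type*} [CommRing T] {r : ℕ}
    (Θ : T →+* Matrix (Fin r) (Fin r) ℤ) (hΘ : Function.Injective Θ) {p : ℕ}
    {k : Type*} [CommRing k] [IsReduced k] (φ : T →+* k) (hp : (p : k) = 0) (u : T)
    (X : Matrix (Fin r) (Fin r) ℤ) (hu : Θ u = (p : ℤ) • X) : φ u = 0 := by
  have h1 := Matrix.aeval_self_charpoly X
  rw [Polynomial.aeval_eq_sum_range, Matrix.charpoly_natDegree_eq_dim, Fintype.card_fin] at h1
  set c : ℕ → ℤ := fun i => X.charpoly.coeff i with hc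
  have hcr : c r = 1 := by
    have := (Matrix.charpoly_monic X).coeff_natDegree
    rwa [Matrix.charpoly_natDegree_eq_dim, Fintype.card_fin] at this
  set y : T := ∑ i ∈ Finset.range (r + 1), ((c i * (p : ℤ) ^ (r - i) : ℤ) : T) * u ^ i with hy
  have hy0 : y = 0 := by
    apply hΘ
    rw [map_zero, hy, map_sum]
    have : ∀ i ∈ Finset.range (r + 1), Θ (((c i * (p : ℤ) ^ (r - i) : ℤ) : T) * u ^ i) =
        ((p : ℤ) ^ r) • (c i • X ^ i) := by
      intro i hi
      have hi' : i ≤ r := Nat.lt_succ_iff.1 (Finset.mem_range.1 hi)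
      rw [map_mul, map_pow, hu, map_intCast, smul_pow, ← zsmul_eq_mul, smul_smul, smul_smul]
      congr 1
      rw [mul_assoc, ← pow_add, Nat.sub_add_cancel hi', mul_comm]
    rw [Finset.sum_congr rfl this, ← Finset.smul_sum, h1, smul_zero]
  have h2 := congrArg φ hy0
  rw [hy, map_sum, map_zero, Finset.sum_range_succ, Finset.sum_eq_zero, zero_add, hcr, Nat.sub_self,
    pow_zero, mul_one, Int.cast_one, one_mul, map_pow] at h2
  · exact IsNilpotent.eq_zero ⟨r, h2⟩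
  · intro i hi
    have hi' : i < r := Finset.mem_range.1 hi
    rw [map_mul, map_intCast]
    push_cast
    rw [hp, zero_pow (Nat.sub_ne_zero_of_lt hi'), mul_zero, zero_mul]

/-- (EVP) -/
theorem exists_eigenvector_mod {T : Type*} [CommRing T] {r : ℕ}
    (Θ : T →+* Matrix (Fin r) (Fin r) ℤ) (hΘ : Function.Injective Θ) (χ : T →+* ℂ)
    {p : ℕ} [Fact p.Prime] (𝔪 : Ideal (integralClosure ℤ ℂ)) (h𝔪 : 𝔪.IsMaximal)
    (hp : (p : integralClosure ℤ ℂ) ∈ 𝔪) (I : Set T) (a : T → ℤ)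
    (h : ∀ t ∈ I, ∃ α : integralClosure ℤ ℂ, (α : ℂ) = χ t ∧
      α - (a t : integralClosure ℤ ℂ) ∈ 𝔪) :
    ∃ v : Fin r → ZMod p, v ≠ 0 ∧
      ∀ t ∈ I, (Θ t).map (Int.castRingHom (ZMod p)) *ᵥ v = (a t : ZMod p) • v := by
  classical
  have hfin : Module.Finite ℤ T := Module.Finite.of_injective Θ.toIntAlgHom.toLinearMap hΘ
  have hint : ∀ t, χ t ∈ integralClosure ℤ ℂ := fun t =>
    map_isIntegral_int χ (Algebra.IsIntegral.isIntegral (R := ℤ) t)
  let χ' : T →+* integralClosure ℤ ℂ := χ.codRestrict (integralClosure ℤ ℂ) hint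
  let φ : T →+* (integralClosure ℤ ℂ ⧸ 𝔪) := (Ideal.Quotient.mk 𝔪).comp χ'
  let _ : Field (integralClosure ℤ ℂ ⧸ 𝔪) := Ideal.Quotient.field 𝔪
  have hpk : ((p : ℕ) : integralClosure ℤ ℂ ⧸ 𝔪) = 0 := by
    rw [← map_natCast (Ideal.Quotient.mk 𝔪)]
    exact Ideal.Quotient.eq_zero_iff_mem.2 hp
  have hφI : ∀ t ∈ I, t - (a t : T) ∈ RingHom.ker φ := by
    intro t ht
    obtain ⟨α, hα, hmem⟩ := h t ht
    rw [RingHom.mem_ker]
    show Ideal.Quotient.mk 𝔪 (χ' (t - (a t : T))) = 0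
    rw [Ideal.Quotient.eq_zero_iff_mem, map_sub, map_intCast]
    have : χ' t = α := Subtype.ext hα.symm
    rwa [this]
  let Θb : T →+* Matrix (Fin r) (Fin r) (ZMod p) := (Int.castRingHom (ZMod p)).mapMatrix.comp Θ
  have hΘb : ∀ t, Θb t = (Θ t).map (Int.castRingHom (ZMod p)) := fun t => rfl
  have hle : RingHom.ker Θb ≤ RingHom.ker φ := by
    intro u hu
    rw [RingHom.mem_ker] at hu ⊢
    have hdiv : ∀ i j, (p : ℤ) ∣ Θ u i j := by
      intro i j
      have := congrFun (congrFun hu i) j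
      rw [hΘb, Matrix.map_apply, Matrix.zero_apply, eq_intCast,
        ZMod.intCast_zmod_eq_zero_iff_dvd] at this
      exact this
    choose X hX using hdiv
    exact EVP_ker_le Θ hΘ φ hpk u (Matrix.of X) (by
      ext i j
      rw [Matrix.smul_apply, Matrix.of_apply, hX i j, smul_eq_mul])
  let B := T ⧸ RingHom.ker Θb
  let ι : B →+* Matrix (Fin r) (Fin r) (ZMod p) := RingHom.kerLift Θb
  have hι : Function.Injective ι := RingHom.kerLift_injective Θb
  have hBfin : Finite B := Finite.of_injective ι hι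
  have hBart : IsArtinianRing B := inferInstance
  let mk : T →+* B := Ideal.Quotient.mk (RingHom.ker Θb)
  have hmk : Function.Surjective mk := Ideal.Quotient.mk_surjective
  have hne : (RingHom.ker φ).map mk ≠ ⊤ := by
    intro htop
    have h1 := Ideal.comap_map_of_surjective mk hmk (RingHom.ker φ)
    rw [htop, Ideal.comap_top] at h1
    have h2 : Ideal.comap mk ⊥ = RingHom.ker Θb := by
      rw [← RingHom.ker_eq_comap_bot]
      exact Ideal.mk_ker
    rw [h2, sup_eq_left.2 hle] at h1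
    exact (RingHom.ker_isPrime φ).ne_top h1.symm
  obtain ⟨𝔐, h𝔐, hle𝔐⟩ := Ideal.exists_le_maximal _ hne
  obtain ⟨e, he0, he⟩ := Fermat.Agent.S30Lib.ev_exists_ann 𝔐
  have hm0 : ι e ≠ 0 := fun h0 => he0 (hι (by rw [h0, map_zero]))
  obtain ⟨i, j, hij⟩ : ∃ i j, ι e i j ≠ 0 := by
    by_contra hcon
    push Not at hcon
    exact hm0 (Matrix.ext hcon)
  refine ⟨fun i => ι e i j, fun h0 => hij (congrFun h0 i), fun t ht => ?_⟩
  have h1 : mk (t - (a t : T)) * e = 0 := he _ (hle𝔐 (Ideal.mem_map_of_mem mk (hφI t ht)))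
  have h2 := congrArg ι h1
  have h3 : ι (mk (t - (a t : T))) = Θb t - (a t : Matrix (Fin r) (Fin r) (ZMod p)) := by
    show Θb (t - (a t : T)) = _
    rw [map_sub, map_intCast]
  rw [map_mul, h3, map_zero, sub_mul, sub_eq_zero] at h2
  funext l
  have h4 := congrFun (congrFun h2 l) j
  rw [Matrix.mul_apply] at h4
  have h5 : ((a t : Matrix (Fin r) (Fin r) (ZMod p)) * ι e) l j = (a t : ZMod p) * ι e l j := by
    have : (a t : Matrix (Fin r) (Fin r) (ZMod p)) = (a t : ZMod p) • 1 := by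
      rw [← Algebra.algebraMap_eq_smul_one, map_intCast]
    rw [this, smul_mul_assoc, one_mul, Matrix.smul_apply, smul_eq_mul]
  rw [h5] at h4
  simpa [Matrix.mulVec, dotProduct, hΘb] using h4

end Fermat.Agent.S40Lib
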