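import Fermat.Agent.S40.Cyclo
import Fermat.Agent.S36.K0d

/-!
# S40 block (E), (DET): consequences of `det = cyclotomic`
-/

set_option autoImplicit false

namespace Fermat.Agent.S40Lib

open WeierstrassCurve WeierstrassCurve.Affine Polynomial
open Fermat.Agent.S05Lib Fermat.Agent.S36Lib

local notation "Qb" => AlgebraicClosure ℚ
local notation "GQ" => (AlgebraicClosure ℚ ≃ₐ[ℚ] AlgebraicClosure ℚ)

/-! ## (DET) `S40/Det.lean` : consequences of `det = cyclotomic` -/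

theorem not_scalar_inertia {p : ℕ} [Fact p.Prime] (hp2 : p ≠ 2)
    {V : Type} [AddCommGroup V] [Module (ZMod p) V]
    (ρ : GQ →* Module.End (ZMod p) V) (hlev : GaloisFactorsThroughFiniteLevel ρ)
    (hV : ∀ N : Submodule (ZMod p) V, (∀ g, ∀ x ∈ N, ρ g x ∈ N) → N = ⊥ ∨ N = ⊤)
    (hdim : Module.finrank (ZMod p) V = 2) (D : ℕ) (hD : D ≠ 0) (a : ℕ → ZMod p)
    (hquad : ∀ ℓ : ℕ, ℓ.Prime → ¬ ℓ ∣ D → ∀ 𝔄 : ValuationSubring Qb, 𝔄.LiesOverPrime ℓ →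
      ∀ σ : GQ, 𝔄.IsFrobeniusAt σ ℓ →
        ρ σ * ρ σ - a ℓ • ρ σ + (ℓ : ZMod p) • (1 : Module.End (ZMod p) V) = 0)
    (A : ValuationSubring Qb) (hA : A.LiesOverPrime p) {ζ : Qb} (hζ : IsPrimitiveRoot ζ p) :
    (¬ ∀ σ ∈ A.inertiaSubgroupIn ℚ, ρ σ = 1) ∧
    (¬ ∀ σ ∈ A.inertiaSubgroupIn ℚ, ∀ j : ℕ, σ ζ = ζ ^ j →
      ρ σ = (j : ZMod p) • (1 : Module.End (ZMod p) V)) := by
  have hp : p.Prime := Fact.out
  obtain ⟨ω, hωlev, hωF, hωζ, -⟩ := exists_cyclo_zeta p hζ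
  obtain ⟨t, hq⟩ := exists_trace_of_quadratic ω hωlev hωF ρ hlev (D * p)
    (mul_ne_zero hD hp.ne_zero) (dvd_mul_left p D) a
    (fun ℓ hℓ hℓD => hquad ℓ hℓ (fun h => hℓD (h.mul_right p)))
  have : Nontrivial V := Module.nontrivial_of_finrank_pos (R := ZMod p) (by rw [hdim]; norm_num)
  have hp2' : ¬ p ∣ 2 := fun h => hp2 ((Nat.prime_dvd_prime_iff_eq hp Nat.prime_two).mp h)
  obtain ⟨σ, hσ, hσζ⟩ := exists_inertia_zeta A hp hA hζ 2 hp2'
  have hω := hωζ σ 2 hσζ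
  have h20 : ((2 : ℕ) : ZMod p) ≠ 0 := by
    rw [Ne, ZMod.natCast_eq_zero_iff]
    exact hp2'
  constructor
  · intro h
    have h1 := (QRLib.q1_scalar hq hV (by rw [hdim]; norm_num) σ 1
      (by rw [h σ hσ, one_smul])).2
    rw [hω, one_pow] at h1
    have h3 : ((1 : ℕ) : ZMod p) = 0 := by
      push_cast at h1 ⊢
      linear_combination h1
    rw [ZMod.natCast_eq_zero_iff] at h3
    exact hp.one_lt.ne' (Nat.dvd_one.mp h3)
  · intro h
    have h1 := (QRLib.q1_scalar hq hV (by rw [hdim]; norm_num) σ _ (h σ hσ 2 hσζ)).2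
    rw [hω] at h1
    apply h20
    have h3 : ((2 : ℕ) : ZMod p) * ((2 : ℕ) : ZMod p) = ((2 : ℕ) : ZMod p) * 1 := by
      rw [mul_one, ← sq]
      exact h1.symm
    have h4 := mul_left_cancel₀ h20 h3
    push_cast at h4 ⊢
    linear_combination 2 * h4

end Fermat.Agent.S40Lib
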