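import Mathlib
import Fermat.Prelude.Def_FLTPrelim_ModularRep
import Fermat.Prelude.Def_FLTPrelim_Ramification
import Fermat.Agent.S05.Model
import Fermat.Agent.S36.K0Defs

/-!
# S40 block (E): the elliptic curve side.  Definitions.
-/

set_option autoImplicit false

namespace Fermat.Agent.S40Lib

open WeierstrassCurve WeierstrassCurve.Affine Fermat.Agent.S05Lib Fermat.Agent.S36Lib

local notation "Qb" => AlgebraicClosure ℚ
local notation "GQ" => (AlgebraicClosure ℚ ≃ₐ[ℚ] AlgebraicClosure ℚ)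

/-- the coordinates `(X, Y) = (4x - r, 8y + 4a₁x + 4a₃)` on a general Weierstrass curve; if `r` is a
root of `T³ + b₂T² + 8b₄T + 16b₆` they satisfy `Y² = X³ + (3r + b₂)X² + (3r² + 2b₂r + 8b₄)X` -/
def genCo {L : Type} [Field L] (W : Affine L) (r : L) : W.Point → Option (L × L)
  | .zero => none
  | .some x y _ => some (4 * x - r, 8 * y + 4 * W.a₁ * x + 4 * W.a₃)

/-- the points over `Qbar` of an integral Weierstrass curve -/
abbrev EPt (W : WeierstrassCurve ℤ) : Type := ((W.map (Int.castRingHom ℚ))⁄Qb).Point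

/-- the `p`-torsion as in `ModRepIsIrreducible` -/
abbrev ETor (W : WeierstrassCurve ℤ) (p : ℕ) : Type := Submodule.torsionBy ℤ (EPt W) p

/-- the action of `GQ` on `E[p]` as additive maps -/
noncomputable def actE (W : WeierstrassCurve ℤ) (p : ℕ) (σ : GQ) : ETor W p →+ ETor W p :=
  DistribSMul.toAddMonoidHom (ETor W p) σ

/-- a "très ramifiée" configuration at the place `A | p`: `y` spans a line on which inertia acts by
the cyclotomic character, and `σ x = x + c(σ) y` for `σ ∈ I`, `σ ζ = ζ`, where `c` is the Kummer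
character of `ϖ`, `ϖ ^ p = (ζ - 1) ^ n * u`, `u` a unit of `K0(ζ)`, `p ∤ n`. -/
def IsTres (A : ValuationSubring Qb) (p : ℕ) {V : Type} [AddCommGroup V] (act : GQ → V →+ V)
    (x y : V) : Prop :=
  ∃ (ζ ϖ u : Qb) (n : ℤ), IsPrimitiveRoot ζ p ∧ u ≠ 0 ∧ IsU A u ∧
    (∀ σ ∈ A.inertiaSubgroupIn ℚ, σ ζ = ζ → σ u = u) ∧ ϖ ^ p = (ζ - 1) ^ n * u ∧ ¬ (p : ℤ) ∣ n ∧
    y ≠ 0 ∧ (∀ σ ∈ A.inertiaSubgroupIn ℚ, ∀ j : ℕ, σ ζ = ζ ^ j → act σ y = j • y) ∧
    (∀ σ ∈ A.inertiaSubgroupIn ℚ, σ ζ = ζ → ∀ j : ℕ, σ ϖ = ζ ^ j * ϖ → act σ x = x + j • y)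

end Fermat.Agent.S40Lib
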