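import Fermat.Agent.S52.Card

/-!
# S40 block (E), leaf (VC): passage to the short model, as a group isomorphism
-/

set_option autoImplicit false

namespace Fermat.Agent.S40Lib

open WeierstrassCurve WeierstrassCurve.Affine
open Fermat.Agent.S52Lib

section VC

variable {F : Type} [Field F] [DecidableEq F]

/-- the slope facts -/
private lemma VC_slope (V : WeierstrassCurve F) {x₁ y₁ x₂ y₂ : F}
    (q₁ : y₁ ^ 2 + V.a₁ * x₁ * y₁ + V.a₃ * y₁ = x₁ ^ 3 + V.a₂ * x₁ ^ 2 + V.a₄ * x₁ + V.a₆)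
    (q₂ : y₂ ^ 2 + V.a₁ * x₂ * y₂ + V.a₃ * y₂ = x₂ ^ 3 + V.a₂ * x₂ ^ 2 + V.a₄ * x₂ + V.a₆)
    (e₁ : V.toAffine.Equation x₁ y₁) (e₂ : V.toAffine.Equation x₂ y₂)
    (hxy : ¬(x₁ = x₂ ∧ y₁ = V.toAffine.negY x₂ y₂)) :
    V.toAffine.slope x₁ x₂ y₁ y₂ * (x₁ - x₂) = y₁ - y₂ ∧
    V.toAffine.slope x₁ x₂ y₁ y₂ * (y₁ + y₂) + V.a₁ * (V.toAffine.slope x₁ x₂ y₁ y₂ * x₁ + y₂)
      + V.a₃ * V.toAffine.slope x₁ x₂ y₁ y₂
      = x₁ ^ 2 + x₁ * x₂ + x₂ ^ 2 + V.a₂ * (x₁ + x₂) + V.a₄ := by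
  by_cases hx : x₁ = x₂
  · have hy : y₁ ≠ V.toAffine.negY x₂ y₂ := fun h => hxy ⟨hx, h⟩
    have hyy : y₁ = y₂ := Y_eq_of_Y_ne e₁ e₂ hx hy
    subst hx
    subst hyy
    rw [slope_of_Y_ne rfl hy]
    have hd : y₁ - V.toAffine.negY x₁ y₁ ≠ 0 := sub_ne_zero.mpr hy
    have hl' : (3 * x₁ ^ 2 + 2 * V.toAffine.a₂ * x₁ + V.toAffine.a₄ - V.toAffine.a₁ * y₁)
        / (y₁ - V.toAffine.negY x₁ y₁) * (y₁ - V.toAffine.negY x₁ y₁)
        = 3 * x₁ ^ 2 + 2 * V.toAffine.a₂ * x₁ + V.toAffine.a₄ - V.toAffine.a₁ * y₁ :=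
      div_mul_cancel₀ _ hd
    generalize (3 * x₁ ^ 2 + 2 * V.toAffine.a₂ * x₁ + V.toAffine.a₄ - V.toAffine.a₁ * y₁)
        / (y₁ - V.toAffine.negY x₁ y₁) = l at hl'
    rw [negY] at hl'
    refine ⟨by ring, ?_⟩
    linear_combination hl'
  · rw [slope_of_X_ne hx]
    have hd : x₁ - x₂ ≠ 0 := sub_ne_zero.mpr hx
    have hl' : (y₁ - y₂) / (x₁ - x₂) * (x₁ - x₂) = y₁ - y₂ := div_mul_cancel₀ _ hd
    generalize (y₁ - y₂) / (x₁ - x₂) = l at hl'
    refine ⟨hl', ?_⟩
    apply mul_right_cancel₀ hd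
    linear_combination (y₁ + y₂ + V.a₁ * x₁ + V.a₃) * hl' + q₁ - q₂

/-- **collinearity criterion** (necessary direction) on a general Weierstrass curve -/
private lemma VC_col' (V : WeierstrassCurve F) {x₁ y₁ x₂ y₂ x₃ y₃ : F}
    (h₁ : V.toAffine.Nonsingular x₁ y₁) (h₂ : V.toAffine.Nonsingular x₂ y₂)
    (h₃ : V.toAffine.Nonsingular x₃ y₃)
    (h : Point.some x₁ y₁ h₁ + Point.some x₂ y₂ h₂ + Point.some x₃ y₃ h₃ = 0) :
    ∃ l n : F, y₁ = l * x₁ + n ∧ y₂ = l * x₂ + n ∧ y₃ = l * x₃ + n ∧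
      x₁ + x₂ + x₃ = l ^ 2 + V.a₁ * l - V.a₂ ∧
      x₁ * x₂ + x₁ * x₃ + x₂ * x₃ = V.a₄ - 2 * l * n - V.a₁ * n - V.a₃ * l ∧
      x₁ * x₂ * x₃ = n ^ 2 + V.a₃ * n - V.a₆ := by
  rw [add_eq_zero_iff_eq_neg, Point.neg_some] at h
  have q₁ := (V.toAffine.equation_iff x₁ y₁).mp h₁.1
  have q₂ := (V.toAffine.equation_iff x₂ y₂).mp h₂.1
  by_cases hxy : x₁ = x₂ ∧ y₁ = V.toAffine.negY x₂ y₂
  · rw [Point.add_of_Y_eq hxy.1 hxy.2] at h
    exact absurd h.symm (Point.some_ne_zero _)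
  · rw [Point.add_some hxy] at h
    simp only [Point.some.injEq] at h
    obtain ⟨c1, c2⟩ := h
    obtain ⟨hl', hl2⟩ := VC_slope V q₁ q₂ h₁.1 h₂.1 hxy
    generalize V.toAffine.slope x₁ x₂ y₁ y₂ = l at c1 c2 hl' hl2
    rw [addY, negAddY, c1, negY, negY] at c2
    rw [addX] at c1
    have s₁ : x₁ + x₂ + x₃ = l ^ 2 + V.a₁ * l - V.a₂ := by linear_combination -c1
    have s₂ : x₁ * x₂ + x₁ * x₃ + x₂ * x₃
        = V.a₄ - 2 * l * (y₁ - l * x₁) - V.a₁ * (y₁ - l * x₁) - V.a₃ * l := by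
      linear_combination (x₁ + x₂) * s₁ + hl2 - (l + V.a₁) * hl'
    refine ⟨l, y₁ - l * x₁, by ring, by linear_combination hl', by linear_combination c2, s₁, s₂,
      ?_⟩
    linear_combination x₁ * s₂ - x₁ ^ 2 * s₁ - q₁

end VC

theorem exists_toShort {F : Type} [Field F] [DecidableEq F] (h2 : (2 : F) ≠ 0) (h3 : (3 : F) ≠ 0)
    (V : WeierstrassCurve F) (hΔ : V.Δ ≠ 0) :
    ∃ θ : V.toAffine.Point ≃+ Pt (-27 * V.c₄) (-54 * V.c₆),
      ∀ x y h, co (θ (Affine.Point.some x y h))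
        = some (36 * x + 3 * V.b₂, 108 * (2 * y + V.a₁ * x + V.a₃)) := by
  have hd : 4 * (-27 * V.c₄) ^ 3 + 27 * (-54 * V.c₆) ^ 2 ≠ 0 := by
    rw [Card_disc]
    exact neg_ne_zero.mpr (mul_ne_zero (mul_ne_zero (pow_ne_zero _ h2) (pow_ne_zero _ h3)) hΔ)
  have h46656 : (46656 : F) ≠ 0 := by
    have : (46656 : F) = 2 ^ 6 * 3 ^ 6 := by norm_num
    rw [this]
    exact mul_ne_zero (pow_ne_zero _ h2) (pow_ne_zero _ h3)
  have h36 : (36 : F) ≠ 0 := by
    have : (36 : F) = 2 ^ 2 * 3 ^ 2 := by norm_num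
    rw [this]
    exact mul_ne_zero (pow_ne_zero _ h2) (pow_ne_zero _ h3)
  have h108 : (108 : F) ≠ 0 := by
    have : (108 : F) = 2 ^ 2 * 3 ^ 3 := by norm_num
    rw [this]
    exact mul_ne_zero (pow_ne_zero _ h2) (pow_ne_zero _ h3)
  have key : ∀ P : V.toAffine.Point, ∃ Q : Pt (-27 * V.c₄) (-54 * V.c₆),
      (P = 0 → Q = 0) ∧ ∀ x y h, P = Affine.Point.some x y h →
        co Q = some (36 * x + 3 * V.b₂, 108 * (2 * y + V.a₁ * x + V.a₃)) := by
    intro P
    cases P with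
    | zero => exact ⟨0, fun _ => rfl, fun x y h hP => by cases hP⟩
    | some x y h =>
      have he := (Affine.equation_iff' (W := V.toAffine) x y).mp h.1
      obtain ⟨Q, hQ⟩ := exists_pt (A := -27 * V.c₄) (B := -54 * V.c₆) h2 hd
        (x := 36 * x + 3 * V.b₂) (y := 108 * (2 * y + V.a₁ * x + V.a₃)) (by
          have := Card_identity V x y
          rw [he, mul_zero, sub_eq_zero] at this
          exact this)
      refine ⟨Q, fun h0 => absurd h0 (Affine.Point.some_ne_zero h), ?_⟩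
      intro x' y' h' hP
      cases hP
      exact hQ
  choose f hf0 hf using key
  have hbij : Function.Bijective f := by
    constructor
    · intro P P' hPP
      cases P with
      | zero =>
        cases P' with
        | zero => rfl
        | some x y h =>
          exfalso
          have h1 := hf0 Affine.Point.zero rfl
          have h2' := hf _ x y h rfl
          rw [← hPP, h1, co_zero] at h2'
          simp at h2'
      | some x y h =>
        cases P' with
        | zero =>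
          exfalso
          have h1 := hf0 Affine.Point.zero rfl
          have h2' := hf _ x y h rfl
          rw [hPP, h1, co_zero] at h2'
          simp at h2'
        | some x' y' h' =>
          have h1 := hf _ x y h rfl
          have h2' := hf _ x' y' h' rfl
          rw [hPP, h2'] at h1
          simp only [Option.some.injEq, Prod.mk.injEq] at h1
          obtain ⟨e1, e2⟩ := h1
          have ex : x' = x := by
            have : 36 * x' = 36 * x := by linear_combination e1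
            exact mul_left_cancel₀ h36 this
          subst ex
          have ey : y' = y := by
            have e3 := mul_left_cancel₀ h108 e2
            have : 2 * y' = 2 * y := by linear_combination e3
            exact mul_left_cancel₀ h2 this
          subst ey
          rfl
    · intro Q
      rcases hQ : co Q with _ | ⟨X, Y⟩
      · refine ⟨0, ?_⟩
        rw [hf0 0 rfl, co_eq_none.mp hQ]
      · have hq := co_eqn hQ
        set x : F := (X - 3 * V.b₂) / 36 with hx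
        set y : F := (Y / 108 - V.a₁ * x - V.a₃) / 2 with hy
        have hX : 36 * x + 3 * V.b₂ = X := by rw [hx]; field_simp; ring
        have hY : 108 * (2 * y + V.a₁ * x + V.a₃) = Y := by rw [hy]; field_simp; ring
        have he : V.toAffine.Equation x y := by
          rw [Affine.equation_iff']
          have := Card_identity V x y
          rw [hX, hY, hq, sub_self] at this
          rcases mul_eq_zero.mp this.symm with h | h
          · exact absurd h h46656
          · exact h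
        have hn : V.toAffine.Nonsingular x y :=
          (Affine.equation_iff_nonsingular_of_Δ_ne_zero (W := V.toAffine) hΔ).mp he
        refine ⟨Affine.Point.some x y hn, ?_⟩
        apply co_injective
        rw [hf _ x y hn rfl, hQ, hX, hY]
  have h0 : f 0 = 0 := hf0 0 rfl
  have hneg : ∀ P, f (-P) = -f P := by
    intro P
    cases P with
    | zero =>
      have e : (-Affine.Point.zero : V.toAffine.Point) = 0 := neg_zero
      have e' : (Affine.Point.zero : V.toAffine.Point) = 0 := rfl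
      rw [e, e', h0, neg_zero]
    | some x y h =>
      apply co_injective
      rw [co_neg (hf _ x y h rfl), Point.neg_some, hf _ _ _ _ rfl, negY]
      congr 2
      ring
  have hadd := additive_of_col f h0 hneg (by
    intro P Q R hP hQ hR hsum
    cases P with
    | zero => exact absurd rfl hP
    | some x₁ y₁ h₁ =>
    cases Q with
    | zero => exact absurd rfl hQ
    | some x₂ y₂ h₂ =>
    cases R with
    | zero => exact absurd rfl hR
    | some x₃ y₃ h₃ =>
    obtain ⟨l, n, e₁, e₂, e₃, s₁, s₂, s₃⟩ := VC_col' V h₁ h₂ h₃ hsum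
    refine col h2 (l := 3 * (2 * l + V.a₁))
      (n := 108 * (2 * n + V.a₃) - 9 * V.b₂ * (2 * l + V.a₁))
      (hf _ x₁ y₁ h₁ rfl) (hf _ x₂ y₂ h₂ rfl) (hf _ x₃ y₃ h₃ rfl) ?_ ?_ ?_ ?_ ?_ ?_
    · rw [e₁]; ring
    · rw [e₂]; ring
    · rw [e₃]; ring
    · simp only [WeierstrassCurve.b₂]
      linear_combination 36 * s₁
    · simp only [WeierstrassCurve.c₄, WeierstrassCurve.b₂, WeierstrassCurve.b₄]
      linear_combination 1296 * s₂ + 216 * (V.a₁ ^ 2 + 4 * V.a₂) * s₁
    · simp only [WeierstrassCurve.c₆, WeierstrassCurve.b₂, WeierstrassCurve.b₄,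
        WeierstrassCurve.b₆]
      linear_combination 46656 * s₃ + 3888 * (V.a₁ ^ 2 + 4 * V.a₂) * s₂
        + 324 * (V.a₁ ^ 2 + 4 * V.a₂) ^ 2 * s₁)
  exact ⟨AddEquiv.ofBijective (AddMonoidHom.mk' f hadd) hbij, fun x y h => hf _ x y h rfl⟩

end Fermat.Agent.S40Lib
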