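import Fermat.Agent.S40.FrobShort
import Fermat.Agent.S40.Short
import Fermat.Agent.S52.Card

/-!
# S40 (FW): Frobenius relation on `E[p]`
-/

set_option autoImplicit false

namespace Fermat.Agent.S40Lib

open WeierstrassCurve WeierstrassCurve.Affine Polynomial
open Fermat.Agent.S05Lib Fermat.Agent.S13Lib Fermat.Agent.S36Lib Fermat.Agent.S52Lib

local notation "Qb" => AlgebraicClosure ℚ
local notation "GQ" => (AlgebraicClosure ℚ ≃ₐ[ℚ] AlgebraicClosure ℚ)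

/-- `frob_rel_short` with propositional coefficients -/
theorem FW_short (A B : Qb) (a b : ℤ) (hAa : A = (a : Qb)) (hBb : B = (b : Qb)) {ℓ p : ℕ}
    (hℓ : ℓ.Prime) (h5 : 5 ≤ ℓ) (hp : p.Prime)
    (hp2 : p ≠ 2) (hℓp : ℓ ≠ p) (hgood : ¬ (ℓ : ℤ) ∣ 4 * a ^ 3 + 27 * b ^ 2)
    (𝔄 : ValuationSubring Qb) (σ : GQ) (h𝔄 : 𝔄.LiesOverPrime ℓ) (hσ : 𝔄.IsFrobeniusAt σ ℓ)
    (h2 : (2 : Qb) ≠ 0) (hA : (σ : Qb →+* Qb) A = A) (hB : (σ : Qb →+* Qb) B = B)
    (u : Pt A B) (hu : p • u = 0) :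
    mapPt h2 (σ : Qb →+* Qb) hA hB (mapPt h2 (σ : Qb →+* Qb) hA hB u)
      - ((ℓ : ℤ) + 1 - (Nat.card (Pt ((a : ℤ) : ZMod ℓ) ((b : ℤ) : ZMod ℓ)) : ℤ)) •
        mapPt h2 (σ : Qb →+* Qb) hA hB u + (ℓ : ℤ) • u = 0 := by
  subst hAa hBb
  exact frob_rel_short a b hℓ h5 hp hp2 hℓp hgood 𝔄 σ h𝔄 hσ h2 hA hB u hu

/-- the curve over `Qbar` -/
noncomputable abbrev FW_V (W : WeierstrassCurve ℤ) : WeierstrassCurve Qb := (W.map (Int.castRingHom ℚ))⁄Qb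

theorem FW_map_eq (W : WeierstrassCurve ℤ) : FW_V W = W.map (Int.castRingHom Qb) := by
  show (W.map (Int.castRingHom ℚ)).map (algebraMap ℚ Qb) = _
  rw [WeierstrassCurve.map_map]
  congr 1

theorem frob_rel (W : WeierstrassCurve ℤ) (hΔ : W.Δ ≠ 0) {ℓ p : ℕ} (hℓ : ℓ.Prime) (h5 : 5 ≤ ℓ)
    (hp : p.Prime) (hp2 : p ≠ 2) (hℓp : ℓ ≠ p) (hgood : W.IsGoodPrimeFor ℓ)
    (𝔄 : ValuationSubring Qb) (σ : GQ) (h𝔄 : 𝔄.LiesOverPrime ℓ) (hσ : 𝔄.IsFrobeniusAt σ ℓ)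
    (u : EPt W) (hu : p • u = 0) :
    σ • σ • u - (W.apOfModel ℓ) • σ • u + (ℓ : ℤ) • u = 0 := by
  have h2 : (2 : Qb) ≠ 0 := by norm_num
  have h3 : (3 : Qb) ≠ 0 := by norm_num
  have hVΔ : (FW_V W).Δ ≠ 0 := by
    rw [FW_map_eq, WeierstrassCurve.map_Δ]
    simpa using hΔ
  obtain ⟨θ, hθ⟩ := exists_toShort h2 h3 (FW_V W) hVΔ
  have hc4 : -27 * (FW_V W).c₄ = ((-27 * W.c₄ : ℤ) : Qb) := by
    rw [FW_map_eq, WeierstrassCurve.map_c₄]
    push_cast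
    rfl
  have hc6 : -54 * (FW_V W).c₆ = ((-54 * W.c₆ : ℤ) : Qb) := by
    rw [FW_map_eq, WeierstrassCurve.map_c₆]
    push_cast
    rfl
  have hA : (σ : Qb →+* Qb) (-27 * (FW_V W).c₄) = -27 * (FW_V W).c₄ := by
    rw [hc4]; exact map_intCast (σ : Qb →+* Qb) _
  have hB : (σ : Qb →+* Qb) (-54 * (FW_V W).c₆) = -54 * (FW_V W).c₆ := by
    rw [hc6]; exact map_intCast (σ : Qb →+* Qb) _
  have hprime : Prime (ℓ : ℤ) := Nat.prime_iff_prime_int.mp hℓ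
  have hgood' : ¬ (ℓ : ℤ) ∣ 4 * (-27 * W.c₄) ^ 3 + 27 * (-54 * W.c₆) ^ 2 := by
    have e : 4 * (-27 * W.c₄) ^ 3 + 27 * (-54 * W.c₆) ^ 2 = -(6 ^ 8 * 3 ^ 4 * W.Δ) := by
      have := W.c_relation
      linear_combination (78732 : ℤ) * this
    rw [e, dvd_neg]
    intro h
    rcases hprime.dvd_or_dvd h with h | h
    · rcases hprime.dvd_or_dvd h with h | h
      · have h6 := hprime.dvd_of_dvd_pow h
        have := Int.le_of_dvd (by norm_num) h6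
        have h7 : ℓ = 5 ∨ ℓ = 6 := by omega
        rcases h7 with rfl | rfl
        · norm_num at h6
        · norm_num at hℓ
      · have h6 := hprime.dvd_of_dvd_pow h
        have := Int.le_of_dvd (by norm_num) h6
        omega
    · exact hgood h
  -- equivariance
  have hequiv : ∀ v : EPt W, θ (σ • v) = mapPt h2 (σ : Qb →+* Qb) hA hB (θ v) := by
    intro v
    have ha1 : σ (FW_V W).a₁ = (FW_V W).a₁ := by
      rw [FW_map_eq]
      exact map_intCast σ _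
    have ha3 : σ (FW_V W).a₃ = (FW_V W).a₃ := by
      rw [FW_map_eq]
      exact map_intCast σ _
    have hb2 : σ (FW_V W).b₂ = (FW_V W).b₂ := by
      rw [FW_map_eq, WeierstrassCurve.map_b₂]
      exact map_intCast σ _
    cases v with
    | zero =>
      show θ (σ • (0 : EPt W)) = mapPt h2 (σ : Qb →+* Qb) hA hB (θ (0 : EPt W))
      have h0 : σ • (0 : EPt W) = 0 := rfl
      rw [h0]
      have h1 : θ (0 : EPt W) = 0 := map_zero θ
      rw [h1, map_zero]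
    | some x y h =>
      apply co_injective
      rw [co_mapPt, hθ, Point.algEquiv_smul_def, Point.map_some, hθ]
      simp only [Option.map_some, Option.some.injEq, Prod.mk.injEq]
      constructor
      · show 36 * σ x + 3 * (FW_V W).b₂ = σ (36 * x + 3 * (FW_V W).b₂)
        rw [map_add, map_mul, map_mul, hb2, map_ofNat, map_ofNat]
      · show 108 * (2 * σ y + (FW_V W).a₁ * σ x + (FW_V W).a₃) =
          σ (108 * (2 * y + (FW_V W).a₁ * x + (FW_V W).a₃))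
        rw [map_mul, map_add, map_add, map_mul, map_mul, ha1, ha3, map_ofNat, map_ofNat]
  have hrel := FW_short _ _ _ _ hc4 hc6 hℓ h5 hp hp2 hℓp hgood' 𝔄 σ h𝔄 hσ h2 hA hB (θ u)
    (by rw [← map_nsmul, hu, map_zero])
  have hap : W.apOfModel ℓ = (ℓ : ℤ) + 1 -
      (Nat.card (Pt (((-27 * W.c₄ : ℤ) : ZMod ℓ)) (((-54 * W.c₆ : ℤ) : ZMod ℓ))) : ℤ) := by
    unfold WeierstrassCurve.apOfModel WeierstrassCurve.traceOfFrobenius
    rw [card_eq_short W hℓ h5 hgood, Nat.card_zmod]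
  apply θ.injective
  rw [map_zero, map_add, map_sub, map_zsmul, map_zsmul, hequiv, hequiv, hap]
  exact hrel

end Fermat.Agent.S40Lib
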