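import Fermat.Agent.S40.Model
import Fermat.Agent.S36.K0f
import Fermat.Agent.Lib.FrobeniusExists

/-!
# S40 block (E), leaf (RT): the 2-torsion point
-/

set_option autoImplicit false

namespace Fermat.Agent.S40Lib

open WeierstrassCurve WeierstrassCurve.Affine Polynomial
open Fermat.Agent.S05Lib Fermat.Agent.S36Lib

local notation "Qb" => AlgebraicClosure ℚ
local notation "GQ" => (AlgebraicClosure ℚ ≃ₐ[ℚ] AlgebraicClosure ℚ)

/-- the 2-division cubic -/
private noncomputable def RT_cubic (W : WeierstrassCurve ℤ) : ℤ[X] :=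
  X ^ 3 + C W.b₂ * X ^ 2 + C (8 * W.b₄) * X + C (16 * W.b₆)

private lemma RT_monic (W : WeierstrassCurve ℤ) : (RT_cubic W).Monic := by
  unfold RT_cubic
  monicity!

private lemma RT_natDegree (W : WeierstrassCurve ℤ) : (RT_cubic W).natDegree = 3 := by
  unfold RT_cubic
  compute_degree!

/-- a root `r` of the 2-division cubic; it is integral everywhere, and fixed by the inertia group
of every place `A` of odd residue characteristic and good reduction -/
theorem exists_root (W : WeierstrassCurve ℤ) :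
    ∃ r : Qb, r ^ 3 + (W.b₂ : Qb) * r ^ 2 + 8 * (W.b₄ : Qb) * r + 16 * (W.b₆ : Qb) = 0 ∧
      IsIntegral ℤ r ∧
      ∀ (A : ValuationSubring Qb) (q : ℕ), q.Prime → q ≠ 2 → A.LiesOverPrime q → ¬ (q : ℤ) ∣ W.Δ →
        r ∈ K0 A := by
  obtain ⟨r, hr⟩ := IsAlgClosed.exists_aeval_eq_zero Qb (RT_cubic W)
    (by rw [degree_eq_natDegree (RT_monic W).ne_zero, RT_natDegree]; norm_num)
  have hr' : r ^ 3 + (W.b₂ : Qb) * r ^ 2 + 8 * (W.b₄ : Qb) * r + 16 * (W.b₆ : Qb) = 0 := by
    have := hr
    simp only [RT_cubic, map_add, map_mul, map_pow, aeval_X, aeval_C] at this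
    simp only [eq_intCast, Int.cast_ofNat] at this
    exact this
  have hint : IsIntegral ℤ r := ⟨RT_cubic W, RT_monic W, hr⟩
  refine ⟨r, hr', hint, ?_⟩
  intro A q hq hq2 hA hΔ
  have hrA : r ∈ A := FrobLib.integral_mem_valuationSubring A hint
  -- the discriminant identity
  have hdisc := genModel_disc (L := Qb) (W.map (Int.castRingHom Qb)).toAffine r
    (by simpa only [WeierstrassCurve.map_b₂, WeierstrassCurve.map_b₄, WeierstrassCurve.map_b₆,
      eq_intCast] using hr')
  simp only [WeierstrassCurve.map_b₂, WeierstrassCurve.map_b₄, WeierstrassCurve.map_Δ,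
    eq_intCast] at hdisc
  set d : Qb := 3 * r ^ 2 + 2 * (W.b₂ : Qb) * r + 8 * (W.b₄ : Qb) with hd
  have hdA : d ∈ A := by
    rw [hd]
    refine A.add_mem _ _ (A.add_mem _ _ (A.mul_mem _ _ (ofNat_mem A 3) (A.pow_mem hrA 2))
      (A.mul_mem _ _ (A.mul_mem _ _ (ofNat_mem A 2) (intCast_mem A _)) hrA))
      (A.mul_mem _ _ (ofNat_mem A 8) (intCast_mem A _))
  set e : Qb := (3 * r + (W.b₂ : Qb)) ^ 2 - 4 * d with he
  have heA : e ∈ A := by
    rw [he]
    refine A.sub_mem (A.pow_mem (A.add_mem _ _ (A.mul_mem _ _ (ofNat_mem A 3) hrA)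
      (intCast_mem A _)) 2) (A.mul_mem _ _ (ofNat_mem A 4) hdA)
  have hv : A.valuation (((256 * W.Δ : ℤ)) : Qb) = 1 := by
    apply val_int_eq_one hq hA
    intro h
    rcases (Nat.prime_iff_prime_int.mp hq).dvd_or_dvd h with h | h
    · have h2 : (q : ℤ) ∣ 2 ^ 8 := by norm_num; exact h
      have h3 := (Nat.prime_iff_prime_int.mp hq).dvd_of_dvd_pow h2
      have h4 : q ∣ 2 := by exact_mod_cast h3
      exact hq2 ((Nat.prime_dvd_prime_iff_eq hq Nat.prime_two).mp h4)
    · exact hΔ h
  have hv' : A.valuation d ^ 2 * A.valuation e = 1 := by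
    rw [← map_pow, ← map_mul, hdisc, ← hv]
    push_cast
    rfl
  have hd1 : A.valuation d ≤ 1 := (A.valuation_le_one_iff _).mpr hdA
  have he1 : A.valuation e ≤ 1 := (A.valuation_le_one_iff _).mpr heA
  have hd0 : d ≠ 0 := by
    intro h
    rw [h, map_zero] at hv'
    simp at hv'
  have hdU : IsU A d := by
    rw [isU_iff_not_mem_nonunits hdA hd0, ValuationSubring.mem_nonunits_iff, not_lt]
    by_contra hlt
    rw [not_le] at hlt
    have : A.valuation d ^ 2 * A.valuation e < 1 := by
      calc A.valuation d ^ 2 * A.valuation e ≤ A.valuation d ^ 2 * 1 := by gcongr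
        _ = A.valuation d * A.valuation d := by rw [mul_one, sq]
        _ ≤ A.valuation d * 1 := by gcongr
        _ = A.valuation d := mul_one _
        _ < 1 := hlt
    rw [hv'] at this
    exact lt_irrefl _ this
  have hder : aeval r (derivative ((RT_cubic W).map (algebraMap ℤ (K0 A)))) = d := by
    rw [derivative_map, aeval_map_algebraMap]
    simp only [RT_cubic, derivative_add, derivative_mul, derivative_pow, derivative_X,
      derivative_C]
    simp only [map_add, map_mul, map_pow, aeval_X, aeval_C, map_natCast, map_zero, map_one]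
    simp only [eq_intCast, Int.cast_ofNat]
    rw [hd]
    push_cast
    ring
  refine mem_K0_of_simple_root A ((RT_cubic W).map (algebraMap ℤ (K0 A))) ?_ hrA ?_ ?_ ?_
  · intro i
    rw [coeff_map]
    rw [eq_intCast]
    have : (((((RT_cubic W).coeff i : ℤ) : K0 A)) : Qb) = (((RT_cubic W).coeff i : ℤ) : Qb) := by
      norm_cast
    rw [this]
    exact intCast_mem A _
  · rw [aeval_map_algebraMap]; exact hr
  · rw [hder]; exact hdU
  · rw [hder]; exact hd0

end Fermat.Agent.S40Lib
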