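import Fermat.Agent.S40.LocTres
import Fermat.Agent.S40.Root
import Fermat.Agent.S40.FrobW

/-!
# S40 block (E), (LP): `E[p]` at a place over `p` of good reduction is not "très ramifiée"
-/

set_option autoImplicit false

namespace Fermat.Agent.S40Lib

open WeierstrassCurve WeierstrassCurve.Affine Polynomial
open Fermat.Agent.S05Lib Fermat.Agent.S13Lib Fermat.Agent.S36Lib Fermat.Agent.S52Lib

local notation "Qb" => AlgebraicClosure ℚ
local notation "GQ" => (AlgebraicClosure ℚ ≃ₐ[ℚ] AlgebraicClosure ℚ)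

/-! ## (LP) `S40/LocalP.lean` : `E[p]` at a place over `p` of good reduction -/

theorem not_isTres_ETor (W : WeierstrassCurve ℤ) (hΔ : W.Δ ≠ 0) {p : ℕ} (hp : p.Prime)
    (hp2 : p ≠ 2) (hgood : W.IsGoodPrimeFor p) (A : ValuationSubring Qb) (hA : A.LiesOverPrime p)
    (x y : ETor W p) : ¬ IsTres A p (actE W p) x y := by
  intro hT
  obtain ⟨r, hr, hint, hK0⟩ := exists_root W
  have hrK := hK0 A p hp hp2 hA hgood
  have h2 : (2 : Qb) ≠ 0 := two_ne_zero
  have hb2 : (FW_V W).toAffine.b₂ = (W.b₂ : Qb) := by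
    rw [FW_map_eq, WeierstrassCurve.map_b₂, eq_intCast]
  have hb4 : (FW_V W).toAffine.b₄ = (W.b₄ : Qb) := by
    rw [FW_map_eq, WeierstrassCurve.map_b₄, eq_intCast]
  have hb6 : (FW_V W).toAffine.b₆ = (W.b₆ : Qb) := by
    rw [FW_map_eq, WeierstrassCurve.map_b₆, eq_intCast]
  have hDel : (FW_V W).toAffine.Δ = (W.Δ : Qb) := by
    rw [FW_map_eq, WeierstrassCurve.map_Δ, eq_intCast]
  have hr' : r ^ 3 + (FW_V W).toAffine.b₂ * r ^ 2 + 8 * (FW_V W).toAffine.b₄ * r
      + 16 * (FW_V W).toAffine.b₆ = 0 := by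
    rw [hb2, hb4, hb6]
    exact hr
  have hrA : r ∈ A := FrobLib.integral_mem_valuationSubring A hint
  have ha₂ : 3 * r + (FW_V W).toAffine.b₂ ∈ A := by
    rw [hb2]
    exact A.add_mem _ _ (A.mul_mem _ _ (ofNat_mem A 3) hrA) (intCast_mem A _)
  have ha₄ : 3 * r ^ 2 + 2 * (FW_V W).toAffine.b₂ * r + 8 * (FW_V W).toAffine.b₄ ∈ A := by
    rw [hb2, hb4]
    exact A.add_mem _ _ (A.add_mem _ _ (A.mul_mem _ _ (ofNat_mem A 3) (A.pow_mem hrA 2))
      (A.mul_mem _ _ (A.mul_mem _ _ (ofNat_mem A 2) (intCast_mem A _)) hrA))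
      (A.mul_mem _ _ (ofNat_mem A 8) (intCast_mem A _))
  have hv : A.valuation (((256 * W.Δ : ℤ)) : Qb) = 1 := by
    apply val_int_eq_one hp hA
    intro h
    rcases (Nat.prime_iff_prime_int.mp hp).dvd_or_dvd h with h | h
    · have h2 : (p : ℤ) ∣ 2 ^ 8 := by norm_num; exact h
      have h3 := (Nat.prime_iff_prime_int.mp hp).dvd_of_dvd_pow h2
      have h4 : p ∣ 2 := by exact_mod_cast h3
      exact hp2 ((Nat.prime_dvd_prime_iff_eq hp Nat.prime_two).mp h4)
    · exact hgood h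
  have hgood' : (3 * r ^ 2 + 2 * (FW_V W).toAffine.b₂ * r + 8 * (FW_V W).toAffine.b₄) *
      ((3 * r + (FW_V W).toAffine.b₂) ^ 2
        - 4 * (3 * r ^ 2 + 2 * (FW_V W).toAffine.b₂ * r + 8 * (FW_V W).toAffine.b₄))
      ∉ A.nonunits := by
    intro hm
    have h3 := L2_nonunits_mul A ha₄ hm
    rw [← mul_assoc, ← sq, genModel_disc (FW_V W).toAffine r hr', hDel,
      ValuationSubring.mem_nonunits_iff] at h3
    have h4 : (256 : Qb) * (W.Δ : Qb) = ((256 * W.Δ : ℤ) : Qb) := by push_cast; ring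
    rw [h4, hv] at h3
    exact lt_irrefl _ h3
  have hact : ∀ σ ∈ A.inertiaSubgroupIn ℚ, ∀ (P : EPt W) (X Y : Qb),
      (genModel (FW_V W).toAffine h2 r hr').co P = some (X, Y) →
      (genModel (FW_V W).toAffine h2 r hr').co
        ((fun σ : GQ => DistribSMul.toAddMonoidHom (EPt W) σ) σ P) = some (σ X, σ Y) := by
    intro σ hσ P X Y hP
    have h3 := genCo_smul W r σ (mem_K0_iff.mp hrK σ hσ) P
    have hP' : genCo _ r P = some (X, Y) := hP
    rw [hP'] at h3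
    exact h3
  have hx : p • (x : EPt W) = 0 := by
    have := (Submodule.mem_torsionBy_iff _ _).mp x.2
    rwa [natCast_zsmul] at this
  have hy : p • (y : EPt W) = 0 := by
    have := (Submodule.mem_torsionBy_iff _ _).mp y.2
    rwa [natCast_zsmul] at this
  apply not_isTres_model A hp hp2 hA (genModel (FW_V W).toAffine h2 r hr') ha₂ ha₄ hgood'
    (fun σ : GQ => DistribSMul.toAddMonoidHom (EPt W) σ) hact (x : EPt W) (y : EPt W) hx hy
  obtain ⟨ζ, ϖ, u, n, h1, h3, h4, h5, h6, h7, hy0, hχ, hκ⟩ := hT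
  refine ⟨ζ, ϖ, u, n, h1, h3, h4, h5, h6, h7, ?_, ?_, ?_⟩
  · intro h0
    exact hy0 (Subtype.ext h0)
  · intro σ hσ j hj
    exact congrArg Subtype.val (hχ σ hσ j hj)
  · intro σ hσ hσζ j hj
    exact congrArg Subtype.val (hκ σ hσ hσζ j hj)

end Fermat.Agent.S40Lib
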