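import Fermat.Agent.S40.FrobW
import Fermat.Agent.S40.Card
import Fermat.Agent.S13.Count
import Fermat.Agent.Lib.QuadRep.Wire42

/-!
# S40 (TM): `E[p]` as a Galois module
-/

set_option autoImplicit false

namespace Fermat.Agent.S40Lib

open WeierstrassCurve WeierstrassCurve.Affine Polynomial
open Fermat.Agent.S05Lib Fermat.Agent.S13Lib Fermat.Agent.S36Lib Fermat.Agent.S52Lib

local notation "Qb" => AlgebraicClosure ℚ
local notation "GQ" => (AlgebraicClosure ℚ ≃ₐ[ℚ] AlgebraicClosure ℚ)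

/-- the number of points of odd order `n` -/
theorem TM_torsion (W : WeierstrassCurve ℤ) (hΔ : W.Δ ≠ 0) (k : ℕ) :
    {x : EPt W | (2 * k + 1) • x = 0}.Finite ∧
      {x : EPt W | (2 * k + 1) • x = 0}.ncard = (2 * k + 1) ^ 2 := by
  have h2 : (2 : Qb) ≠ 0 := by norm_num
  have hVΔ : (FW_V W).Δ ≠ 0 := by
    rw [FW_map_eq, WeierstrassCurve.map_Δ]
    simpa using hΔ
  obtain ⟨r, hr⟩ := IsAlgClosed.exists_root
    (X ^ 3 + C (FW_V W).b₂ * X ^ 2 + C (8 * (FW_V W).b₄) * X + C (16 * (FW_V W).b₆) : Qb[X]) (by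
      have : (X ^ 3 + C (FW_V W).b₂ * X ^ 2 + C (8 * (FW_V W).b₄) * X
          + C (16 * (FW_V W).b₆) : Qb[X]).degree = 3 := by
        compute_degree!
      rw [this]
      norm_num)
  have hr' : r ^ 3 + (FW_V W).toAffine.b₂ * r ^ 2 + 8 * (FW_V W).toAffine.b₄ * r
      + 16 * (FW_V W).toAffine.b₆ = 0 := by
    simpa [IsRoot.def] using hr
  have hdd := genModel_disc (FW_V W).toAffine r hr'
  have hne : (3 * r ^ 2 + 2 * (FW_V W).toAffine.b₂ * r + 8 * (FW_V W).toAffine.b₄) ^ 2 *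
      ((3 * r + (FW_V W).toAffine.b₂) ^ 2
        - 4 * (3 * r ^ 2 + 2 * (FW_V W).toAffine.b₂ * r + 8 * (FW_V W).toAffine.b₄)) ≠ 0 := by
    rw [hdd]
    exact mul_ne_zero (by norm_num) hVΔ
  have h4 := pow_ne_zero_iff (two_ne_zero) |>.mp (left_ne_zero_of_mul hne)
  have hd := right_ne_zero_of_mul hne
  have hkne : (2 * k + 1 : Qb) ≠ 0 := by exact_mod_cast (Nat.succ_ne_zero (2 * k))
  obtain ⟨hfin, hle⟩ := CT.torsion_card (genModel (FW_V W).toAffine h2 r hr') h2 h4 hd k hkne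
  refine ⟨hfin, le_antisymm hle ?_⟩
  rcases le_ncard_torsion (genModel (FW_V W).toAffine h2 r hr') h4 hd
    (fun X Y h => genCo_surj (FW_V W).toAffine h2 hVΔ r hr' X Y h) (2 * k + 1)
    (Nat.succ_pos _) with h | h
  · exact h
  · exact absurd hfin h

theorem TM_set_eq (W : WeierstrassCurve ℤ) (p : ℕ) :
    ((Submodule.torsionBy ℤ (EPt W) p : Submodule ℤ (EPt W)) : Set (EPt W)) =
      {x : EPt W | p • x = 0} := by
  ext x
  rw [SetLike.mem_coe, Submodule.mem_torsionBy_iff, natCast_zsmul]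
  rfl

/-- `#E[p] = p²` -/
theorem finrank_ETor (W : WeierstrassCurve ℤ) (hΔ : W.Δ ≠ 0) {p : ℕ} [Fact p.Prime] (hp2 : p ≠ 2) :
    Finite (ETor W p) ∧ Module.finrank (ZMod p) (ETor W p) = 2 := by
  have hp : p.Prime := Fact.out
  obtain ⟨k, hk⟩ : ∃ k, p = 2 * k + 1 := hp.odd_of_ne_two hp2
  obtain ⟨hfin, hcard⟩ := TM_torsion W hΔ k
  rw [← hk, ← TM_set_eq] at hfin hcard
  haveI hF : Finite (ETor W p) := hfin
  refine ⟨hF, ?_⟩
  have h1 : Nat.card (ETor W p) = p ^ 2 := by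
    rw [← hcard]
    rfl
  have h2 := Module.natCard_eq_pow_finrank (K := ZMod p) (V := ETor W p)
  rw [h1, Nat.card_zmod] at h2
  exact (Nat.pow_right_injective hp.two_le h2).symm

/-- the Galois representation on `E[p]` -/
theorem exists_rhoE (W : WeierstrassCurve ℤ) (hΔ : W.Δ ≠ 0) {p : ℕ} [Fact p.Prime] (hp2 : p ≠ 2) :
    ∃ ρ : GQ →* Module.End (ZMod p) (ETor W p), (∀ σ x, ρ σ x = σ • x) ∧
      GaloisFactorsThroughFiniteLevel ρ := by
  have hp : p.Prime := Fact.out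
  obtain ⟨k, hk⟩ : ∃ k, p = 2 * k + 1 := hp.odd_of_ne_two hp2
  obtain ⟨hfin, -⟩ := TM_torsion W hΔ k
  rw [← hk] at hfin
  refine ⟨Point.galoisRepModuleEnd (S := ℚ) (K := AlgebraicClosure ℚ)
    (W.map (Int.castRingHom ℚ)) p, fun σ x => rfl, ?_⟩
  let S : Set Qb := ⋃ x ∈ {x : EPt W | p • x = 0}, QRLib.w42_coords x
  have hS : S.Finite := hfin.biUnion (fun x _ => QRLib.w42_coords_finite x)
  haveI : Finite S := hS
  haveI : FiniteDimensional ℚ (IntermediateField.adjoin ℚ S) :=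
    IntermediateField.finiteDimensional_adjoin
      (fun x _ => (AlgebraicClosure.isAlgebraic ℚ).isIntegral.isIntegral x)
  refine ⟨IntermediateField.adjoin ℚ S, inferInstance, fun σ hσ => ?_⟩
  apply LinearMap.ext
  intro x
  apply Subtype.ext
  change Point.map (W' := W.map (Int.castRingHom ℚ)) σ.toAlgHom x.1 = x.1
  apply QRLib.w42_map_eq_self
  intro c hc
  have hx : p • x.1 = 0 := by
    have := x.2
    rwa [Submodule.mem_torsionBy_iff, natCast_zsmul] at this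
  have hcS : c ∈ S := Set.mem_biUnion (show x.1 ∈ {x | p • x = 0} from hx) hc
  exact hσ c (IntermediateField.subset_adjoin ℚ S hcS)

end Fermat.Agent.S40Lib
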