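import Fermat.Agent.S40.Equiv
import Fermat.Agent.S40.TorMod
import Fermat.Agent.S40.LocalP
import Fermat.Agent.S40.Det

/-!
# S40 block (E), (EF): the interface for the modular side
-/

set_option autoImplicit false

namespace Fermat.Agent.S40Lib

open WeierstrassCurve WeierstrassCurve.Affine Polynomial
open Fermat.Agent.S05Lib Fermat.Agent.S13Lib Fermat.Agent.S36Lib Fermat.Agent.S52Lib

local notation "Qb" => AlgebraicClosure ℚ
local notation "GQ" => (AlgebraicClosure ℚ ≃ₐ[ℚ] AlgebraicClosure ℚ)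

/-! ## (EF) `S40/EFinal.lean` : the interface for the modular side -/

/-- **Block (E), final statement.**  `V` = a simple Galois submodule of `J₀(M)[p]` on which the
Frobenius elements satisfy the Eichler-Shimura relation with `a_ℓ = a_ℓ(W)`. -/
theorem e_final (W : WeierstrassCurve ℤ) (hΔ : W.Δ ≠ 0) {p : ℕ} [Fact p.Prime]
    (hp2 : p ≠ 2) (hgood : W.IsGoodPrimeFor p) (hirr : W.ModRepIsIrreducible p)
    {V : Type} [AddCommGroup V] [Module (ZMod p) V] [Nontrivial V]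
    (ρ : GQ →* Module.End (ZMod p) V) (hlev : GaloisFactorsThroughFiniteLevel ρ)
    (hV : ∀ N : Submodule (ZMod p) V, (∀ g, ∀ x ∈ N, ρ g x ∈ N) → N = ⊥ ∨ N = ⊤)
    (D : ℕ) (hD : D ≠ 0)
    (hquad : ∀ ℓ : ℕ, ℓ.Prime → ¬ ℓ ∣ D → ∀ 𝔄 : ValuationSubring Qb, 𝔄.LiesOverPrime ℓ →
      ∀ σ : GQ, 𝔄.IsFrobeniusAt σ ℓ →
        ρ σ * ρ σ - ((W.apOfModel ℓ : ℤ) : ZMod p) • ρ σ
          + (ℓ : ZMod p) • (1 : Module.End (ZMod p) V) = 0)
    (A : ValuationSubring Qb) (hA : A.LiesOverPrime p) {ζ : Qb} (hζ : IsPrimitiveRoot ζ p) :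
    Module.finrank (ZMod p) V = 2 ∧
    (¬ ∀ σ ∈ A.inertiaSubgroupIn ℚ, ρ σ = 1) ∧
    (¬ ∀ σ ∈ A.inertiaSubgroupIn ℚ, ∀ j : ℕ, σ ζ = ζ ^ j →
      ρ σ = (j : ZMod p) • (1 : Module.End (ZMod p) V)) ∧
    (∀ x y : V, ¬ IsTres A p (fun σ => (ρ σ).toAddMonoidHom) x y) := by
  have hp : p.Prime := Fact.out
  obtain ⟨φ, hφ⟩ := exists_equiv_ETor W hΔ hp2 hirr ρ hlev hV D hD hquad
  have hdim : Module.finrank (ZMod p) V = 2 := by
    rw [← φ.finrank_eq]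
    exact (finrank_ETor W hΔ hp2).2
  obtain ⟨h1, h2⟩ := not_scalar_inertia hp2 ρ hlev hV hdim D hD
    (fun ℓ => ((W.apOfModel ℓ : ℤ) : ZMod p)) hquad A hA hζ
  refine ⟨hdim, h1, h2, ?_⟩
  intro x y hT
  apply not_isTres_ETor W hΔ hp hp2 hgood A hA (φ.symm x) (φ.symm y)
  obtain ⟨ζ', ϖ, u, n, e1, e2, e3, e4, e5, e6, hy0, hχ, hκ⟩ := hT
  refine ⟨ζ', ϖ, u, n, e1, e2, e3, e4, e5, e6, ?_, ?_, ?_⟩
  · intro h0
    apply hy0
    have := congrArg φ h0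
    rwa [φ.apply_symm_apply, map_zero] at this
  · intro σ hσ j hj
    apply φ.injective
    show φ (σ • φ.symm y) = _
    rw [hφ, φ.apply_symm_apply, map_nsmul, φ.apply_symm_apply]
    exact hχ σ hσ j hj
  · intro σ hσ hσζ j hj
    apply φ.injective
    show φ (σ • φ.symm x) = _
    rw [hφ, φ.apply_symm_apply, map_add, map_nsmul, φ.apply_symm_apply, φ.apply_symm_apply]
    exact hκ σ hσ hσζ j hj

end Fermat.Agent.S40Lib
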