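import Fermat.Agent.S34.RedSp
import Fermat.Agent.S19.BC_Orth

/-!
# S40, (ET): extension of a reduction datum `RedG` along a split étale extension

`R : RedG A resK F Φ`, `E = F(ϑ)`, `ϑ` a root of a monic `P0 ∈ O[T]` of degree `[E : F]` whose
reduction is `∏_j (T - τ_j)` with `τ_i - τ_j` units of `Φ`.  Then `O[ϑ]` with the reduction
`P(ϑ) ↦ (P̄(τ_j))_j` is a `RedG A resK E (ι → Φ)`.
-/

set_option autoImplicit false

namespace Fermat.Agent.S40Lib

open Polynomial Fermat.Agent.S34Lib Fermat.Agent.S18Lib Fermat.Agent.S19Lib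

section Poly

variable {Φ : Type*} [CommRing Φ] {ι : Type*} [DecidableEq ι]

/-- a polynomial vanishing at points with unit differences is divisible by the product -/
theorem ET_prod_dvd (τ : ι → Φ) (hτ : ∀ i j, i ≠ j → IsUnit (τ i - τ j)) (s : Finset ι)
    (Q : Φ[X]) (hQ : ∀ j ∈ s, Q.eval (τ j) = 0) : ∏ j ∈ s, (X - C (τ j)) ∣ Q := by
  induction s using Finset.induction_on with
  | empty => simp
  | insert a s ha ih =>
    obtain ⟨Q', hQ'⟩ := ih (fun j hj => hQ j (Finset.mem_insert_of_mem hj))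
    have h1 := hQ a (Finset.mem_insert_self a s)
    rw [hQ', eval_mul, eval_prod] at h1
    have hu : IsUnit (∏ j ∈ s, (X - C (τ j)).eval (τ a)) := by
      rw [IsUnit.prod_iff]
      intro j hj
      rw [eval_sub, eval_X, eval_C]
      exact hτ a j (fun h => ha (h ▸ hj))
    have h2 : Q'.eval (τ a) = 0 := (hu.mul_right_eq_zero).mp h1
    obtain ⟨Q'', hQ''⟩ := dvd_iff_isRoot.mpr h2
    rw [Finset.prod_insert ha, hQ', hQ'']
    exact ⟨Q'', by ring⟩

variable [Fintype ι] [Nontrivial Φ]

/-- Vandermonde, injectivity -/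
theorem ET_eq_zero (τ : ι → Φ) (hτ : ∀ i j, i ≠ j → IsUnit (τ i - τ j))
    (Q : Φ[X]) (hdeg : Q.natDegree < Fintype.card ι) (hQ : ∀ j, Q.eval (τ j) = 0) : Q = 0 := by
  by_contra hne
  have h1 := ET_prod_dvd τ hτ Finset.univ Q (fun j _ => hQ j)
  have hm : (∏ j : ι, (X - C (τ j))).Monic := monic_prod_of_monic _ _ (fun j _ => monic_X_sub_C _)
  refine hm.not_dvd_of_natDegree_lt hne ?_ h1
  rw [natDegree_finsetProd_X_sub_C_eq_card]
  exact hdeg

omit [Nontrivial Φ] in
/-- Lagrange interpolation -/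
theorem ET_interp (τ : ι → Φ) (hτ : ∀ i j, i ≠ j → IsUnit (τ i - τ j)) (φ : ι → Φ) :
    ∃ Q : Φ[X], ∀ j, Q.eval (τ j) = φ j := by
  have hu : ∀ j, IsUnit (∏ i ∈ Finset.univ.erase j, (τ j - τ i)) := by
    intro j
    rw [IsUnit.prod_iff]
    intro i hi
    exact hτ j i (Finset.ne_of_mem_erase hi).symm
  choose u hu' using fun j => (hu j).exists_right_inv
  refine ⟨∑ j, C (φ j * u j) * ∏ i ∈ Finset.univ.erase j, (X - C (τ i)), fun l => ?_⟩
  rw [eval_finsetSum, Finset.sum_eq_single l]
  · rw [eval_mul, eval_C, eval_prod]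
    simp only [eval_sub, eval_X, eval_C]
    rw [mul_assoc, mul_comm (u l), hu' l, mul_one]
  · intro j _ hjl
    rw [eval_mul, eval_prod, Finset.prod_eq_zero (i := l) (Finset.mem_erase.mpr ⟨hjl.symm, Finset.mem_univ _⟩)
      (by simp), mul_zero]
  · intro h
    exact absurd (Finset.mem_univ l) h

end Poly

section Pol

variable {S : Type*} [CommRing S] {n : ℕ}

/-- the polynomial with given coefficients -/
noncomputable def ET_pol (f : Fin n → S) : S[X] := ∑ i : Fin n, C (f i) * X ^ (i : ℕ)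

theorem ET_pol_natDegree_lt (hn : 0 < n) (f : Fin n → S) : (ET_pol f).natDegree < n := by
  by_cases h : ET_pol f = 0
  · rw [h, natDegree_zero]; exact hn
  · rw [natDegree_lt_iff_degree_lt h]
    exact degree_sum_fin_lt f

theorem ET_pol_coeff (f : Fin n → S) (i : Fin n) : (ET_pol f).coeff (i : ℕ) = f i := by
  rw [ET_pol, finsetSum_coeff, Finset.sum_eq_single i]
  · simp
  · intro j _ hj
    rw [coeff_C_mul, coeff_X_pow, if_neg (fun h => hj (Fin.ext h.symm)), mul_zero]
  · intro h
    exact absurd (Finset.mem_univ i) h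

theorem ET_pol_map {S' : Type*} [CommRing S'] (g : S →+* S') (f : Fin n → S) :
    (ET_pol f).map g = ET_pol (fun i => g (f i)) := by
  simp [ET_pol, Polynomial.map_sum]

theorem ET_pol_eval (f : Fin n → S) (x : S) : (ET_pol f).eval x = ∑ i, f i * x ^ (i : ℕ) := by
  simp [ET_pol, eval_finsetSum]

theorem ET_pol_eq_zero {f : Fin n → S} (h : ET_pol f = 0) : f = 0 := by
  ext i
  rw [← ET_pol_coeff f i, h, coeff_zero, Pi.zero_apply]

/-- a polynomial of degree `< n` is an `ET_pol` -/
theorem ET_eq_pol (P : S[X]) (hP : P.natDegree < n) : P = ET_pol (fun i : Fin n => P.coeff i) := by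
  rw [ET_pol, Fin.sum_univ_eq_sum_range (fun i => C (P.coeff i) * X ^ i) n]
  exact as_sum_range_C_mul_X_pow' P hP

/-- Vandermonde, injectivity, in coordinates -/
theorem ET_vand [Nontrivial S] {ι : Type*} [Fintype ι] [DecidableEq ι] (τ : ι → S)
    (hτ : ∀ i j, i ≠ j → IsUnit (τ i - τ j)) (hcard : Fintype.card ι = n) (hn : 0 < n)
    (c : Fin n → S) (h : ∀ j, ∑ i, c i * τ j ^ (i : ℕ) = 0) : c = 0 := by
  apply ET_pol_eq_zero
  apply ET_eq_zero τ hτ
  · rw [hcard]; exact ET_pol_natDegree_lt hn c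
  · intro j
    rw [ET_pol_eval]; exact h j

end Pol

section LA

variable {K k : Type*} [Field K] [Field k] {A : ValuationSubring K} {resK : A →+* k}

/-- subspaces of `K^J` have orthonormal bases -/
theorem ET_la {J : Type*} [Fintype J] (n : ℕ) (U : Submodule K (J → K))
    (hU : Module.finrank K U = n) :
    ∃ w : Fin n → (J → A), (∀ t, (fun i => ((w t i : A) : K)) ∈ U) ∧
      LinearIndependent k (fun t => fun i => resK (w t i)) := by
  classical
  set e := Fintype.equivFin J with he
  set L : (Fin (Fintype.card J) → K) ≃ₗ[K] (J → K) := LinearEquiv.funCongrLeft K K e with hL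
  obtain ⟨w', hw'U, hw'⟩ := bc_la_aux (A := A) (resK := resK) (Fintype.card J) n
    (U.map L.symm.toLinearMap) (by rw [LinearEquiv.finrank_map_eq, hU])
  refine ⟨fun t i => w' t (e i), fun t => ?_, ?_⟩
  · obtain ⟨v, hv, hvw⟩ := hw'U t
    have : v = L (fun i => ((w' t i : A) : K)) := by
      rw [← hvw]
      exact (L.apply_symm_apply v).symm
    rw [this] at hv
    exact hv
  · exact hw'.map' (LinearEquiv.funCongrLeft k k e).toLinearMap (LinearEquiv.ker _)

end LA

section ET

variable {K k : Type*} [Field K] [Field k] {A : ValuationSubring K} {resK : A →+* k}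
  {F Φ : Type*} [Field F] [Algebra K F] [CommRing Φ] [Algebra k Φ]

theorem ET_nontrivial (R : RedG A resK F Φ) : Nontrivial Φ := by
  by_contra h
  rw [not_nontrivial_iff_subsingleton] at h
  have := R.isUnit_of_red 0 (isUnit_of_subsingleton _)
  exact not_isUnit_zero this

/-- an orthonormal basis of the span of a finite family, with coordinates -/
theorem ET_exists_orth_span (R : RedG A resK F Φ) {J : Type*} [Finite J] (f : J → F) :
    ∃ (m : ℕ) (b : Fin m → R.O), LinearIndependent k (fun i => R.red (b i)) ∧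
      ∀ j, ∃ a : Fin m → K, f j = ∑ i, a i • ((b i : R.O) : F) := by
  classical
  set U : Submodule K F := Submodule.span K (Set.range f) with hU
  have : FiniteDimensional K U := FiniteDimensional.span_of_finite K (Set.finite_range f)
  obtain ⟨b, hbU, hb⟩ := R.exists_orth U inferInstance
  refine ⟨_, b, hb, fun j => ?_⟩
  have hli := linearIndependent_of_redG R b hb
  have hli' : LinearIndependent K (fun i => (⟨((b i : R.O) : F), hbU i⟩ : U)) :=
    LinearIndependent.of_comp U.subtype hli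
  have hspan := hli'.span_eq_top_of_card_eq_finrank' (by simp)
  have hmem : (⟨f j, Submodule.subset_span ⟨j, rfl⟩⟩ : U) ∈
      Submodule.span K (Set.range fun i => (⟨((b i : R.O) : F), hbU i⟩ : U)) := by
    rw [hspan]; trivial
  obtain ⟨a, ha⟩ := (Submodule.mem_span_range_iff_exists_fun K).1 hmem
  refine ⟨a, ?_⟩
  have := congrArg Subtype.val ha
  simp only [AddSubmonoidClass.coe_finsetSum, Submodule.coe_smul] at this
  exact this.symm

/-- the data of a split étale extension -/
structure ETData (R : RedG A resK F Φ) (E : Type*) [Field E] [Algebra F E] (ι : Type*)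
    [Fintype ι] where
  pb : PowerBasis F E
  P0 : R.O[X]
  monic : P0.Monic
  natDegree_eq : P0.natDegree = pb.dim
  root : eval₂ ((algebraMap F E).comp R.O.subtype) pb.gen P0 = 0
  τ : ι → Φ
  map_P0 : P0.map R.red = ∏ j, (X - C (τ j))
  isUnit_sub : ∀ i j, i ≠ j → IsUnit (τ i - τ j)

namespace ETData

variable {R : RedG A resK F Φ} {E : Type*} [Field E] [Algebra F E] {ι : Type*} [Fintype ι]
  (D : ETData R E ι)

/-- evaluation at `ϑ` -/
noncomputable def ev : R.O[X] →+* E :=
  eval₂RingHom ((algebraMap F E).comp R.O.subtype) D.pb.gen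

/-- evaluation of the reduction at the `τ_j` -/
noncomputable def rd : R.O[X] →+* (ι → Φ) :=
  RingHom.pi fun j => (evalRingHom (D.τ j)).comp (mapRingHom R.red)

theorem ev_C (a : R.O) : D.ev (C a) = algebraMap F E (a : F) := by
  simp [ev]

theorem ev_X : D.ev X = D.pb.gen := by
  simp [ev]

theorem rd_apply (P : R.O[X]) (j : ι) : D.rd P j = (P.map R.red).eval (D.τ j) := rfl

theorem rd_C (a : R.O) : D.rd (C a) = fun _ => R.red a := by
  ext j
  rw [rd_apply, Polynomial.map_C, eval_C]

theorem rd_X : D.rd X = D.τ := by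
  ext j
  rw [rd_apply, Polynomial.map_X, eval_X]

theorem ev_P0 : D.ev D.P0 = 0 := D.root

theorem rd_P0 : D.rd D.P0 = 0 := by
  ext j
  rw [rd_apply, D.map_P0, eval_prod]
  exact Finset.prod_eq_zero (Finset.mem_univ j) (by simp)

theorem card_eq : Fintype.card ι = D.pb.dim := by
  have := ET_nontrivial R
  rw [← D.natDegree_eq, ← D.monic.natDegree_map R.red, D.map_P0,
    natDegree_finsetProd_X_sub_C_eq_card]
  rfl

theorem eq_zero_of_ev (G : R.O[X]) (hG : G.natDegree < D.pb.dim) (h : D.ev G = 0) : G = 0 := by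
  by_contra hne
  have hne' : G.map R.O.subtype ≠ 0 :=
    (Polynomial.map_ne_zero_iff (Subtype.val_injective)).mpr hne
  have hroot : aeval D.pb.gen (G.map R.O.subtype) = 0 := by
    rw [aeval_def, eval₂_map]; exact h
  have h1 := D.pb.dim_le_natDegree_of_root hne' hroot
  have h2 : (G.map R.O.subtype).natDegree ≤ G.natDegree := natDegree_map_le
  omega

theorem dim_pos : 0 < D.pb.dim := D.pb.dim_pos

theorem natDegree_mod_lt (P : R.O[X]) : (P %ₘ D.P0).natDegree < D.pb.dim := by
  rw [← D.natDegree_eq]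
  apply natDegree_modByMonic_lt P D.monic
  intro h
  have := D.natDegree_eq
  rw [h, natDegree_one] at this
  exact D.dim_pos.ne this

theorem ev_mod (P : R.O[X]) : D.ev (P %ₘ D.P0) = D.ev P := by
  conv_rhs => rw [← modByMonic_add_div P D.P0]
  rw [map_add, map_mul, D.ev_P0, zero_mul, add_zero]

theorem rd_mod (P : R.O[X]) : D.rd (P %ₘ D.P0) = D.rd P := by
  conv_rhs => rw [← modByMonic_add_div P D.P0]
  rw [map_add, map_mul, D.rd_P0, zero_mul, add_zero]

theorem ker_le : RingHom.ker D.ev.rangeRestrict ≤ RingHom.ker D.rd := by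
  intro P hP
  rw [RingHom.mem_ker] at hP ⊢
  have h1 : D.ev P = 0 := congrArg Subtype.val hP
  rw [← D.ev_mod] at h1
  rw [← D.rd_mod, D.eq_zero_of_ev _ (D.natDegree_mod_lt P) h1, map_zero]

/-- the ring `O[ϑ]` -/
noncomputable abbrev OE : Subring E := D.ev.range

/-- the reduction map on `O[ϑ]` -/
noncomputable def redE : D.OE →+* (ι → Φ) :=
  D.ev.rangeRestrict.liftOfSurjective D.ev.rangeRestrict_surjective ⟨D.rd, D.ker_le⟩

theorem ev_mem (P : R.O[X]) : D.ev P ∈ D.OE := ⟨P, rfl⟩

theorem redE_ev (P : R.O[X]) : D.redE ⟨D.ev P, D.ev_mem P⟩ = D.rd P :=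
  RingHom.liftOfRightInverse_comp_apply D.ev.rangeRestrict _ _ ⟨D.rd, D.ker_le⟩ P

theorem exists_of_mem {x : E} (hx : x ∈ D.OE) :
    ∃ P : R.O[X], P.natDegree < D.pb.dim ∧ D.ev P = x := by
  obtain ⟨P, rfl⟩ := hx
  exact ⟨P %ₘ D.P0, D.natDegree_mod_lt P, D.ev_mod P⟩

variable [DecidableEq ι]

/-- (KER) -/
theorem map_eq_zero_of_rd (P : R.O[X]) (hP : P.natDegree < D.pb.dim) (h : D.rd P = 0) :
    P.map R.red = 0 := by
  have := ET_nontrivial R
  apply ET_eq_zero D.τ D.isUnit_sub
  · rw [D.card_eq]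
    exact lt_of_le_of_lt natDegree_map_le hP
  · intro j
    exact congrFun h j

omit [DecidableEq ι] in
theorem ev_pol (a : Fin D.pb.dim → R.O) :
    D.ev (ET_pol a) = ∑ i, algebraMap F E ((a i : R.O) : F) * D.pb.gen ^ (i : ℕ) := by
  simp only [ET_pol, map_sum, map_mul, map_pow, D.ev_C, D.ev_X]

omit [DecidableEq ι] in
theorem rd_pol (a : Fin D.pb.dim → R.O) (j : ι) :
    D.rd (ET_pol a) j = ∑ i, R.red (a i) * D.τ j ^ (i : ℕ) := by
  rw [rd_apply, ET_pol_map, ET_pol_eval]

/-- (KER) in coordinates -/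
theorem red_eq_zero_of_rd_pol (a : Fin D.pb.dim → R.O) (h : D.rd (ET_pol a) = 0) (i) :
    R.red (a i) = 0 := by
  have h1 := D.map_eq_zero_of_rd _ (ET_pol_natDegree_lt D.dim_pos a) h
  rw [ET_pol_map] at h1
  exact congrFun (ET_pol_eq_zero h1) i

theorem redE_surjective : Function.Surjective D.redE := by
  intro φ
  obtain ⟨Q, hQ⟩ := ET_interp D.τ D.isUnit_sub φ
  obtain ⟨P, rfl⟩ := Polynomial.map_surjective R.red R.red_surjective Q
  exact ⟨⟨D.ev P, D.ev_mem P⟩, by rw [redE_ev]; ext j; exact hQ j⟩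

omit [DecidableEq ι] in
theorem isIntegral_C : (D.ev.rangeRestrict.comp C).IsIntegral := by
  rintro ⟨_, P, rfl⟩
  have e : (⟨D.ev P, ⟨P, rfl⟩⟩ : D.ev.range) = D.ev.rangeRestrict P := rfl
  rw [e]
  have hX : (D.ev.rangeRestrict.comp C).IsIntegralElem (D.ev.rangeRestrict X) := by
    refine ⟨D.P0, D.monic, ?_⟩
    rw [← hom_eval₂, eval₂_C_X]
    exact Subtype.ext D.ev_P0
  induction P using Polynomial.induction_on with
  | C a => exact (D.ev.rangeRestrict.comp C).isIntegralElem_map
  | add p q hp hq =>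
    rw [map_add]
    exact RingHom.IsIntegralElem.add _ (hp rfl) (hq rfl)
  | monomial n a h =>
    rw [pow_succ, ← mul_assoc, map_mul]
    exact RingHom.IsIntegralElem.mul _ (h rfl) hX

theorem mem_of_redE_eq_zero (M : Ideal D.OE) [hM : M.IsMaximal] (m : D.OE) (hm : D.redE m = 0) :
    m ∈ M := by
  have hmax : (M.comap (D.ev.rangeRestrict.comp C)).IsMaximal :=
    Ideal.isMaximal_comap_of_isIntegral_of_isMaximal' _ D.isIntegral_C M
  have key : ∀ a : R.O, R.red a = 0 → D.ev.rangeRestrict (C a) ∈ M := by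
    intro a ha
    by_contra hcon
    have hcon' : a ∉ M.comap (D.ev.rangeRestrict.comp C) := hcon
    obtain ⟨y, i, hi, hyi⟩ := hmax.exists_inv hcon'
    have h1 : R.red i = 1 := by
      have := congrArg R.red hyi
      rwa [map_add, map_mul, ha, mul_zero, zero_add, map_one] at this
    have h2 : IsUnit i := R.isUnit_of_red i (by rw [h1]; exact isUnit_one)
    exact hmax.ne_top (Ideal.eq_top_of_isUnit_mem _ hi h2)
  obtain ⟨x, hx⟩ := m
  obtain ⟨P, hP, rfl⟩ := D.exists_of_mem hx
  rw [D.redE_ev] at hm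
  have h0 := D.map_eq_zero_of_rd P hP hm
  have e : (⟨D.ev P, hx⟩ : D.OE) = D.ev.rangeRestrict P := rfl
  rw [e, P.as_sum_range_C_mul_X_pow, map_sum]
  refine Ideal.sum_mem _ fun i _ => ?_
  rw [map_mul]
  refine Ideal.mul_mem_right _ _ (key _ ?_)
  rw [← coeff_map, h0, coeff_zero]

theorem isUnit_of_redE (x : D.OE) (hx : IsUnit (D.redE x)) : IsUnit x := by
  by_contra hnu
  obtain ⟨M, hM, hxM⟩ := exists_max_ideal_of_mem_nonunits hnu
  obtain ⟨y, hy⟩ := D.redE_surjective ((hx.unit⁻¹ : (ι → Φ)ˣ) : ι → Φ)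
  have h1 : D.redE (x * y - 1) = 0 := by
    rw [map_sub, map_mul, hy, map_one, IsUnit.mul_val_inv, sub_self]
  have h2 := D.mem_of_redE_eq_zero M _ h1
  have h3 : (1 : D.OE) ∈ M := by
    have := M.sub_mem (M.mul_mem_right y hxM) h2
    simpa using this
  exact hM.ne_top ((Ideal.eq_top_iff_one M).mpr h3)

section Tower

variable [Algebra K E] [IsScalarTower K F E]

omit [DecidableEq ι] in
theorem ev_const (a : A) : D.ev (C (R.const a)) = algebraMap K E (a : K) := by
  rw [D.ev_C, R.coe_const, ← IsScalarTower.algebraMap_apply]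

omit [DecidableEq ι] in
theorem algebraMap_mem_iff (a : K) : algebraMap K E a ∈ D.OE ↔ a ∈ A := by
  constructor
  · intro h
    obtain ⟨P, hP, hPa⟩ := D.exists_of_mem h
    rw [← R.algebraMap_mem_iff]
    have hroot : aeval D.pb.gen (P.map R.O.subtype - C (algebraMap K F a)) = 0 := by
      rw [map_sub, aeval_C, aeval_def, eval₂_map, ← IsScalarTower.algebraMap_apply, sub_eq_zero]
      exact hPa
    have hz : P.map R.O.subtype - C (algebraMap K F a) = 0 := by
      by_contra hne
      have h1 := D.pb.dim_le_natDegree_of_root hne hroot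
      have h2 : (P.map R.O.subtype - C (algebraMap K F a)).natDegree ≤ P.natDegree := by
        refine (natDegree_sub_le _ _).trans ?_
        rw [natDegree_C, max_le_iff]
        exact ⟨natDegree_map_le, Nat.zero_le _⟩
      omega
    have h3 := congrArg (fun Q => Q.coeff 0) hz
    simp only [coeff_sub, coeff_map, coeff_C_zero, coeff_zero, sub_eq_zero] at h3
    rw [← h3]
    exact (P.coeff 0).2
  · intro h
    rw [show a = ((⟨a, h⟩ : A) : K) from rfl, ← D.ev_const]
    exact D.ev_mem _

omit [DecidableEq ι] in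
theorem redE_algebraMap (a : A) (h : algebraMap K E (a : K) ∈ D.OE) :
    D.redE ⟨algebraMap K E (a : K), h⟩ = algebraMap k (ι → Φ) (resK a) := by
  have e : (⟨algebraMap K E (a : K), h⟩ : D.OE) = ⟨D.ev (C (R.const a)), D.ev_mem _⟩ :=
    Subtype.ext (D.ev_const a).symm
  rw [e, D.redE_ev, D.rd_C, R.red_const]
  rfl

theorem exists_scale (x : E) (hx : x ≠ 0) : ∃ c : K, c ≠ 0 ∧ ∃ y : D.OE, D.redE y ≠ 0 ∧
    x = algebraMap K E c * ((y : D.OE) : E) := by
  classical
  set a : Fin D.pb.dim → F := fun i => D.pb.basis.repr x i with ha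
  have hxa : x = ∑ i, algebraMap F E (a i) * D.pb.gen ^ (i : ℕ) := by
    conv_lhs => rw [← D.pb.basis.sum_repr x]
    refine Finset.sum_congr rfl fun i _ => ?_
    rw [D.pb.coe_basis, Algebra.smul_def]
  have hch : ∀ i, ∃ (c : K) (y : R.O), a i = algebraMap K F c * (y : F) ∧
      (c ≠ 0 → R.red y ≠ 0) ∧ (a i ≠ 0 → c ≠ 0) := by
    intro i
    by_cases h : a i = 0
    · exact ⟨0, 0, by simp [h], fun h' => absurd rfl h', fun h' => absurd h h'⟩
    · obtain ⟨c, hc, y, hy, e⟩ := R.exists_scale (a i) h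
      exact ⟨c, y, e, fun _ => hy, fun _ => hc⟩
  choose c y hcy hy hc using hch
  obtain ⟨i1, hi1⟩ : ∃ i, a i ≠ 0 := by
    by_contra hcon
    push Not at hcon
    apply hx
    rw [hxa]
    simp [hcon]
  obtain ⟨i0, -, hi0, hall⟩ :=
    exists_scale_finset A Finset.univ c ⟨i1, Finset.mem_univ _, hc i1 hi1⟩
  set b : Fin D.pb.dim → R.O :=
    fun i => R.const ⟨c i / c i0, hall i (Finset.mem_univ _)⟩ * y i with hb
  refine ⟨c i0, hi0, ⟨D.ev (ET_pol b), D.ev_mem _⟩, ?_, ?_⟩
  · rw [D.redE_ev]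
    intro h
    have h1 := D.red_eq_zero_of_rd_pol b h i0
    simp only [hb, map_mul, R.red_const] at h1
    have h2 : (⟨c i0 / c i0, hall i0 (Finset.mem_univ _)⟩ : A) = 1 := Subtype.ext (div_self hi0)
    rw [h2, map_one, map_one, one_mul] at h1
    exact hy i0 hi0 h1
  · show x = algebraMap K E (c i0) * D.ev (ET_pol b)
    rw [D.ev_pol, hxa, Finset.mul_sum]
    refine Finset.sum_congr rfl fun i _ => ?_
    rw [hcy i]
    simp only [hb, Subring.coe_mul, R.coe_const, map_mul]
    rw [← IsScalarTower.algebraMap_apply, ← IsScalarTower.algebraMap_apply, ← mul_assoc,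
      ← mul_assoc, ← map_mul, mul_div_cancel₀ _ hi0]

theorem exists_orth (U : Submodule K E) (hU : FiniteDimensional K U) :
    ∃ b : Fin (Module.finrank K U) → D.OE, (∀ i, ((b i : D.OE) : E) ∈ U) ∧
      LinearIndependent k (fun i => D.redE (b i)) := by
  classical
  have hnt := ET_nontrivial R
  set u := Module.finBasis K U with hu
  -- coordinates
  set a : Fin (Module.finrank K U) → Fin D.pb.dim → F :=
    fun t i => D.pb.basis.repr ((u t : U) : E) i with ha
  have hua : ∀ t, ((u t : U) : E) = ∑ i, algebraMap F E (a t i) * D.pb.gen ^ (i : ℕ) := by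
    intro t
    conv_lhs => rw [← D.pb.basis.sum_repr ((u t : U) : E)]
    refine Finset.sum_congr rfl fun i _ => ?_
    rw [D.pb.coe_basis, Algebra.smul_def]
  obtain ⟨m, bb, hbb, hco⟩ := ET_exists_orth_span R
    (fun ti : Fin (Module.finrank K U) × Fin D.pb.dim => a ti.1 ti.2)
  choose α hα using hco
  -- the orthonormal family `bb l * ϑ ^ i`
  set B : Fin m × Fin D.pb.dim → E :=
    fun s => algebraMap F E ((bb s.1 : R.O) : F) * D.pb.gen ^ (s.2 : ℕ) with hB
  set Bb : Fin m × Fin D.pb.dim → (ι → Φ) :=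
    fun s j => R.red (bb s.1) * D.τ j ^ (s.2 : ℕ) with hBb
  have hBbli : LinearIndependent k Bb := by
    rw [Fintype.linearIndependent_iff]
    intro g hg
    have h1 : (fun i : Fin D.pb.dim => ∑ l, g (l, i) • R.red (bb l)) = 0 := by
      apply ET_vand D.τ D.isUnit_sub D.card_eq D.dim_pos
      intro j
      have h2 := congrFun hg j
      rw [Finset.sum_apply, Fintype.sum_prod_type_right, Pi.zero_apply] at h2
      rw [← h2]
      refine Finset.sum_congr rfl fun i _ => ?_
      rw [Finset.sum_mul]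
      refine Finset.sum_congr rfl fun l _ => ?_
      simp only [hBb, Pi.smul_apply, smul_mul_assoc]
    rintro ⟨l, i⟩
    exact (Fintype.linearIndependent_iff.1 hbb) (fun l => g (l, i)) (congrFun h1 i) l
  set Λ : (Fin m × Fin D.pb.dim → K) →ₗ[K] E := Fintype.linearCombination K B with hΛ
  set δ : Fin (Module.finrank K U) → (Fin m × Fin D.pb.dim → K) :=
    fun t s => α (t, s.2) s.1 with hδ
  have hΛδ : ∀ t, Λ (δ t) = ((u t : U) : E) := by
    intro t
    rw [hΛ, Fintype.linearCombination_apply, Fintype.sum_prod_type_right, hua t]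
    refine Finset.sum_congr rfl fun i _ => ?_
    have h1 : a t i = ∑ l, α (t, i) l • ((bb l : R.O) : F) := hα (t, i)
    rw [h1, map_sum, Finset.sum_mul]
    refine Finset.sum_congr rfl fun l _ => ?_
    simp only [hδ, hB]
    rw [Algebra.smul_def, Algebra.smul_def, map_mul, ← IsScalarTower.algebraMap_apply, mul_assoc]
  have hδli : LinearIndependent K δ := by
    apply LinearIndependent.of_comp Λ
    have : Λ ∘ δ = fun t => ((u t : U) : E) := funext hΛδ
    rw [this]
    exact u.linearIndependent.map' U.subtype (Submodule.ker_subtype U)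
  have hN : Module.finrank K (Submodule.span K (Set.range δ)) = Module.finrank K U := by
    rw [finrank_span_eq_card hδli, Fintype.card_fin]
  obtain ⟨w, hwN, hwind⟩ := ET_la (A := A) (resK := resK) _ _ hN
  have hNU : ∀ v ∈ Submodule.span K (Set.range δ), Λ v ∈ U := by
    intro v hv
    induction hv using Submodule.span_induction with
    | mem x hx =>
      obtain ⟨t, rfl⟩ := hx
      rw [hΛδ]
      exact (u t).2
    | zero => rw [map_zero]; exact U.zero_mem
    | add x y _ _ hx hy => rw [map_add]; exact U.add_mem hx hy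
    | smul c x _ hx => rw [map_smul]; exact U.smul_mem _ hx
  set G : Fin (Module.finrank K U) → R.O[X] :=
    fun t => ET_pol (fun i => ∑ l, R.const (w t (l, i)) * bb l) with hG
  have hGev : ∀ t, D.ev (G t) = Λ (fun s => ((w t s : A) : K)) := by
    intro t
    rw [hΛ, Fintype.linearCombination_apply, Fintype.sum_prod_type_right]
    simp only [hG]
    rw [D.ev_pol]
    refine Finset.sum_congr rfl fun i _ => ?_
    have h1 : (((∑ l, R.const (w t (l, i)) * bb l : R.O)) : F)
        = ∑ l, algebraMap K F ((w t (l, i) : A) : K) * ((bb l : R.O) : F) :=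
      map_sum R.O.subtype _ _
    rw [h1, map_sum, Finset.sum_mul]
    refine Finset.sum_congr rfl fun l _ => ?_
    simp only [hB]
    rw [Algebra.smul_def, map_mul, ← IsScalarTower.algebraMap_apply, mul_assoc]
  have hGrd : ∀ t, D.rd (G t) = Fintype.linearCombination k Bb (fun s => resK (w t s)) := by
    intro t
    ext j
    rw [Fintype.linearCombination_apply, Finset.sum_apply, Fintype.sum_prod_type_right]
    simp only [hG]
    rw [D.rd_pol]
    refine Finset.sum_congr rfl fun i _ => ?_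
    rw [map_sum, Finset.sum_mul]
    refine Finset.sum_congr rfl fun l _ => ?_
    simp only [hBb, Pi.smul_apply, map_mul, R.red_const]
    rw [Algebra.smul_def, mul_assoc]
  refine ⟨fun t => ⟨D.ev (G t), D.ev_mem _⟩, fun t => ?_, ?_⟩
  · show D.ev (G t) ∈ U
    rw [hGev]
    exact hNU _ (hwN t)
  · have h1 : (fun t => D.redE ⟨D.ev (G t), D.ev_mem _⟩)
        = fun t => Fintype.linearCombination k Bb (fun s => resK (w t s)) := by
      funext t
      rw [D.redE_ev, hGrd]
    rw [h1]
    exact hwind.map' _ (LinearMap.ker_eq_bot.2 hBbli.fintypeLinearCombination_injective)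

/-- **(ET)** the reduction datum on `E = F(ϑ)` -/
noncomputable def redG : RedG A resK E (ι → Φ) where
  O := D.OE
  red := D.redE
  red_surjective := D.redE_surjective
  isUnit_of_red := D.isUnit_of_redE
  algebraMap_mem_iff := D.algebraMap_mem_iff
  red_algebraMap := D.redE_algebraMap
  exists_scale := D.exists_scale
  exists_orth := D.exists_orth

theorem mem_redG_O (x : E) : x ∈ D.redG.O ↔ ∃ P : R.O[X], P.natDegree < D.pb.dim ∧ D.ev P = x :=
  ⟨fun h => D.exists_of_mem h, fun ⟨P, _, h⟩ => h ▸ D.ev_mem P⟩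

theorem ev_mem_redG (P : R.O[X]) : D.ev P ∈ D.redG.O := D.ev_mem P

theorem redG_red_ev (P : R.O[X]) (j : ι) :
    D.redG.red ⟨D.ev P, D.ev_mem_redG P⟩ j = (P.map R.red).eval (D.τ j) :=
  congrFun (D.redE_ev P) j

/-- elements of `O` -/
theorem algebraMap_mem_redG (a : R.O) : algebraMap F E (a : F) ∈ D.redG.O := by
  rw [← D.ev_C]; exact D.ev_mem _

theorem redG_red_algebraMap (a : R.O) (j : ι) :
    D.redG.red ⟨algebraMap F E (a : F), D.algebraMap_mem_redG a⟩ j = R.red a := by
  have e : (⟨algebraMap F E (a : F), D.algebraMap_mem_redG a⟩ : D.redG.O)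
      = ⟨D.ev (C a), D.ev_mem_redG _⟩ := Subtype.ext (D.ev_C a).symm
  rw [e, D.redG_red_ev, Polynomial.map_C, eval_C]

/-- the generator -/
theorem gen_mem_redG : D.pb.gen ∈ D.redG.O := by
  rw [← D.ev_X]; exact D.ev_mem _

theorem redG_red_gen (j : ι) : D.redG.red ⟨D.pb.gen, D.gen_mem_redG⟩ j = D.τ j := by
  have e : (⟨D.pb.gen, D.gen_mem_redG⟩ : D.redG.O) = ⟨D.ev X, D.ev_mem_redG _⟩ :=
    Subtype.ext D.ev_X.symm
  rw [e, D.redG_red_ev, Polynomial.map_X, eval_X]

/-- (KER) the kernel of the reduction: all coordinates reduce to `0` -/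
theorem redG_red_eq_zero_iff (a : Fin D.pb.dim → R.O) :
    D.redG.red ⟨D.ev (ET_pol a), D.ev_mem_redG _⟩ = 0 ↔ ∀ i, R.red (a i) = 0 := by
  constructor
  · intro h
    exact D.red_eq_zero_of_rd_pol a ((D.redE_ev _).symm.trans h)
  · intro h
    ext j
    rw [D.redG_red_ev, ET_pol_map, ET_pol_eval]
    simp [h]

end Tower

end ETData

end ET

end Fermat.Agent.S40Lib
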