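import Fermat.Agent.S40.TorMod
import Fermat.Agent.S40.Alg
import Fermat.Agent.S40.Cyclo

/-!
# S40 (EQ): every simple module with the Frobenius relations of `E` is `E[p]`
-/

set_option autoImplicit false

namespace Fermat.Agent.S40Lib

open WeierstrassCurve WeierstrassCurve.Affine Polynomial
open Fermat.Agent.S05Lib Fermat.Agent.S13Lib Fermat.Agent.S36Lib Fermat.Agent.S52Lib

local notation "Qb" => AlgebraicClosure ℚ
local notation "GQ" => (AlgebraicClosure ℚ ≃ₐ[ℚ] AlgebraicClosure ℚ)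

/-- the product of two representations -/
def EQ_prod {k G U V : Type} [Field k] [Group G] [AddCommGroup U] [Module k U] [AddCommGroup V]
    [Module k V] (πU : G →* Module.End k U) (πV : G →* Module.End k V) :
    G →* Module.End k (U × V) where
  toFun g := (πU g).prodMap (πV g)
  map_one' := by
    rw [map_one, map_one]
    exact LinearMap.prodMap_one
  map_mul' g h := by
    rw [map_mul, map_mul]
    exact LinearMap.prodMap_mul _ _ _ _

theorem EQ_prod_apply {k G U V : Type} [Field k] [Group G] [AddCommGroup U] [Module k U]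
    [AddCommGroup V] [Module k V] (πU : G →* Module.End k U) (πV : G →* Module.End k V) (g : G)
    (x : U × V) : EQ_prod πU πV g x = (πU g x.1, πV g x.2) := rfl

theorem EQ_level {U V : Type} {k : Type} [Field k] [AddCommGroup U] [Module k U] [AddCommGroup V]
    [Module k V] (πU : GQ →* Module.End k U) (πV : GQ →* Module.End k V)
    (hU : GaloisFactorsThroughFiniteLevel πU) (hV : GaloisFactorsThroughFiniteLevel πV) :
    GaloisFactorsThroughFiniteLevel (EQ_prod πU πV) := by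
  obtain ⟨L₁, hL₁, h1⟩ := hU
  obtain ⟨L₂, hL₂, h2⟩ := hV
  refine ⟨L₁ ⊔ L₂, IntermediateField.finiteDimensional_sup L₁ L₂, fun σ hσ => ?_⟩
  have e1 := h1 σ (fun x hx => hσ x ((le_sup_left : L₁ ≤ L₁ ⊔ L₂) hx))
  have e2 := h2 σ (fun x hx => hσ x ((le_sup_right : L₂ ≤ L₁ ⊔ L₂) hx))
  apply LinearMap.ext
  intro x
  rw [EQ_prod_apply, e1, e2]
  rfl

/-- a quadratic relation on the product is a pair of quadratic relations -/
theorem EQ_quad_iff {k G U V : Type} [Field k] [Group G] [AddCommGroup U] [Module k U]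
    [AddCommGroup V] [Module k V] (πU : G →* Module.End k U) (πV : G →* Module.End k V) (g : G)
    (t d : k) :
    EQ_prod πU πV g * EQ_prod πU πV g - t • EQ_prod πU πV g
        + d • (1 : Module.End k (U × V)) = 0 ↔
      (πU g * πU g - t • πU g + d • (1 : Module.End k U) = 0 ∧
        πV g * πV g - t • πV g + d • (1 : Module.End k V) = 0) := by
  constructor
  · intro h
    constructor
    · apply LinearMap.ext
      intro u
      have := congrArg Prod.fst (LinearMap.congr_fun h (u, 0))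
      simpa [EQ_prod_apply] using this
    · apply LinearMap.ext
      intro v
      have := congrArg Prod.snd (LinearMap.congr_fun h (0, v))
      simpa [EQ_prod_apply] using this
  · rintro ⟨h1, h2⟩
    apply LinearMap.ext
    rintro ⟨u, v⟩
    have e1 := LinearMap.congr_fun h1 u
    have e2 := LinearMap.congr_fun h2 v
    apply Prod.ext
    · simpa [EQ_prod_apply] using e1
    · simpa [EQ_prod_apply] using e2

theorem exists_equiv_ETor (W : WeierstrassCurve ℤ) (hΔ : W.Δ ≠ 0) {p : ℕ} [Fact p.Prime]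
    (hp2 : p ≠ 2) (hirr : W.ModRepIsIrreducible p)
    {V : Type} [AddCommGroup V] [Module (ZMod p) V] [Nontrivial V]
    (ρ : GQ →* Module.End (ZMod p) V) (hlev : GaloisFactorsThroughFiniteLevel ρ)
    (hV : ∀ N : Submodule (ZMod p) V, (∀ g, ∀ x ∈ N, ρ g x ∈ N) → N = ⊥ ∨ N = ⊤)
    (D : ℕ) (hD : D ≠ 0)
    (hquad : ∀ ℓ : ℕ, ℓ.Prime → ¬ ℓ ∣ D → ∀ 𝔄 : ValuationSubring Qb, 𝔄.LiesOverPrime ℓ →
      ∀ σ : GQ, 𝔄.IsFrobeniusAt σ ℓ →
        ρ σ * ρ σ - ((W.apOfModel ℓ : ℤ) : ZMod p) • ρ σ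
          + (ℓ : ZMod p) • (1 : Module.End (ZMod p) V) = 0) :
    ∃ φ : ETor W p ≃ₗ[ZMod p] V, ∀ (σ : GQ) (x : ETor W p), φ (σ • x) = ρ σ (φ x) := by
  have hp : p.Prime := Fact.out
  obtain ⟨ζ, hζ⟩ : ∃ ζ : Qb, IsPrimitiveRoot ζ p :=
    HasEnoughRootsOfUnity.exists_primitiveRoot Qb p
  obtain ⟨ω, hωlev, hωF, -, hωc⟩ := exists_cyclo_zeta p hζ
  obtain ⟨ρE, hρE, hlevE⟩ := exists_rhoE W hΔ hp2
  obtain ⟨-, hdim⟩ := finrank_ETor W hΔ hp2
  -- the Frobenius relations on the product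
  have hD' : D * 30 * p * W.Δ.natAbs ≠ 0 :=
    mul_ne_zero (mul_ne_zero (mul_ne_zero hD (by norm_num)) hp.ne_zero) (Int.natAbs_ne_zero.mpr hΔ)
  obtain ⟨t, ht⟩ := exists_trace_of_quadratic ω hωlev hωF (EQ_prod ρE ρ) (EQ_level ρE ρ hlevE hlev)
    (D * 30 * p * W.Δ.natAbs) hD' (Dvd.dvd.mul_right (Dvd.intro_left _ rfl) _)
    (fun ℓ => ((W.apOfModel ℓ : ℤ) : ZMod p)) (by
      intro ℓ hℓ hℓD 𝔄 h𝔄 σ hσ
      have h1 : ¬ ℓ ∣ D := fun h => hℓD
        (Dvd.dvd.mul_right (Dvd.dvd.mul_right (Dvd.dvd.mul_right h _) _) _)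
      have h30 : ¬ ℓ ∣ 30 := fun h => hℓD
        (Dvd.dvd.mul_right (Dvd.dvd.mul_right (Dvd.dvd.mul_left h _) _) _)
      have hℓp : ℓ ≠ p := by
        rintro rfl
        exact hℓD (Dvd.dvd.mul_right (Dvd.intro_left _ rfl) _)
      have hgood : W.IsGoodPrimeFor ℓ := by
        intro h
        exact hℓD (Dvd.dvd.mul_left (Int.natCast_dvd.mp h) _)
      have h5 : 5 ≤ ℓ := by
        by_contra hlt
        have h2 := hℓ.two_le
        have : ℓ = 2 ∨ ℓ = 3 ∨ ℓ = 4 := by omega
        rcases this with rfl | rfl | rfl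
        · exact h30 (by norm_num)
        · exact h30 (by norm_num)
        · norm_num at hℓ
      rw [EQ_quad_iff]
      refine ⟨?_, hquad ℓ hℓ h1 𝔄 h𝔄 σ hσ⟩
      apply LinearMap.ext
      intro x
      apply Subtype.ext
      have hx : p • x.1 = 0 := by
        have := x.2
        rwa [Submodule.mem_torsionBy_iff, natCast_zsmul] at this
      have hrel := frob_rel W hΔ hℓ h5 hp hp2 hℓp hgood 𝔄 σ h𝔄 hσ x.1 hx
      have e1 : (ρE σ * ρE σ - ((W.apOfModel ℓ : ℤ) : ZMod p) • ρE σ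
          + (ℓ : ZMod p) • (1 : Module.End (ZMod p) (ETor W p))) x =
          σ • σ • x - (W.apOfModel ℓ) • σ • x + (ℓ : ℤ) • x := by
        rw [LinearMap.add_apply, LinearMap.sub_apply, LinearMap.smul_apply, LinearMap.smul_apply,
          Module.End.mul_apply, Module.End.one_apply, hρE, hρE, Int.cast_smul_eq_zsmul,
          Nat.cast_smul_eq_nsmul, natCast_zsmul]
      rw [e1]
      exact hrel)
  have hq := fun g => (EQ_quad_iff ρE ρ g (t g) ((ω g : (ZMod p)ˣ) : ZMod p)).mp (ht g)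
  have h2 : (2 : ZMod p) ≠ 0 := by
    intro h
    have : ((2 : ℕ) : ZMod p) = 0 := by exact_mod_cast h
    rw [ZMod.natCast_eq_zero_iff] at this
    exact hp2 ((Nat.prime_dvd_prime_iff_eq hp Nat.prime_two).mp this)
  obtain ⟨φ, hφ⟩ := exists_equiv_of_quadratic h2 ρE ρ ω t (fun g => (hq g).1) (fun g => (hq g).2)
    (fun N hN => hirr.2 N (fun σ x hx => by
      rw [← hρE]
      exact hN σ x hx)) hV hdim complexConjugation complexConjugation_mul_self hωc
  exact ⟨φ, fun σ x => by rw [← hρE, hφ]⟩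

end Fermat.Agent.S40Lib
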