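import Fermat.Agent.S40.EDefs
import Fermat.Agent.S13.Ladder

/-!
# S40 block (E), (L1): the kernel of reduction is stable under multiples, and has no torsion of
order prime to the residue characteristic
-/

set_option autoImplicit false

namespace Fermat.Agent.S40Lib

open WeierstrassCurve WeierstrassCurve.Affine Polynomial
open Fermat.Agent.S05Lib Fermat.Agent.S13Lib Fermat.Agent.S36Lib

section Val

variable {K : Type} [Field K] (A : ValuationSubring K)

theorem L1_not_mem_iff {x : K} : x ∉ A ↔ 1 < A.valuation x := by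
  rw [← A.valuation_le_one_iff, not_le]

/-- `ν(f(x)) ≤ ν(x)^m` -/
theorem L1_val_eval_le {f : K[X]} (hf : ∀ i, f.coeff i ∈ A) {m : ℕ} (hm : f.natDegree ≤ m)
    {x : K} (hx : 1 ≤ A.valuation x) : A.valuation (f.eval x) ≤ A.valuation x ^ m := by
  rw [eval_eq_sum_range' (Nat.lt_succ_of_le hm)]
  refine Valuation.map_sum_le _ fun i hi => ?_
  rw [map_mul, map_pow]
  have h1 : A.valuation (f.coeff i) ≤ 1 := (A.valuation_le_one_iff _).mpr (hf i)
  have h2 : A.valuation x ^ i ≤ A.valuation x ^ m :=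
    pow_le_pow_right₀ hx (Nat.lt_succ_iff.mp (Finset.mem_range.mp hi))
  calc A.valuation (f.coeff i) * A.valuation x ^ i ≤ 1 * A.valuation x ^ m :=
        mul_le_mul' h1 h2
    _ = _ := one_mul _

/-- `ν(f(x)) = ν(x)^m` if the coefficient of degree `m` is a unit -/
theorem L1_val_eval_eq {f : K[X]} (hf : ∀ i, f.coeff i ∈ A) {m : ℕ} (hm : f.natDegree ≤ m)
    (hc : A.valuation (f.coeff m) = 1) {x : K} (hx : 1 < A.valuation x) :
    A.valuation (f.eval x) = A.valuation x ^ m := by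
  rw [eval_eq_sum_range' (Nat.lt_succ_of_le hm), Finset.sum_range_succ]
  have h0 : A.valuation x ^ m ≠ 0 := pow_ne_zero _ (ne_of_gt (lt_trans zero_lt_one hx))
  have h1 : A.valuation (f.coeff m * x ^ m) = A.valuation x ^ m := by
    rw [map_mul, map_pow, hc, one_mul]
  have h2 : A.valuation (∑ i ∈ Finset.range m, f.coeff i * x ^ i) < A.valuation x ^ m := by
    refine Valuation.map_sum_lt _ h0 fun i hi => ?_
    rw [map_mul, map_pow]
    have h3 : A.valuation (f.coeff i) ≤ 1 := (A.valuation_le_one_iff _).mpr (hf i)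
    have h4 : A.valuation x ^ i < A.valuation x ^ m :=
      pow_lt_pow_right₀ hx (Finset.mem_range.mp hi)
    calc A.valuation (f.coeff i) * A.valuation x ^ i ≤ 1 * A.valuation x ^ i :=
          mul_le_mul' h3 le_rfl
      _ = A.valuation x ^ i := one_mul _
      _ < _ := h4
  rw [← h1] at h2
  rw [Valuation.map_add_eq_of_lt_right _ h2, h1]

theorem L1_xz_coeff {a₂ a₄ : K} (ha₂ : a₂ ∈ A) (ha₄ : a₄ ∈ A) (n i : ℕ) :
    (Lad.xz (C a₂) (C a₄) (X : K[X]) n).1.coeff i ∈ A ∧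
      (Lad.xz (C a₂) (C a₄) (X : K[X]) n).2.coeff i ∈ A := by
  have h := Lad.xz_map (mapRingHom A.subtype) (C (⟨a₂, ha₂⟩ : A)) (C (⟨a₄, ha₄⟩ : A)) X n
  simp only [coe_mapRingHom, map_C, map_X] at h
  have h' : Lad.xz (C a₂) (C a₄) (X : K[X]) n = _ := h
  rw [h']
  simp only [coeff_map]
  exact ⟨Subtype.prop _, Subtype.prop _⟩

theorem L1_divD_coeff {a₂ a₄ : K} (ha₂ : a₂ ∈ A) (ha₄ : a₄ ∈ A) (k i : ℕ) :
    (divD a₂ a₄ k).coeff i ∈ A := by
  have h := divD_map A.subtype (⟨a₂, ha₂⟩ : A) (⟨a₄, ha₄⟩ : A) k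
  have h' : divD a₂ a₄ k = _ := h.symm
  rw [h', coeff_map]
  exact Subtype.prop _

end Val

section Loc

variable {K : Type} [Field K] (A : ValuationSubring K) {G : Type} [AddCommGroup G] {a₂ a₄ : K}
  (M : XYModel K G a₂ a₄) (ha₂ : a₂ ∈ A) (ha₄ : a₄ ∈ A)

/-! ### (L1) `S40/LocMult.lean` -/

include ha₂ ha₄ in
/-- the kernel of reduction is stable under multiples (ladder: `xz_rep`, `xz_LC`, `xz_map`) -/
theorem X_nsmul_not_mem (h2 : (2 : K) ≠ 0) (h4 : a₄ ≠ 0) (hd : a₂ ^ 2 - 4 * a₄ ≠ 0)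
    {P : G} {X Y : K} (hP : M.co P = some (X, Y)) (hX : X ∉ A) (n : ℕ) {X' Y' : K}
    (h : M.co (n • P) = some (X', Y')) : X' ∉ A := by
  have hn : 1 ≤ n := by
    rcases Nat.eq_zero_or_pos n with rfl | hn
    · rw [zero_smul, M.co_zero] at h
      exact absurd h (by simp)
    · exact hn
  have hν := (L1_not_mem_iff A).mp hX
  obtain ⟨hD0, hND⟩ := (Lad.xz_rep M h2 h4 hd hP n).of_co h
  have hmap := Lad.xz_map (evalRingHom X) (C a₂) (C a₄) Polynomial.X n
  simp only [coe_evalRingHom, eval_C, eval_X] at hmap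
  rw [hmap] at hD0 hND
  simp only at hD0 hND
  obtain ⟨hN, hDD⟩ := Lad.xz_LC a₂ a₄ n hn
  have h1 := L1_val_eval_eq A (fun i => (L1_xz_coeff A ha₂ ha₄ n i).1) hN.1
    (by rw [hN.2, map_one]) hν
  have h3 := L1_val_eval_le A (fun i => (L1_xz_coeff A ha₂ ha₄ n i).2) hDD.1 hν.le
  rw [L1_not_mem_iff]
  by_contra hcon
  rw [not_lt] at hcon
  rw [hND, map_mul] at h1
  have h5 : A.valuation X ^ (n ^ 2) ≤ A.valuation X ^ (n ^ 2 - 1) := by
    rw [← h1]
    calc _ ≤ 1 * A.valuation X ^ (n ^ 2 - 1) := mul_le_mul' hcon h3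
      _ = _ := one_mul _
  have h6 : A.valuation X ^ (n ^ 2 - 1) < A.valuation X ^ (n ^ 2) :=
    pow_lt_pow_right₀ hν (Nat.sub_lt (by positivity) one_pos)
  exact absurd h5 (not_le.mpr h6)

include ha₂ ha₄ in
/-- (INJ) no torsion of order prime to the residue characteristic in the kernel of reduction -/
theorem X_mem_of_torsion (h2 : (2 : K) ≠ 0) (h4 : a₄ ≠ 0) (hd : a₂ ^ 2 - 4 * a₄ ≠ 0)
    {P : G} {X Y : K} (hP : M.co P = some (X, Y)) (k : ℕ) (hk : ((2 * k + 1 : ℕ) : K)⁻¹ ∈ A)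
    (hk0 : ((2 * k + 1 : ℕ) : K) ≠ 0) (hPk : (2 * k + 1) • P = 0) : X ∈ A := by
  by_contra hX
  have hν := (L1_not_mem_iff A).mp hX
  have h0 := (nsmul_eq_zero_iff M h2 h4 hd hP k).mp hPk
  have hc : A.valuation ((divD a₂ a₄ k).coeff (2 * k ^ 2 + 2 * k)) = 1 := by
    rw [divD_coeff, Valuation.map_neg]
    have e : (2 * (k : K) + 1) = ((2 * k + 1 : ℕ) : K) := by push_cast; ring
    rw [e]
    apply le_antisymm
    · exact (A.valuation_le_one_iff _).mpr (natCast_mem A _)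
    · have h3 := (A.valuation_le_one_iff _).mpr hk
      rw [map_inv₀] at h3
      exact (inv_le_one₀ (zero_lt_iff.mpr ((Valuation.ne_zero_iff _).mpr hk0))).mp h3
  have h1 := L1_val_eval_eq A (L1_divD_coeff A ha₂ ha₄ k) (divD_natDegree_le a₂ a₄ k) hc hν
  rw [h0, map_zero] at h1
  exact pow_ne_zero _ (ne_of_gt (lt_trans zero_lt_one hν)) h1.symm

end Loc

end Fermat.Agent.S40Lib
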