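import Fermat.Agent.S40.EDefs
import Fermat.Agent.S05.FreyModel

/-!
# S40 block (E), leaf (MOD): the model `Y² = X³ + a₂X² + a₄X` of a general Weierstrass curve
-/

set_option autoImplicit false

namespace Fermat.Agent.S40Lib

open WeierstrassCurve WeierstrassCurve.Affine Polynomial
open Fermat.Agent.S05Lib Fermat.Agent.S36Lib

local notation "Qb" => AlgebraicClosure ℚ
local notation "GQ" => (AlgebraicClosure ℚ ≃ₐ[ℚ] AlgebraicClosure ℚ)

section Model

variable {L : Type} [Field L] [DecidableEq L]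

omit [DecidableEq L] in
private lemma MOD_eqn (W : Affine L) (r : L)
    (hr : r ^ 3 + W.b₂ * r ^ 2 + 8 * W.b₄ * r + 16 * W.b₆ = 0) {x y : L}
    (e : y ^ 2 + W.a₁ * x * y + W.a₃ * y = x ^ 3 + W.a₂ * x ^ 2 + W.a₄ * x + W.a₆) :
    (8 * y + 4 * W.a₁ * x + 4 * W.a₃) ^ 2 = (4 * x - r) ^ 3 + (3 * r + W.b₂) * (4 * x - r) ^ 2
      + (3 * r ^ 2 + 2 * W.b₂ * r + 8 * W.b₄) * (4 * x - r) := by
  simp only [WeierstrassCurve.b₂, WeierstrassCurve.b₄, WeierstrassCurve.b₆] at hr ⊢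
  linear_combination 64 * e + hr

def genModel (W : Affine L) (h2 : (2 : L) ≠ 0) (r : L)
    (hr : r ^ 3 + W.b₂ * r ^ 2 + 8 * W.b₄ * r + 16 * W.b₆ = 0) :
    XYModel L W.Point (3 * r + W.b₂) (3 * r ^ 2 + 2 * W.b₂ * r + 8 * W.b₄) where
  co := genCo W r
  co_zero := rfl
  co_inj := by
    have h4 : (4 : L) ≠ 0 := by
      have : (4 : L) = 2 * 2 := by norm_num
      rw [this]; exact mul_ne_zero h2 h2
    have h8 : (8 : L) ≠ 0 := by
      have : (8 : L) = 2 * 4 := by norm_num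
      rw [this]; exact mul_ne_zero h2 h4
    rintro (_ | ⟨x₁, y₁, n₁⟩) (_ | ⟨x₂, y₂, n₂⟩) h
    · rfl
    · simp [genCo] at h
    · simp [genCo] at h
    · simp only [genCo, Option.some.injEq, Prod.mk.injEq] at h
      obtain ⟨hx, hy⟩ := h
      have hx' : x₁ = x₂ := by
        have : 4 * x₁ = 4 * x₂ := by linear_combination hx
        exact mul_left_cancel₀ h4 this
      subst hx'
      have hy' : y₁ = y₂ := by
        have : 8 * y₁ = 8 * y₂ := by linear_combination hy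
        exact mul_left_cancel₀ h8 this
      subst hy'
      rfl
  eqn := by
    rintro (_ | ⟨x, y, n⟩) X Y h
    · simp [genCo] at h
    · simp only [genCo, Option.some.injEq, Prod.mk.injEq] at h
      obtain ⟨rfl, rfl⟩ := h
      exact MOD_eqn W r hr ((W.equation_iff x y).mp n.1)
  co_neg := by
    rintro (_ | ⟨x, y, n⟩) X Y h
    · simp [genCo] at h
    · simp only [genCo, Option.some.injEq, Prod.mk.injEq] at h
      obtain ⟨rfl, rfl⟩ := h
      rw [Point.neg_some]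
      simp only [genCo, negY, Option.some.injEq, Prod.mk.injEq, true_and]
      ring
  co_add := by
    have h4 : (4 : L) ≠ 0 := by
      have : (4 : L) = 2 * 2 := by norm_num
      rw [this]; exact mul_ne_zero h2 h2
    rintro (_ | ⟨x₁, y₁, n₁⟩) (_ | ⟨x₂, y₂, n₂⟩) X₁ Y₁ X₂ Y₂ hP hQ hX
    · simp [genCo] at hP
    · simp [genCo] at hP
    · simp [genCo] at hQ
    · simp only [genCo, Option.some.injEq, Prod.mk.injEq] at hP hQ
      obtain ⟨rfl, rfl⟩ := hP
      obtain ⟨rfl, rfl⟩ := hQ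
      have hx : x₁ ≠ x₂ := fun h => hX (by rw [h])
      have hd : x₁ - x₂ ≠ 0 := sub_ne_zero.mpr hx
      rw [Point.add_of_X_ne hx]
      refine ⟨8 * W.addY x₁ x₂ y₁ (W.slope x₁ x₂ y₁ y₂)
        + 4 * W.a₁ * W.addX x₁ x₂ (W.slope x₁ x₂ y₁ y₂) + 4 * W.a₃, ?_⟩
      simp only [genCo, Option.some.injEq, Prod.mk.injEq, and_true]
      rw [slope_of_X_ne hx, addX]
      have hd' : 4 * x₁ - r - (4 * x₂ - r) ≠ 0 := by
        have : 4 * x₁ - r - (4 * x₂ - r) = 4 * (x₁ - x₂) := by ring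
        rw [this]; exact mul_ne_zero h4 hd
      simp only [WeierstrassCurve.b₂]
      field_simp
      ring
  co_dbl := by
    have h4 : (4 : L) ≠ 0 := by
      have : (4 : L) = 2 * 2 := by norm_num
      rw [this]; exact mul_ne_zero h2 h2
    rintro (_ | ⟨x, y, n⟩) X Y hP hY
    · simp [genCo] at hP
    · simp only [genCo, Option.some.injEq, Prod.mk.injEq] at hP
      obtain ⟨rfl, rfl⟩ := hP
      have hy : y ≠ W.negY x y := by
        intro h
        apply hY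
        rw [negY] at h
        linear_combination 4 * h
      have hy' : y - W.negY x y ≠ 0 := sub_ne_zero.mpr hy
      rw [Point.add_self_of_Y_ne hy]
      refine ⟨8 * W.addY x x y (W.slope x x y y) + 4 * W.a₁ * W.addX x x (W.slope x x y y)
        + 4 * W.a₃, ?_⟩
      simp only [genCo, Option.some.injEq, Prod.mk.injEq, and_true]
      have e' := MOD_eqn W r hr ((W.equation_iff x y).mp n.1)
      rw [slope_of_Y_ne rfl hy, addX]
      rw [negY] at hy' ⊢
      have hy'' : y - (-y - W.a₁ * x - W.a₃) = 2 * y + W.a₁ * x + W.a₃ := by ring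
      rw [hy''] at hy' ⊢
      have hY' : 8 * y + 4 * W.a₁ * x + 4 * W.a₃ = 4 * (2 * y + W.a₁ * x + W.a₃) := by ring
      rw [hY'] at e' ⊢
      set ℓ := (3 * x ^ 2 + 2 * W.a₂ * x + W.a₄ - W.a₁ * y) / (2 * y + W.a₁ * x + W.a₃) with hℓ
      set X := 4 * x - r with hXdef
      set Z := 4 * (2 * y + W.a₁ * x + W.a₃) with hZdef
      have hZ0 : Z ≠ 0 := mul_ne_zero h4 hy'
      have s1 : 2 * ℓ + W.a₁
          = (3 * X ^ 2 + 2 * (3 * r + W.b₂) * X + (3 * r ^ 2 + 2 * W.b₂ * r + 8 * W.b₄))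
            / (2 * Z) := by
        have hN : ℓ * (2 * y + W.a₁ * x + W.a₃) = 3 * x ^ 2 + 2 * W.a₂ * x + W.a₄ - W.a₁ * y :=
          div_mul_cancel₀ _ hy'
        rw [eq_div_iff (mul_ne_zero h2 hZ0), hZdef, hXdef]
        simp only [WeierstrassCurve.b₂, WeierstrassCurve.b₄]
        linear_combination 16 * hN
      have s2 : 4 * (ℓ ^ 2 + W.a₁ * ℓ - W.a₂ - x - x) - r
          = (2 * ℓ + W.a₁) ^ 2 - (3 * r + W.b₂) - 2 * X := by
        rw [hXdef]
        simp only [WeierstrassCurve.b₂]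
        ring
      rw [s2, s1]
      exact dbl_identity X Z _ _ hZ0 h2 e'

omit [DecidableEq L] in
theorem genModel_disc (W : Affine L) (r : L)
    (hr : r ^ 3 + W.b₂ * r ^ 2 + 8 * W.b₄ * r + 16 * W.b₆ = 0) :
    (3 * r ^ 2 + 2 * W.b₂ * r + 8 * W.b₄) ^ 2 *
      ((3 * r + W.b₂) ^ 2 - 4 * (3 * r ^ 2 + 2 * W.b₂ * r + 8 * W.b₄)) = 256 * W.Δ := by
  have h8 := W.b_relation
  rw [WeierstrassCurve.Δ]
  linear_combination (-27 * r ^ 3 - 27 * r ^ 2 * W.b₂ - 216 * r * W.b₄ + 4 * W.b₂ ^ 3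
    - 144 * W.b₂ * W.b₄ + 432 * W.b₆) * hr + 64 * W.b₂ ^ 2 * h8

omit [DecidableEq L] in
theorem genCo_surj (W : Affine L) (h2 : (2 : L) ≠ 0) (hΔ : W.Δ ≠ 0) (r : L)
    (hr : r ^ 3 + W.b₂ * r ^ 2 + 8 * W.b₄ * r + 16 * W.b₆ = 0) (X Y : L)
    (h : Y ^ 2 = X ^ 3 + (3 * r + W.b₂) * X ^ 2 + (3 * r ^ 2 + 2 * W.b₂ * r + 8 * W.b₄) * X) :
    ∃ P : W.Point, genCo W r P = some (X, Y) := by
  have h4 : (4 : L) ≠ 0 := by
    have : (4 : L) = 2 * 2 := by norm_num
    rw [this]; exact mul_ne_zero h2 h2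
  have h8 : (8 : L) ≠ 0 := by
    have : (8 : L) = 2 * 4 := by norm_num
    rw [this]; exact mul_ne_zero h2 h4
  set x : L := (X + r) / 4 with hx
  set y : L := (Y - 4 * W.a₁ * x - 4 * W.a₃) / 8 with hy
  have hX : 4 * x - r = X := by rw [hx]; field_simp; ring
  have hY : 8 * y + 4 * W.a₁ * x + 4 * W.a₃ = Y := by rw [hy]; field_simp; ring
  have e : W.Equation x y := by
    rw [W.equation_iff]
    have h64 : (64 : L) ≠ 0 := by
      have : (64 : L) = 8 * 8 := by norm_num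
      rw [this]; exact mul_ne_zero h8 h8
    apply mul_left_cancel₀ h64
    rw [← hX, ← hY] at h
    simp only [WeierstrassCurve.b₂, WeierstrassCurve.b₄, WeierstrassCurve.b₆] at hr h
    linear_combination h - hr
  refine ⟨.some x y ((W.equation_iff_nonsingular_of_Δ_ne_zero hΔ).mp e), ?_⟩
  simp only [genCo, hX, hY]

end Model

/-- Galois action in the coordinates `genCo` -/
theorem genCo_smul (W : WeierstrassCurve ℤ) (r : Qb) (σ : GQ) (hσ : σ r = r) (P : EPt W) :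
    genCo _ r (σ • P) = (genCo _ r P).map (fun c => (σ c.1, σ c.2)) := by
  rw [Point.algEquiv_smul_def]
  rcases P with _ | ⟨x, y, n⟩
  · rfl
  · rw [Point.map_some]
    simp only [genCo, Option.map_some, Option.some.injEq, Prod.mk.injEq]
    have h4 : σ 4 = 4 := map_ofNat σ 4
    have h8 : σ 8 = 8 := map_ofNat σ 8
    have ha₁ : σ ((W.map (Int.castRingHom ℚ))⁄Qb).a₁ = ((W.map (Int.castRingHom ℚ))⁄Qb).a₁ := by
      simp [WeierstrassCurve.baseChange]
    have ha₃ : σ ((W.map (Int.castRingHom ℚ))⁄Qb).a₃ = ((W.map (Int.castRingHom ℚ))⁄Qb).a₃ := by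
      simp [WeierstrassCurve.baseChange]
    constructor
    · simp [hσ, h4]
    · simp only [map_add, map_mul, h4, h8, ha₁, ha₃]
      rfl

end Fermat.Agent.S40Lib
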