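import Fermat.Agent.S40.EDefs
import Fermat.Agent.S40.Model
import Fermat.Agent.S40.LocMult
import Fermat.Agent.S52.Final

/-!
# S40 (FS): Frobenius relation on the `p`-torsion of the short model
-/

set_option autoImplicit false

namespace Fermat.Agent.S40Lib

open WeierstrassCurve WeierstrassCurve.Affine Polynomial
open Fermat.Agent.S05Lib Fermat.Agent.S13Lib Fermat.Agent.S36Lib Fermat.Agent.S52Lib

local notation "Qb" => AlgebraicClosure ℚ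
local notation "GQ" => (AlgebraicClosure ℚ ≃ₐ[ℚ] AlgebraicClosure ℚ)

/-- abstract chain argument, one reduction step -/
theorem FS_chain {G₁ G₂ : Type*} [AddCommGroup G₁] [AddCommGroup G₂]
    (r : G₁ →+ G₂) (S₁ : G₁ →+ G₁) (S₂ : G₂ →+ G₂) (c : ∀ x, r (S₁ x) = S₂ (r x))
    (k : ℕ) (inj : ∀ x, x ≠ 0 → (2 * k + 1) • x = 0 → r x ≠ 0) (a l : ℤ)
    (rel : ∀ Q : G₂, Q ≠ 0 → (2 * k + 1) • Q = 0 →
      (2 : ℕ) • (S₂ (S₂ Q) - a • S₂ Q + l • Q) = 0)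
    (u : G₁) (hu : (2 * k + 1) • u = 0) : S₁ (S₁ u) - a • S₁ u + l • u = 0 := by
  by_cases hu0 : u = 0
  · subst hu0; simp
  set w := S₁ (S₁ u) - a • S₁ u + l • u with hw
  have hpw : (2 * k + 1) • w = 0 := by
    rw [hw, smul_add, smul_sub, ← map_nsmul, ← map_nsmul, hu, smul_comm, ← map_nsmul, hu,
      smul_comm, hu]
    simp
  have hQ0 : r u ≠ 0 := inj u hu0 hu
  have hQp : (2 * k + 1) • r u = 0 := by rw [← map_nsmul, hu, map_zero]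
  have hrel := rel _ hQ0 hQp
  have himg : r w = S₂ (S₂ (r u)) - a • S₂ (r u) + l • r u := by
    rw [hw]
    simp only [map_add, map_sub, map_zsmul, c]
  have h2w : (2 : ℕ) • w = 0 := by
    by_contra hne
    have h5 : (2 * k + 1) • ((2 : ℕ) • w) = 0 := by rw [smul_comm, hpw, smul_zero]
    apply inj _ hne h5
    rw [map_nsmul, himg, hrel]
  have : w = (2 * k + 1) • w - k • ((2 : ℕ) • w) := by
    rw [smul_smul, add_smul, one_smul, mul_comm]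
    abel
  rw [this, hpw, h2w]; simp

theorem FS_frob_relation {ℓ : ℕ} [Fact ℓ.Prime] {F : Type*} [Field F] [CharP F ℓ] [DecidableEq F]
    (h5 : 5 ≤ ℓ) (h2 : (2 : F) ≠ 0) (a b : ℤ)
    (hd : ((4 * a ^ 3 + 27 * b ^ 2 : ℤ) : F) ≠ 0) (A B : F) (hA : A = a) (hB : B = b)
    (hfA : frobenius F ℓ A = A) (hfB : frobenius F ℓ B = B) (k : ℕ) (Q : Pt A B) (hQ0 : Q ≠ 0)
    (hQ5 : (2 * k + 1) • Q = 0) :
    (2 : ℕ) • (mapPt h2 (frobenius F ℓ) hfA hfB (mapPt h2 (frobenius F ℓ) hfA hfB Q)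
      - ((ℓ : ℤ) + 1 - (Nat.card (Pt ((a : ℤ) : ZMod ℓ) ((b : ℤ) : ZMod ℓ)) : ℤ)) •
        mapPt h2 (frobenius F ℓ) hfA hfB Q + (ℓ : ℤ) • Q) = 0 := by
  subst hA hB
  rcases hc : co Q with _ | ⟨x, y⟩
  · exact absurd (co_eq_none.mp hc) hQ0
  have hy : y ≠ 0 := by
    rintro rfl
    have h2Q := dbl_eq_zero h2 hc
    apply hQ0
    have : Q = (2 * k + 1) • Q - k • (Q + Q) := by
      rw [add_smul, one_smul, smul_add, ← add_smul, ← two_mul]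
      abel
    rw [this, hQ5, h2Q]; simp
  exact frob_relation h5 h2 a b hd Q hc hy

/-- integers prime to the residue characteristic are units -/
theorem FS_inv_mem (𝔄 : ValuationSubring Qb) {ℓ : ℕ} (hℓ : ℓ.Prime) (h𝔄 : 𝔄.LiesOverPrime ℓ)
    (n : ℕ) (hn : ¬ ℓ ∣ n) : ((n : ℕ) : Qb)⁻¹ ∈ 𝔄 := by
  by_contra hcon
  have hnn : ((n : ℕ) : Qb) ∈ 𝔄.nonunits := by
    rw [ValuationSubring.mem_nonunits_iff]
    have h1 : ¬ 𝔄.valuation ((n : ℕ) : Qb)⁻¹ ≤ 1 := fun h => hcon ((𝔄.valuation_le_one_iff _).mp h)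
    rw [not_le, map_inv₀] at h1
    by_contra h2
    rw [not_lt] at h2
    exact absurd (inv_le_one_of_one_le₀ h2) (not_le.mpr h1)
  have hcop : IsCoprime (n : ℤ) (ℓ : ℤ) := by
    rw [Nat.isCoprime_iff_coprime]
    exact ((Nat.Prime.coprime_iff_not_dvd hℓ).mpr hn).symm
  obtain ⟨x, y, hxy⟩ := hcop
  have h1 : (1 : Qb) = (x : Qb) * (n : Qb) + (y : Qb) * (ℓ : Qb) := by
    have := congrArg (fun z : ℤ => (z : Qb)) hxy
    push_cast at this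
    exact this.symm
  have hv1 : 𝔄.valuation ((x : Qb) * (n : Qb)) < 1 := by
    rw [map_mul]
    exact mul_lt_one_of_nonneg_of_lt_one_right
      ((𝔄.valuation_le_one_iff _).mpr (intCast_mem 𝔄 x)) zero_le
      ((𝔄.mem_nonunits_iff).mp hnn)
  have hv2 : 𝔄.valuation ((y : Qb) * (ℓ : Qb)) < 1 := by
    rw [map_mul]
    exact mul_lt_one_of_nonneg_of_lt_one_right
      ((𝔄.valuation_le_one_iff _).mpr (intCast_mem 𝔄 y)) zero_le
      ((𝔄.mem_nonunits_iff).mp h𝔄)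
  have := 𝔄.valuation.map_add_lt hv1 hv2
  rw [← h1, map_one] at this
  exact lt_irrefl _ this

/-- roots of monic integral cubics are integral -/
theorem FS_root_mem (𝔄 : ValuationSubring Qb) (r : Qb) (c₁ c₀ : ℤ)
    (hr : r ^ 3 + (c₁ : Qb) * r + (c₀ : Qb) = 0) : r ∈ 𝔄 := by
  have hint : IsIntegral 𝔄 r := by
    refine ⟨X ^ 3 + C ((c₁ : ℤ) : 𝔄) * X + C ((c₀ : ℤ) : 𝔄), by monicity!, ?_⟩
    rw [eval₂_add, eval₂_add, eval₂_mul, eval₂_pow, eval₂_X, eval₂_C, eval₂_C, map_intCast,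
      map_intCast]
    exact hr
  obtain ⟨z, hz⟩ := IsIntegrallyClosed.algebraMap_eq_of_integral hint
  rw [← hz]
  exact z.2

/-- torsion points of order prime to `ℓ` are integral -/
theorem FS_x_mem (a b : ℤ) {ℓ : ℕ} (hℓ : ℓ.Prime) (h5 : 5 ≤ ℓ)
    (hdisc : 4 * a ^ 3 + 27 * b ^ 2 ≠ 0) (𝔄 : ValuationSubring Qb) (h𝔄 : 𝔄.LiesOverPrime ℓ)
    (k : ℕ) (hk : ¬ ℓ ∣ 2 * k + 1) (P : Pt (a : Qb) (b : Qb)) {x y : Qb}
    (hc : co P = some (x, y)) (hP : (2 * k + 1) • P = 0) : x ∈ 𝔄 := by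
  have h2 : (2 : Qb) ≠ 0 := by norm_num
  obtain ⟨r, hr⟩ := IsAlgClosed.exists_root
    (X ^ 3 + C ((16 * a : ℤ) : Qb) * X + C ((64 * b : ℤ) : Qb) : Qb[X]) (by
      have : (X ^ 3 + C ((16 * a : ℤ) : Qb) * X + C ((64 * b : ℤ) : Qb) : Qb[X]).degree = 3 := by
        compute_degree!
      rw [this]
      norm_num)
  have hr1 : r ^ 3 + ((16 * a : ℤ) : Qb) * r + ((64 * b : ℤ) : Qb) = 0 := by
    simpa [IsRoot.def] using hr
  have hrA : r ∈ 𝔄 := FS_root_mem 𝔄 r _ _ hr1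
  have hb2 : (SW (a : Qb) (b : Qb)).toAffine.b₂ = 0 := by simp [SW, WeierstrassCurve.b₂]
  have hb4 : (SW (a : Qb) (b : Qb)).toAffine.b₄ = 2 * (a : Qb) := by
    simp [SW, WeierstrassCurve.b₄]
  have hb6 : (SW (a : Qb) (b : Qb)).toAffine.b₆ = 4 * (b : Qb) := by
    simp [SW, WeierstrassCurve.b₆]
  have hr' : r ^ 3 + (SW (a : Qb) (b : Qb)).toAffine.b₂ * r ^ 2
      + 8 * (SW (a : Qb) (b : Qb)).toAffine.b₄ * r
      + 16 * (SW (a : Qb) (b : Qb)).toAffine.b₆ = 0 := by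
    rw [hb2, hb4, hb6]
    push_cast at hr1
    linear_combination hr1
  have hΔ : (SW (a : Qb) (b : Qb)).toAffine.Δ ≠ 0 := by
    have : (SW (a : Qb) (b : Qb)).toAffine.Δ = ((-16 * (4 * a ^ 3 + 27 * b ^ 2) : ℤ) : Qb) := by
      simp [SW, WeierstrassCurve.Δ, WeierstrassCurve.b₂, WeierstrassCurve.b₄,
        WeierstrassCurve.b₆, WeierstrassCurve.b₈]
      ring
    rw [this]
    exact_mod_cast mul_ne_zero (by norm_num) hdisc
  have hdd := genModel_disc (SW (a : Qb) (b : Qb)).toAffine r hr'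
  have hne : (3 * r ^ 2 + 2 * (SW (a : Qb) (b : Qb)).toAffine.b₂ * r
      + 8 * (SW (a : Qb) (b : Qb)).toAffine.b₄) ^ 2 *
      ((3 * r + (SW (a : Qb) (b : Qb)).toAffine.b₂) ^ 2
        - 4 * (3 * r ^ 2 + 2 * (SW (a : Qb) (b : Qb)).toAffine.b₂ * r
          + 8 * (SW (a : Qb) (b : Qb)).toAffine.b₄)) ≠ 0 := by
    rw [hdd]
    exact mul_ne_zero (by norm_num) hΔ
  have h4 := left_ne_zero_of_mul hne
  have hd := right_ne_zero_of_mul hne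
  have h4' := pow_ne_zero_iff (two_ne_zero) |>.mp h4
  obtain ⟨hn, rfl⟩ := SW_exists_some hc
  have hco : (genModel (SW (a : Qb) (b : Qb)).toAffine h2 r hr').co
      (Affine.Point.some x y hn) =
      some (4 * x - r, 8 * y + 4 * (SW (a : Qb) (b : Qb)).toAffine.a₁ * x
        + 4 * (SW (a : Qb) (b : Qb)).toAffine.a₃) := rfl
  have hmem2 : 3 * r + (SW (a : Qb) (b : Qb)).toAffine.b₂ ∈ 𝔄 := by
    rw [hb2, add_zero]
    exact 𝔄.mul_mem _ _ (by exact_mod_cast natCast_mem 𝔄 3) hrA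
  have hmem4 : 3 * r ^ 2 + 2 * (SW (a : Qb) (b : Qb)).toAffine.b₂ * r
      + 8 * (SW (a : Qb) (b : Qb)).toAffine.b₄ ∈ 𝔄 := by
    rw [hb2, hb4]
    refine 𝔄.add_mem _ _ (𝔄.add_mem _ _ (𝔄.mul_mem _ _ (by exact_mod_cast natCast_mem 𝔄 3)
      (pow_mem hrA 2)) (by simp [𝔄.zero_mem])) ?_
    have : (8 * (2 * (a : Qb))) = ((16 * a : ℤ) : Qb) := by push_cast; ring
    rw [this]
    exact intCast_mem 𝔄 _
  have hX := X_mem_of_torsion 𝔄 (genModel (SW (a : Qb) (b : Qb)).toAffine h2 r hr') hmem2 hmem4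
    h2 h4' hd hco k (FS_inv_mem 𝔄 hℓ h𝔄 _ hk) (by exact_mod_cast Nat.succ_ne_zero (2 * k)) hP
  have h4inv : ((4 : ℕ) : Qb)⁻¹ ∈ 𝔄 := FS_inv_mem 𝔄 hℓ h𝔄 4 (by
    intro h
    have := Nat.le_of_dvd (by norm_num) h
    omega)
  have : x = ((4 : ℕ) : Qb)⁻¹ * ((4 * x - r) + r) := by
    push_cast
    field_simp
    ring
  rw [this]
  exact 𝔄.mul_mem _ _ h4inv (𝔄.add_mem _ _ hX hrA)

theorem frob_rel_short (a b : ℤ) {ℓ p : ℕ} (hℓ : ℓ.Prime) (h5 : 5 ≤ ℓ) (hp : p.Prime)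
    (hp2 : p ≠ 2) (hℓp : ℓ ≠ p) (hgood : ¬ (ℓ : ℤ) ∣ 4 * a ^ 3 + 27 * b ^ 2)
    (𝔄 : ValuationSubring Qb) (σ : GQ) (h𝔄 : 𝔄.LiesOverPrime ℓ) (hσ : 𝔄.IsFrobeniusAt σ ℓ)
    (h2 : (2 : Qb) ≠ 0) (hA : (σ : Qb →+* Qb) (a : Qb) = a) (hB : (σ : Qb →+* Qb) (b : Qb) = b)
    (u : Pt (a : Qb) (b : Qb)) (hu : p • u = 0) :
    mapPt h2 (σ : Qb →+* Qb) hA hB (mapPt h2 (σ : Qb →+* Qb) hA hB u)
      - ((ℓ : ℤ) + 1 - (Nat.card (Pt ((a : ℤ) : ZMod ℓ) ((b : ℤ) : ZMod ℓ)) : ℤ)) •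
        mapPt h2 (σ : Qb →+* Qb) hA hB u + (ℓ : ℤ) • u = 0 := by
  classical
  have : Fact ℓ.Prime := ⟨hℓ⟩
  obtain ⟨k, rfl⟩ : ∃ k, p = 2 * k + 1 := hp.odd_of_ne_two hp2
  have hkℓ : ¬ ℓ ∣ 2 * k + 1 := fun h => hℓp ((Nat.prime_dvd_prime_iff_eq hℓ hp).mp h)
  obtain ⟨hO𝔄, hπ𝔄⟩ := frob_facts 𝔄 σ hσ
  have hℓκ : ((ℓ : ℕ) : (IsLocalRing.ResidueField 𝔄)) = 0 := by
    have h1 : ((ℓ : ℕ) : 𝔄) ∈ IsLocalRing.maximalIdeal 𝔄 := by
      rw [IsLocalRing.mem_maximalIdeal, mem_nonunits_iff]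
      intro hunit
      have := (ValuationSubring.mem_nonunits_iff_exists_mem_maximalIdeal).mp h𝔄
      obtain ⟨ha, hm⟩ := this
      rw [IsLocalRing.mem_maximalIdeal, mem_nonunits_iff] at hm
      apply hm
      have e : (⟨((ℓ : ℕ) : Qb), ha⟩ : 𝔄) = ((ℓ : ℕ) : 𝔄) := Subtype.ext (by simp)
      rw [e]; exact hunit
    have := (IsLocalRing.residue_eq_zero_iff _).mpr h1
    rwa [map_natCast] at this
  have : CharP (IsLocalRing.ResidueField 𝔄) ℓ := (CharP.charP_iff_prime_eq_zero hℓ).mpr hℓκ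
  have hκint : ∀ n : ℤ, ¬ (ℓ : ℤ) ∣ n → ((n : ℤ) : (IsLocalRing.ResidueField 𝔄)) ≠ 0 := by
    intro n hn h
    exact hn ((CharP.intCast_eq_zero_iff (IsLocalRing.ResidueField 𝔄) ℓ n).mp h)
  have h2κ : (2 : (IsLocalRing.ResidueField 𝔄)) ≠ 0 := by
    have := hκint 2 (by
      intro h
      have := Int.le_of_dvd (by norm_num) h
      omega)
    simpa using this
  have hdisc0 : 4 * a ^ 3 + 27 * b ^ 2 ≠ 0 := by
    intro h
    apply hgood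
    rw [h]
    exact dvd_zero _
  let A₂ : 𝔄 := ⟨(a : Qb), intCast_mem 𝔄 a⟩
  let B₂ : 𝔄 := ⟨(b : Qb), intCast_mem 𝔄 b⟩
  have hA₂ : A₂ = ((a : ℤ) : 𝔄) := Subtype.ext (by simp [A₂])
  have hB₂ : B₂ = ((b : ℤ) : 𝔄) := Subtype.ext (by simp [B₂])
  have hrA : IsLocalRing.residue 𝔄 A₂ = ((a : ℤ) : (IsLocalRing.ResidueField 𝔄)) := by
    rw [hA₂, map_intCast]
  have hrB : IsLocalRing.residue 𝔄 B₂ = ((b : ℤ) : (IsLocalRing.ResidueField 𝔄)) := by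
    rw [hB₂, map_intCast]
  have hd₂ : IsLocalRing.residue 𝔄 (4 * A₂ ^ 3 + 27 * B₂ ^ 2) ≠ 0 := by
    rw [map_add, map_mul, map_mul, map_pow, map_pow, hrA, hrB, map_ofNat, map_ofNat]
    have : (4 * ((a : ℤ) : (IsLocalRing.ResidueField 𝔄)) ^ 3
        + 27 * ((b : ℤ) : (IsLocalRing.ResidueField 𝔄)) ^ 2)
        = ((4 * a ^ 3 + 27 * b ^ 2 : ℤ) : (IsLocalRing.ResidueField 𝔄)) := by
      push_cast; rfl
    rw [this]
    exact hκint _ hgood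
  have hfA : frobenius (IsLocalRing.ResidueField 𝔄) ℓ (IsLocalRing.residue 𝔄 A₂)
      = IsLocalRing.residue 𝔄 A₂ := by
    rw [hrA]; simp
  have hfB : frobenius (IsLocalRing.ResidueField 𝔄) ℓ (IsLocalRing.residue 𝔄 B₂)
      = IsLocalRing.residue 𝔄 B₂ := by
    rw [hrB]; simp
  refine FS_chain
    (red 𝔄 (IsLocalRing.residue 𝔄) h2κ A₂ B₂ hd₂)
    (mapPt h2 (σ : Qb →+* Qb) hA hB)
    (mapPt h2κ (frobenius (IsLocalRing.ResidueField 𝔄) ℓ) hfA hfB)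
    ?_ k ?_ _ _ ?_ u hu
  · intro x
    exact red_mapPt 𝔄 (IsLocalRing.residue 𝔄) h2κ A₂ B₂ hd₂ h2 (σ : Qb →+* Qb)
      (frobenius (IsLocalRing.ResidueField 𝔄) ℓ) hO𝔄 (fun g h => hπ𝔄 g h) hA hB hfA hfB x
  · intro x hx hpx hred
    rcases hc : co x with _ | ⟨X, Y⟩
    · exact hx (co_eq_none.mp hc)
    have hXmem : X ∈ 𝔄 := FS_x_mem a b hℓ h5 hdisc0 𝔄 h𝔄 k hkℓ x hc hpx
    obtain ⟨hy, h⟩ := co_red_of_mem 𝔄 (IsLocalRing.residue 𝔄) h2κ A₂ B₂ hd₂ hc hXmem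
    rw [hred, co_zero] at h
    simp at h
  · intro Q hQ0 hQ5
    exact FS_frob_relation h5 h2κ a b (hκint _ hgood) _ _ hrA hrB hfA hfB k Q hQ0 hQ5

end Fermat.Agent.S40Lib
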