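import Fermat.Agent.S33.MKeyP
import Fermat.Agent.S33.MGapExcl
import Fermat.Agent.S33.GTame

/-!
# S40 library, block (GAPW), leaf (GW8a): Artin-Schreier roots have no more poles
-/

set_option autoImplicit false
set_option synthInstance.maxHeartbeats 400000
set_option linter.unusedSectionVars false
set_option maxHeartbeats 400000

open AlgebraicCurve IntermediateField ModularCurve
  Fermat.Agent.S24Lib Fermat.Agent.FFLib Fermat.Agent.S18Lib Fermat.Agent.S28Lib
  Fermat.Agent.ESLib Fermat.Agent.S34Lib Fermat.Agent.S36Lib Fermat.Agent.S33Lib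

namespace Fermat.Agent.S40Lib

section abstract

variable {k : Type*} [Field k]

/-- (GW8a) `S40/GapwAS.lean` : Artin-Schreier roots have no more poles -/
theorem as_root_ff {Ft : Type*} [Field Ft] [Algebra k Ft] [IsAlgClosed k] (hFt : IsFF k Ft)
    {p : ℕ} (hp : 1 < p) {x : Ft} (hx : x ≠ 0) (n : ℕ) (c : k) (y : Ft)
    (h1 : x ^ n * y ∈ riemannRochSpace ((n + n) • poleDiv k x))
    (h2 : x ^ (p * n) * (y ^ p + algebraMap k Ft c * y) ∈
      riemannRochSpace ((p * n) • poleDiv k x)) :
    x ^ n * y ∈ riemannRochSpace (n • poleDiv k x) := by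
  have h3 : y ^ p + algebraMap k Ft c * y ∈ riemannRochSpace (maE k x 0 (p * n)) := by
    rw [T1e_mem_maE hFt hx, zero_add]
    exact h2
  have h4 : y ∈ riemannRochSpace (maE k x 0 n) := by
    rw [mem_L_iff] at h3 ⊢
    intro v
    have hv := h3 v
    rw [maE_apply hFt] at hv ⊢
    by_cases hy : y = 0
    · exact Or.inl hy
    right
    by_contra hcon
    rw [not_le] at hcon
    set m : ℤ := max (v.ord x) 0 with hm
    have hm0 : 0 ≤ m := le_max_right _ _
    set o : ℤ := v.ord y with ho
    have hnm : 0 ≤ (n : ℤ) * m := mul_nonneg (Int.natCast_nonneg n) hm0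
    have ho1 : o ≤ -1 := by
      push_cast at hcon
      nlinarith
    have hyp0 : y ^ p ≠ 0 := pow_ne_zero p hy
    have hordp : v.ord (y ^ p) = (p : ℤ) * o := ma_ord_pow v y p
    have hp2 : (2 : ℤ) ≤ (p : ℤ) := by exact_mod_cast hp
    have hpo : (p : ℤ) * o + 1 ≤ o := by nlinarith
    have hcy : D2_ge v (v.ord (y ^ p) + 1) (algebraMap k Ft c * y) := by
      by_cases hc : c = 0
      · left; rw [hc, map_zero, zero_mul]
      · right
        have hc' : algebraMap k Ft c ≠ 0 := by
          rw [Ne, map_eq_zero]; exact hc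
        rw [v.ord_mul hc' hy, ord_algebraMap, zero_add, hordp]
        exact hpo
    have h5 := D2.ord_add_eq v hyp0 hcy
    have h6 := D2.add_ne_zero_of_ge v hyp0 hcy
    rw [add_comm] at h5 h6
    rcases hv with hv | hv
    · exact h6 hv
    · rw [h5, hordp] at hv
      push_cast at hv hcon
      have hp0 : (0 : ℤ) < (p : ℤ) := by omega
      nlinarith
  rw [T1e_mem_maE hFt hx, zero_add] at h4
  exact h4

end abstract

end Fermat.Agent.S40Lib
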