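import Fermat.Agent.S33.LTwist

/-!
# S40 library, block (GAPW), leaf (GW4): gap constants for all large `n`
-/

set_option autoImplicit false
set_option synthInstance.maxHeartbeats 400000
set_option linter.unusedSectionVars false
set_option maxHeartbeats 400000

open AlgebraicCurve IntermediateField
  Fermat.Agent.S24Lib Fermat.Agent.FFLib Fermat.Agent.S18Lib
  Fermat.Agent.S34Lib Fermat.Agent.S33Lib

namespace Fermat.Agent.S40Lib

variable {K k F Φ : Type*} [Field K] [Field k] [Field F] [Algebra K F] [CommRing Φ] [Algebra k Φ]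
  {A : ValuationSubring K} {resK : A →+* k}

/-- (GW4) `S40/GapwAll.lean` : `exists_hasGap_of_lsys` for all large `n` -/
theorem exists_hasGap_all [Nontrivial Φ] [IsAlgClosed K] (hF : IsFF K F)
    (hres : Function.Surjective resK)
    (R : RedG A resK F Φ) {p : ℕ} (hp : 0 < p) {x : R.O} (hx : Transcendental K ((x : R.O) : F))
    {𝓛 : ℕ → Submodule k Φ} {n₀ : ℕ} (h : IsLSys R hres p x 𝓛 n₀) :
    ∃ n₁ : ℕ, n₀ ≤ n₁ ∧ ∀ n, n₁ ≤ n → IsChartAt R hres p x 𝓛 n ∧ ∀ u : R.O, R.red u = 1 →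
      (∀ v : Place K F, (p : ℤ) ∣ v.ord ((u : R.O) : F)) → (¬ ∃ g : F, ((u : R.O) : F) = g ^ p) →
      ∃ π : A, HasGap R hres p x 𝓛 n u π := by
  obtain ⟨n₁, hn₁, hT⟩ := exists_isPTwist_of_lsys hF hres R hp hx h
  refine ⟨n₁, hn₁, fun n hn => ?_⟩
  have hC := isChartAt_of_lsys hF hres R hp h n (hn₁.trans hn)
  refine ⟨hC, fun u hu hdvd hnp => ?_⟩
  have hu0 := lt_coe_ne_zero R u hu
  set D : Divisor K F := GA_div K ((u : R.O) : F) p with hD
  have hDu : ∀ v : Place K F, v.ord ((u : R.O) : F) = p * D v := by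
    intro v
    rw [hD, GA_div_apply hF, Int.mul_ediv_cancel' (hdvd v)]
  have hnpD : ¬ Divisor.IsPrincipal D := by
    rintro ⟨g, hg0, hg⟩
    apply hnp
    have h1 : ((u : R.O) : F) / g ^ p ∈ (algebraMap K F).range := by
      rw [← mem_L_zero_iff hF, mem_L_iff]
      intro v
      right
      rw [div_eq_mul_inv, v.ord_mul hu0 (inv_ne_zero (pow_ne_zero _ hg0)), v.ord_inv, ma_ord_pow,
        hDu v, hg v]
      simp
    obtain ⟨c, hc⟩ := h1
    obtain ⟨c', hc'⟩ := IsAlgClosed.exists_pow_nat_eq c hp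
    refine ⟨algebraMap K F c' * g, ?_⟩
    rw [mul_pow, ← map_pow, hc', hc, div_mul_cancel₀ _ (pow_ne_zero _ hg0)]
  have hTw := hT n hn u hu D hDu hnpD
  obtain ⟨s₁, s₂, w, π, hgap⟩ := exists_isGap R hres hC hTw
  exact ⟨π, _, _, s₁, s₂, w, hTw, hgap⟩

end Fermat.Agent.S40Lib
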