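import Fermat.Agent.S33.LDefs

/-!
# S40 library, block (GAPW): definitions
-/

set_option autoImplicit false

open AlgebraicCurve Fermat.Agent.FFLib Fermat.Agent.S18Lib Fermat.Agent.S34Lib
  Fermat.Agent.S33Lib

namespace Fermat.Agent.S40Lib

variable {K k F Φ : Type*} [Field K] [Field k] [Field F] [Algebra K F] [CommRing Φ] [Algebra k Φ]
  {A : ValuationSubring K} {resK : A →+* k}

/-- the Artin-Schreier root property of a system of expected spaces -/
def IsASRoot (R : RedG A resK F Φ) (p : ℕ) (x : R.O) (𝓛 : ℕ → Submodule k Φ) (n₀ : ℕ) : Prop :=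
  ∀ n, n₀ ≤ n → ∀ (c : k) (y : Φ), R.red x ^ n * y ∈ 𝓛 (n + n) →
    R.red x ^ (p * n) * (y ^ p + algebraMap k Φ c * y) ∈ 𝓛 (p * n) → R.red x ^ n * y ∈ 𝓛 n

end Fermat.Agent.S40Lib
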