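import Fermat.Agent.S33.MKeyP
import Fermat.Agent.S33.MGapExcl
import Fermat.Agent.S33.GTame
import Fermat.Agent.S40.GapwDefs
import Fermat.Agent.S40.GapwAS

/-!
# S40 library, block (GAPW), leaf (GW8): the system of expected spaces at level `p M` has the
Artin-Schreier root property
-/

set_option autoImplicit false
set_option synthInstance.maxHeartbeats 400000
set_option linter.unusedSectionVars false
set_option maxHeartbeats 400000

open AlgebraicCurve IntermediateField ModularCurve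
  Fermat.Agent.S24Lib Fermat.Agent.FFLib Fermat.Agent.S18Lib Fermat.Agent.S28Lib
  Fermat.Agent.ESLib Fermat.Agent.S34Lib Fermat.Agent.S36Lib Fermat.Agent.S33Lib

namespace Fermat.Agent.S40Lib

noncomputable section

variable {M p : ℕ} [NeZero M] [NeZero p] [hpF : Fact p.Prime] {hpM : ¬ p ∣ M}
variable {A : ValuationSubring Qb}
variable {R : RedG A (IsLocalRing.residue A) (FB (p * M)) (FT A M × FT A M)}

/-- (GW8) `S40/GapwLSys.lean` -/
theorem exists_lsys_pM_as (hbase : 2 ∣ M ∨ 3 ∣ M) (hA : A.LiesOverPrime p)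
    (hR : IsQRed2 M p hpM A R) :
    ∃ (x : R.O) (𝓛 : ℕ → Submodule (kk A) (FT A M × FT A M)) (n₀ : ℕ),
      ((x : R.O) : FB (p * M)) = jN M p * jQ M p ∧
      IsLSys R IsLocalRing.residue_surjective p x 𝓛 n₀ ∧ IsASRoot R p x 𝓛 n₀ := by
  have := isAlgClosed_kk A
  have : CharP (kk A) p := charP_kk hpF.out hA
  obtain ⟨x, hx, hxr⟩ := exists_xO hR hA
  obtain ⟨hx₁, hx₂, S, n₀, hS, hW⟩ := UK_exists_nodes M p hpM hbase A hA R hR x hx hxr
  obtain ⟨𝓛, h𝓛⟩ := exists_isLSys_of_HW (isFF_bar (p * M)) (isFF_FT A M)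
    IsLocalRing.residue_surjective R (p := p) x hx₁ hx₂ S n₀ hS hW
  refine ⟨x, 𝓛, n₀, hx, h𝓛, ?_⟩
  have hp1 : 1 < p := hpF.out.one_lt
  have hx₁0 : (R.red x).1 ≠ 0 := by
    intro h; rw [h] at hx₁; exact hx₁ (isAlgebraic_zero)
  have hx₂0 : (R.red x).2 ≠ 0 := by
    intro h; rw [h] at hx₂; exact hx₂ (isAlgebraic_zero)
  have key : ∀ m, n₀ ≤ m → ∀ φ : FT A M × FT A M, φ ∈ 𝓛 m ↔
      φ ∈ Lt (kk A) (R.red x).1 (R.red x).2 m ∧ Glued S (fun _ => 1) φ := by
    intro m hm φ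
    rw [← h𝓛.eq m hm]
    exact hW m hm φ
  intro n hn c y h1 h2
  have hnn : n₀ ≤ n + n := le_trans hn (Nat.le_add_right n n)
  have hpn : n₀ ≤ p * n := le_trans hn (Nat.le_mul_of_pos_left n hpF.out.pos)
  rw [key _ hnn] at h1
  rw [key _ hpn] at h2
  rw [key _ hn]
  refine ⟨?_, h1.2⟩
  have h1' := Submodule.mem_prod.1 h1.1
  have h2' := Submodule.mem_prod.1 h2.1
  refine Submodule.mem_prod.2 ⟨?_, ?_⟩
  · exact as_root_ff (isFF_FT A M) hp1 hx₁0 n c y.1 h1'.1 h2'.1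
  · exact as_root_ff (isFF_FT A M) hp1 hx₂0 n c y.2 h1'.2 h2'.2

end

end Fermat.Agent.S40Lib
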