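import Fermat.Agent.S40.GapwSmall
import Fermat.Agent.S40.GapwDefs
import Fermat.Agent.S40.GapwAll
import Fermat.Agent.S34.Connected2

/-!
# S40 library, block (GAPW), leaf (GW5): small representatives are `p`-th powers
-/

set_option autoImplicit false
set_option synthInstance.maxHeartbeats 400000
set_option linter.unusedSectionVars false
set_option maxHeartbeats 400000

open AlgebraicCurve IntermediateField
  Fermat.Agent.S24Lib Fermat.Agent.FFLib Fermat.Agent.S18Lib
  Fermat.Agent.S34Lib Fermat.Agent.S33Lib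

namespace Fermat.Agent.S40Lib

variable {K k F Φ : Type*} [Field K] [Field k] [Field F] [Algebra K F] [CommRing Φ] [Algebra k Φ]
  {A : ValuationSubring K} {resK : A →+* k}

variable [Nontrivial Φ] [IsReduced Φ] [IsAlgClosed K] [IsAlgClosed k] {p : ℕ} [Fact p.Prime]
  [CharP k p] (R : RedG A resK F Φ) (hres : Function.Surjective resK)
  {x : R.O} {𝓛 : ℕ → Submodule k Φ} {n₀ : ℕ}

/-- (GW5) `S40/GapwSmallL.lean` : small representatives are `p`-th powers -/
theorem isPow_of_small (hF : IsFF K F) (hx : Transcendental K ((x : R.O) : F))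
    (h : IsLSys R hres p x 𝓛 n₀) (hAS : IsASRoot R p x 𝓛 n₀) (n : ℕ) (u : R.O)
    (hdvd : ∀ v : Place K F, (p : ℤ) ∣ v.ord ((u : R.O) : F))
    (hu₁ : ((u : R.O) : F) ∈ riemannRochSpace (maE K ((x : R.O) : F) (p * n) 0))
    (μ : A) (r' : R.O) (hur : u = 1 + R.const μ * r')
    (hμ : A.valuation (μ : K) ^ (p - 1) < A.valuation (p : K) ^ p) :
    ∃ g : F, ((u : R.O) : F) = g ^ p := by
  have hp : p.Prime := Fact.out
  by_contra hnp
  obtain ⟨n₁, hn₁, hall⟩ := exists_hasGap_all hF hres R hp.pos hx h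
  set n' : ℕ := max n n₁ with hn'
  have hnn' : n ≤ n' := le_max_left _ _
  have hn₁n' : n₁ ≤ n' := le_max_right _ _
  obtain ⟨hC, hgap⟩ := hall n' hn₁n'
  -- `μ` is in the maximal ideal
  have hμ1 : A.valuation (μ : K) < 1 := by
    by_contra hge
    push Not at hge
    have h1 : 1 ≤ A.valuation (μ : K) ^ (p - 1) := one_le_pow₀ hge
    have h2 : A.valuation (p : K) ^ p ≤ 1 := by
      apply pow_le_one₀ zero_le
      have : ((p : A) : K) = (p : K) := by simp
      rw [← this]
      exact A.valuation_le_one _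
    exact absurd (lt_of_le_of_lt h1 hμ) (not_lt.2 h2)
  have hμ0 : resK μ = 0 := (xs_res_eq_zero_iff hres μ).2 hμ1
  have hu : R.red u = 1 := by
    rw [hur, map_add, map_one, map_mul, xs_const, xs_red_C, hμ0, map_zero, zero_mul, add_zero]
  obtain ⟨π, U₁, U₂, s₁, s₂, w, Tw, G⟩ := hgap u hu hdvd hnp
  have hn₀n' : n₀ ≤ n' := hn₁.trans hn₁n'
  have hpn : n₀ ≤ p * n' := hn₀n'.trans (Nat.le_mul_of_pos_left n' hp.pos)
  refine gap_no_small R hres hC ?_ u hu Tw G ?_ μ r' hur hμ
  · intro c y hy hy2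
    rw [mem_shiftL] at hy ⊢
    rw [lc_mem_redSp_iff hF hres R h 0 (p * n') (by omega), zero_add] at hy2
    exact hAS n' hn₀n' c y hy hy2
  · exact L_mono (CN2_maE_mono hF _ (Nat.mul_le_mul_left p hnn') le_rfl) hu₁

end Fermat.Agent.S40Lib
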