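import Fermat.Agent.S40.GapwRep
import Fermat.Agent.S40.GapwSmallL

/-!
# S40 library, block (GAPW), leaf (GW6): inertia acts through the tame character on the classes
with gap `1/(p-1)`
-/

set_option autoImplicit false
set_option synthInstance.maxHeartbeats 400000
set_option linter.unusedSectionVars false
set_option maxHeartbeats 400000

open AlgebraicCurve IntermediateField
  Fermat.Agent.S24Lib Fermat.Agent.FFLib Fermat.Agent.S18Lib
  Fermat.Agent.S34Lib Fermat.Agent.S33Lib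

namespace Fermat.Agent.S40Lib

variable {K k F Φ : Type*} [Field K] [Field k] [Field F] [Algebra K F] [CommRing Φ] [Algebra k Φ]
  {A : ValuationSubring K} {resK : A →+* k}

/-- an integral function with zero reduction is divisible by a constant of the maximal ideal -/
theorem GW6_scale (R : RedG A resK F Φ) (z : R.O) (hz : R.red z = 0) :
    ∃ (μ : A) (r : R.O), A.valuation (μ : K) < 1 ∧ z = R.const μ * r := by
  by_cases h0 : ((z : R.O) : F) = 0
  · refine ⟨0, 0, ?_, ?_⟩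
    · simp
    · rw [mul_zero]; exact Subtype.ext h0
  obtain ⟨c, hc, y, hy, hzy⟩ := R.exists_scale _ h0
  have hlt : A.valuation c < 1 := by
    by_contra hge
    push Not at hge
    have hcinv : c⁻¹ ∈ A := by
      rw [← A.valuation_le_one_iff, map_inv₀]
      exact inv_le_one_of_one_le₀ hge
    have h1 : y = R.const ⟨c⁻¹, hcinv⟩ * z := by
      apply Subtype.ext
      show ((y : R.O) : F) = algebraMap K F c⁻¹ * ((z : R.O) : F)
      rw [hzy, ← mul_assoc, ← map_mul, inv_mul_cancel₀ hc, map_one, one_mul]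
    apply hy
    rw [h1, map_mul, hz, mul_zero]
  exact ⟨⟨c, (A.valuation_le_one_iff c).1 hlt.le⟩, y, hlt, Subtype.ext hzy⟩

theorem GW6_pow {S : Type*} [CommRing S] (P r : S) (N : ℕ) :
    ∃ Q : S, (1 + P * r) ^ N = 1 + P * ((N : S) * r + P * Q) := by
  induction N with
  | zero => exact ⟨0, by simp⟩
  | succ N ih =>
    obtain ⟨Q, hQ⟩ := ih
    refine ⟨Q + r * ((N : S) * r + P * Q), ?_⟩
    rw [pow_succ, hQ]
    push_cast
    ring

theorem GW6_mul_mem [IsAlgClosed K] (hF : IsFF K F) (x : F) {a a' : ℕ} {f g : F}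
    (hf : f ∈ riemannRochSpace (maE K x a 0)) (hg : g ∈ riemannRochSpace (maE K x a' 0)) :
    f * g ∈ riemannRochSpace (maE K x (a + a') 0) := by
  rw [mem_L_iff] at hf hg ⊢
  intro v
  refine D2.ge_mono v (le_of_eq ?_) (D2.ge_mul v (hf v) (hg v))
  rw [maE_apply hF, maE_apply hF, maE_apply hF]
  push_cast
  ring

theorem GW6_pow_mem [IsAlgClosed K] (hF : IsFF K F) (x : F) {a : ℕ} {f : F}
    (hf : f ∈ riemannRochSpace (maE K x a 0)) (N : ℕ) :
    f ^ N ∈ riemannRochSpace (maE K x (a * N) 0) := by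
  induction N with
  | zero => rw [pow_zero]; exact ma_one_mem hF _ _ _
  | succ N ih =>
    rw [pow_succ, Nat.mul_succ]
    exact GW6_mul_mem hF x ih hf

variable [Nontrivial Φ] [IsReduced Φ] [IsAlgClosed K] [IsAlgClosed k] {p : ℕ} [Fact p.Prime]
  [CharP k p] (R : RedG A resK F Φ) (hres : Function.Surjective resK)
  {x : R.O} {𝓛 : ℕ → Submodule k Φ} {n₀ : ℕ}

/-- (GW6) `S40/GapwTwist.lean` : inertia acts through the tame character on the classes
with gap `1/(p-1)` -/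
theorem gap_twist (hF : IsFF K F) (hx : Transcendental K ((x : R.O) : F))
    (h : IsLSys R hres p x 𝓛 n₀) (hAS : IsASRoot R p x 𝓛 n₀) (n : ℕ)
    (C : IsChartAt R hres p x 𝓛 n) (u : R.O) (hu : R.red u = 1)
    (hdvd : ∀ v : Place K F, (p : ℤ) ∣ v.ord ((u : R.O) : F)) (π : A)
    (hgap : HasGap R hres p x 𝓛 n u π)
    (hπ : A.valuation (π : K) ^ (p - 1) = A.valuation (p : K))
    (τ : SemilinearAut K F) (hτx : τ • ((x : R.O) : F) = x)
    (hτO : ∀ y : R.O, ∃ hy : τ • ((y : R.O) : F) ∈ R.O, R.red ⟨_, hy⟩ = R.red y)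
    (θ : A) (j : ℕ) (hθ : SemilinearAut.baseAut τ (π : K) = θ * π) (hθj : resK θ = (j : k)) :
    ∃ G : F, τ • ((u : R.O) : F) = G ^ p * ((u : R.O) : F) ^ j := by
  have hp : p.Prime := Fact.out
  have hcharΦ : CharP Φ p := xs_charP (k := k) (Φ := Φ) p
  obtain ⟨g, r, hg1, hgr, hrL⟩ := hasGap_rep_lam R hres C u hu π hgap π rfl
  obtain ⟨U₁, U₂, s₁, s₂, w, Tw, G⟩ := hgap
  have hπ0 : resK π = 0 := G.res
  have hπK : (π : K) ≠ 0 := fun h0 => G.ne (Subtype.ext h0)
  choose hmem hred using hτO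
  set P : R.O := xsC R (π ^ p) with hP
  set v : R.O := g ^ p * u with hv
  have hvP : v = 1 + P * r := hgr
  set N : ℕ := (p - 1) * j with hN
  have hNj : N + j = p * j := by
    rw [hN]
    obtain ⟨m, rfl⟩ : ∃ m, p = m + 1 := ⟨p - 1, by have := hp.pos; omega⟩
    simp only [Nat.add_sub_cancel]
    ring
  have hg0 : ((g : R.O) : F) ≠ 0 := lt_coe_ne_zero R g hg1
  have hu0 : ((u : R.O) : F) ≠ 0 := lt_coe_ne_zero R u hu
  have hv0 : ((v : R.O) : F) ≠ 0 := mul_ne_zero (pow_ne_zero _ hg0) hu0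
  -- `τ v`
  have hτv : (⟨_, hmem v⟩ : R.O) = 1 + xsC R (θ ^ p) * P * ⟨_, hmem r⟩ := by
    apply Subtype.ext
    show τ • ((v : R.O) : F) = 1 + algebraMap K F ((θ : K) ^ p) * algebraMap K F ((π : K) ^ p) *
      τ • ((r : R.O) : F)
    rw [hvP]
    show τ • (1 + algebraMap K F ((π : K) ^ p) * ((r : R.O) : F)) = _
    rw [smul_add, smul_one, smul_mul', SemilinearAut.smul_algebraMap, map_pow, hθ, mul_pow, map_mul]
  obtain ⟨Q, hQ⟩ := GW6_pow P r N
  set τr : R.O := ⟨_, hmem r⟩ with hτr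
  set z : R.O := xsC R (θ ^ p) * τr + ((N : R.O) * r + P * Q) +
    xsC R (θ ^ p) * τr * P * ((N : R.O) * r + P * Q) with hz
  set u' : R.O := ⟨_, hmem v⟩ * v ^ N with hu'
  have hu'z : u' = 1 + P * z := by
    rw [hu', hτv, hvP, hQ, hz]
    ring
  have hredP : R.red P = 0 := by
    rw [hP, xs_red_C, map_pow, hπ0, zero_pow hp.ne_zero, map_zero]
  have hjp : ((j : Φ)) ^ p = (j : Φ) := by
    have : ExpChar Φ p := ExpChar.prime hp
    have h1 := map_natCast (frobenius Φ p) j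
    rwa [frobenius_def] at h1
  have hredz : R.red z = 0 := by
    rw [hz]
    simp only [map_add, map_mul, hredP, zero_mul, mul_zero, add_zero, xs_red_C, map_pow, hθj,
      map_natCast, hjp, hτr, hred]
    rw [← add_mul, ← Nat.cast_add, add_comm j N, hNj, Nat.cast_mul, CharP.cast_eq_zero Φ p,
      zero_mul, zero_mul]
  obtain ⟨μ', r'', hμ', hzr⟩ := GW6_scale R z hredz
  have hur : u' = 1 + R.const (π ^ p * μ') * r'' := by
    rw [hu'z, hzr, hP, xs_const, xs_const, map_mul]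
    ring
  have hpK : A.valuation (p : K) ≠ 0 := by
    rw [← hπ]
    exact pow_ne_zero _ ((map_ne_zero _).2 hπK)
  have hμ : A.valuation ((π ^ p * μ' : A) : K) ^ (p - 1) < A.valuation (p : K) ^ p := by
    have e1 : A.valuation ((π ^ p * μ' : A) : K) ^ (p - 1) =
        A.valuation (p : K) ^ p * A.valuation (μ' : K) ^ (p - 1) := by
      rw [show ((π ^ p * μ' : A) : K) = (π : K) ^ p * (μ' : K) from rfl, map_mul, map_pow, mul_pow,
        ← hπ, ← pow_mul, ← pow_mul, mul_comm p]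
    rw [e1]
    have h1 : A.valuation (μ' : K) ^ (p - 1) < 1 :=
      pow_lt_one₀ zero_le hμ' (by have := hp.two_le; omega)
    calc A.valuation (p : K) ^ p * A.valuation (μ' : K) ^ (p - 1)
        < A.valuation (p : K) ^ p * 1 :=
          mul_lt_mul_of_pos_left h1 (zero_lt_iff.2 (pow_ne_zero _ hpK))
      _ = _ := mul_one _
  have hordv : ∀ w : Place K F, (p : ℤ) ∣ w.ord ((v : R.O) : F) := by
    intro w
    show (p : ℤ) ∣ w.ord (((g : R.O) : F) ^ p * ((u : R.O) : F))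
    rw [w.ord_mul (pow_ne_zero _ hg0) hu0, ma_ord_pow]
    exact dvd_add (Dvd.intro _ rfl) (hdvd w)
  have hτv0 : τ • ((v : R.O) : F) ≠ 0 := by
    intro h0
    exact hv0 ((smul_eq_zero_iff_eq τ).1 h0)
  have hdvd' : ∀ w : Place K F, (p : ℤ) ∣ w.ord ((u' : R.O) : F) := by
    intro w
    show (p : ℤ) ∣ w.ord (τ • ((v : R.O) : F) * ((v : R.O) : F) ^ N)
    rw [w.ord_mul hτv0 (pow_ne_zero _ hv0), ma_ord_pow, GA_ord_smul]
    exact dvd_add (hordv _) (Dvd.dvd.mul_left (hordv w) _)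
  have hvL : ((v : R.O) : F) ∈ riemannRochSpace (maE K ((x : R.O) : F) (p * n) 0) := by
    rw [hvP]
    show (1 : F) + algebraMap K F ((π : K) ^ p) * ((r : R.O) : F) ∈ _
    rw [← Algebra.smul_def]
    exact add_mem (ma_one_mem hF _ _ _) (Submodule.smul_mem _ _ hrL)
  have hu₁' : ((u' : R.O) : F) ∈
      riemannRochSpace (maE K ((x : R.O) : F) (p * (n * (1 + N))) 0) := by
    have h1 := GW6_mul_mem hF _ (xx_smul_mem_maE hF τ _ hτx _ _ hvL) (GW6_pow_mem hF _ hvL N)
    have e : p * n + p * n * N = p * (n * (1 + N)) := by ring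
    rw [e] at h1
    exact h1
  obtain ⟨G', hG'⟩ := isPow_of_small R hres hF hx h hAS (n * (1 + N)) u' hdvd' hu₁'
    (π ^ p * μ') r'' hur hμ
  have hτg0 : τ • ((g : R.O) : F) ≠ 0 := by
    intro h0
    exact hg0 ((smul_eq_zero_iff_eq τ).1 h0)
  refine ⟨G' / (τ • ((g : R.O) : F) * ((g : R.O) : F) ^ N * ((u : R.O) : F) ^ j), ?_⟩
  have e1 : (τ • ((g : R.O) : F) * ((g : R.O) : F) ^ N * ((u : R.O) : F) ^ j) ^ p =
      (τ • ((g : R.O) : F)) ^ p * (((g : R.O) : F) ^ p) ^ N * (((u : R.O) : F) ^ N *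
        ((u : R.O) : F) ^ j) := by
    rw [mul_pow, mul_pow, ← pow_mul, ← pow_mul, ← pow_mul, ← pow_add, hNj, mul_comm N p,
      mul_comm j p]
  have e2 : ((u' : R.O) : F) = (τ • ((g : R.O) : F)) ^ p * τ • ((u : R.O) : F) *
      ((((g : R.O) : F) ^ p) ^ N * ((u : R.O) : F) ^ N) := by
    show τ • (((g : R.O) : F) ^ p * ((u : R.O) : F)) * (((g : R.O) : F) ^ p * ((u : R.O) : F)) ^ N = _
    rw [smul_mul', smul_pow', mul_pow]
  rw [div_pow, ← hG', e1, e2]
  field_simp

end Fermat.Agent.S40Lib
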