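import Fermat.Agent.S40.GapwAll
import Fermat.Agent.S40.GapwTwist
import Fermat.Agent.S40.GapwTame
import Fermat.Agent.S40.GapwLSys
import Fermat.Agent.S40.GapwVal

/-!
# S40 library, block (GAPW), leaf (GW11): inertia acts through the cyclotomic character on the
toric classes
-/

set_option autoImplicit false
set_option synthInstance.maxHeartbeats 400000
set_option linter.unusedSectionVars false
set_option maxHeartbeats 400000

open AlgebraicCurve IntermediateField ModularCurve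
  Fermat.Agent.S24Lib Fermat.Agent.FFLib Fermat.Agent.S18Lib Fermat.Agent.S28Lib
  Fermat.Agent.ESLib Fermat.Agent.S34Lib Fermat.Agent.S36Lib Fermat.Agent.S33Lib

namespace Fermat.Agent.S40Lib

noncomputable section

variable (M p : ℕ) [NeZero M] [NeZero p] [hpF : Fact p.Prime] (hpM : ¬ p ∣ M)
variable (A : ValuationSubring Qb)

/-- (GW11) `S40/GapwInertia.lean` : (G3) = (K1) inertia acts through the cyclotomic character -/
theorem toric_inertia (hbase : 2 ∣ M ∨ 3 ∣ M) (hA : A.LiesOverPrime p)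
    (h : FB (p * M)) (hK : IsKum (p * M) p h) (h1 : GOne A (h : LaurentSeries Qb))
    (h2 : GOne A ((wq M p hpM h : FB (p * M)) : LaurentSeries Qb))
    (a₁ a₂ : FB M) (hn1 : nrm (pi1 M p) h = a₁ ^ p) (hn2 : nrm (pi1 M p) (wq M p hpM h) = a₂ ^ p)
    (σ : GQ) (hσ : σ ∈ A.inertiaSubgroupIn ℚ) (ζ : Qb) (hζ : ζ ^ p = 1) (hζ1 : ζ ≠ 1) (j : ℕ)
    (hj : σ ζ = ζ ^ j) : ∃ G : FB (p * M), gal (p * M) σ h = G ^ p * h ^ j := by
  have := isAlgClosed_kk A
  have : CharP (kk A) p := charP_kk hpF.out hA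
  have hp := hpF.out
  by_cases hpow : ∃ a : FB (p * M), h = a ^ p
  · obtain ⟨a, rfl⟩ := hpow
    have ha0 : a ≠ 0 := by
      intro h0
      apply hK.1
      rw [h0, zero_pow hp.ne_zero]
    refine ⟨gal (p * M) σ a / a ^ j, ?_⟩
    rw [map_pow, div_pow, ← pow_mul, ← pow_mul, mul_comm j p]
    field_simp
  obtain ⟨R, hR⟩ := exists_red2 M p hpM A hA
  obtain ⟨h1m, h1r⟩ := h1
  obtain ⟨h2m, h2r⟩ := h2
  let u : R.O := ⟨h, (hR.mem_iff h).2 ⟨h1m, h2m⟩⟩
  have hu : R.red u = 1 := by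
    apply Prod.ext
    · apply Subtype.ext
      rw [hR.red_fst u h1m, h1r]
      rfl
    · apply Subtype.ext
      rw [hR.red_snd u h2m, h2r]
      rfl
  obtain ⟨x, 𝓛, n₀, hx, hL, hAS⟩ := exists_lsys_pM_as hbase hA hR
  have hxT : Transcendental Qb ((x : R.O) : FB (p * M)) := by
    rw [hx]; exact DG_transcendental_x M p hpM
  obtain ⟨n₁, hn₁, hall⟩ := exists_hasGap_all (isFF_FB (p * M)) IsLocalRing.residue_surjective R
    hp.pos hxT hL
  obtain ⟨C, hgap⟩ := hall n₁ le_rfl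
  obtain ⟨π, hπ⟩ := hgap u hu hK.2 hpow
  have hτx : gal (p * M) σ ((x : R.O) : FB (p * M)) = x := by
    rw [hx, map_mul]
    congr 1
    · exact UK_gal_jBarD (p * M) 1 (one_dvd _) σ
    · exact UK_gal_jBarD (p * M) p (dvd_mul_right p M) σ
  have hτO := inertia_mem hR σ hσ
  have hval := gapw_val hA hR C u hu a₁ a₂ hn1 hn2 π hπ
  obtain ⟨θ, hθ, hθj⟩ := tame_theta p hp A hA σ hσ ζ hζ hζ1 j hj π hval
  exact gap_twist R IsLocalRing.residue_surjective (isFF_FB (p * M)) hxT hL hAS n₁ C u hu hK.2 π hπ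
    hval (arithmeticGalois (modularFunctionFieldFull (p * M)) σ) hτx hτO θ j hθ hθj

end

end Fermat.Agent.S40Lib
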