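import Fermat.Agent.S33.XSum

/-!
# S40 library, block (GAPW), leaf (GW3): the representative `1 + lam ^ p r`
-/

set_option autoImplicit false
set_option synthInstance.maxHeartbeats 400000
set_option linter.unusedSectionVars false
set_option maxHeartbeats 400000

open AlgebraicCurve IntermediateField
  Fermat.Agent.S24Lib Fermat.Agent.FFLib Fermat.Agent.S18Lib
  Fermat.Agent.S34Lib Fermat.Agent.S33Lib

namespace Fermat.Agent.S40Lib

variable {K k F Φ : Type*} [Field K] [Field k] [Field F] [Algebra K F] [CommRing Φ] [Algebra k Φ]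
  {A : ValuationSubring K} {resK : A →+* k}

variable [Nontrivial Φ] [IsReduced Φ] [IsAlgClosed K] [IsAlgClosed k] {p : ℕ} [Fact p.Prime]
  [CharP k p] (R : RedG A resK F Φ) (hres : Function.Surjective resK)

variable {x : R.O} {𝓛 : ℕ → Submodule k Φ} {n : ℕ}

/-- (GW3) `S40/GapwRep.lean` : the representative `1 + lam ^ p r` -/
theorem hasGap_rep_lam (C : IsChartAt R hres p x 𝓛 n) (u : R.O) (hu : R.red u = 1) (π : A)
    (h : HasGap R hres p x 𝓛 n u π) (lam : A)
    (hlam : A.valuation (lam : K) = A.valuation (π : K)) :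
    ∃ g r : R.O, R.red g = 1 ∧ g ^ p * u = 1 + R.const (lam ^ p) * r ∧
      ((r : R.O) : F) ∈ riemannRochSpace (maE K ((x : R.O) : F) (p * n) 0) := by
  have hp : p.Prime := Fact.out
  obtain ⟨U₁, U₂, s₁, s₂, w, Tw, G⟩ := h
  obtain ⟨c, hc⟩ := gap_dvd_p R hres C u hu Tw G
  have hπK : (π : K) ≠ 0 := fun h0 => G.ne (Subtype.ext h0)
  have hlamK : (lam : K) ≠ 0 := by
    intro h0
    rw [h0, map_zero] at hlam
    exact hπK ((map_eq_zero _).1 hlam.symm)
  obtain ⟨a, r₁, r₂, ha, h₁, h₂, e₁, -, hr⟩ := gap_rep R hres C u hu Tw G c hc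
  obtain ⟨α, hα⟩ := xs_exists_root p hp.pos a
  have hα1 : resK α = 1 := by
    apply xs_eq_one_of_pow p
    rw [← map_pow, hα, ha]
  have hαu : IsUnit α := by
    by_contra hnu
    have := (xs_ker R α).2 hnu
    rw [hα1] at this
    exact one_ne_zero this
  obtain ⟨β, hβ⟩ := hαu.exists_left_inv
  have hβ1 : resK β = 1 := by
    have := congrArg resK hβ
    rwa [map_mul, hα1, mul_one, map_one] at this
  -- `π = lam * ε`
  have hεA : (π : K) / (lam : K) ∈ A := by
    rw [← A.valuation_le_one_iff, map_div₀, hlam, div_self ((map_ne_zero _).2 hπK)]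
  set ε : A := ⟨_, hεA⟩ with hε
  have hπε : π = lam * ε := by
    apply Subtype.ext
    show (π : K) = (lam : K) * ((π : K) / (lam : K))
    field_simp
  refine ⟨xsC R β * s₁, xsC R (ε ^ p * β ^ p) * r₁, ?_, ?_, ?_⟩
  · rw [map_mul, xs_red_C, hβ1, map_one, one_mul, G.red₁]
  · rw [mul_pow, mul_assoc, e₁, xs_const, xs_const, xs_const, ← map_pow, mul_add, ← map_mul, ← hα,
      ← mul_pow, hβ, one_pow, map_one, hπε, mul_pow, map_mul, map_mul]
    ring
  · show ((xsC R (ε ^ p * β ^ p) : R.O) : F) * ((r₁ : R.O) : F) ∈ _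
    rw [xs_coe_C, ← Algebra.smul_def]
    exact Submodule.smul_mem _ _ h₁

end Fermat.Agent.S40Lib
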