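import Fermat.Agent.S33.XOptimal
import Fermat.Agent.S33.XUnique
import Fermat.Agent.S40.GapwPow

/-!
# S40 library, block (GAPW), leaf (GW2): a class with a small representative has no gap
-/

set_option autoImplicit false
set_option synthInstance.maxHeartbeats 400000
set_option linter.unusedSectionVars false
set_option maxHeartbeats 400000

open Fermat.Agent.S18Lib Fermat.Agent.S34Lib Fermat.Agent.S33Lib

namespace Fermat.Agent.S40Lib

variable {K k F Φ : Type*} [Field K] [Field k] [Field F] [Algebra K F] [CommRing Φ] [Algebra k Φ]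
  {A : ValuationSubring K} {resK : A →+* k}

variable [Nontrivial Φ] [IsReduced Φ] [IsAlgClosed K] [IsAlgClosed k] {p : ℕ} [Fact p.Prime]
  [CharP k p] (R : RedG A resK F Φ) (hres : Function.Surjective resK)
  {U₁' U₂' : Submodule K F} {W₁ W₂ W₁₂ : Submodule k Φ} {U₁ U₂ : Submodule K F}

/-- (GW2) `S40/GapwSmall.lean` : a class with a representative `1 + μ r'`, `v(μ) > p/(p-1)`,
regular outside the first chart, has no gap -/
theorem gap_no_small (C : IsPChart R hres p U₁' U₂' W₁ W₂ W₁₂)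
    (hAS : ∀ (c : k) (y : Φ), y ∈ W₁₂ → y ^ p + algebraMap k Φ c * y ∈ redSp R hres U₂' → y ∈ W₂)
    (u : R.O) (hu : R.red u = 1)
    (Tw : IsPTwist R hres p U₁' U₂' W₁ W₂ W₁₂ (u : F) U₁ U₂)
    {s₁ s₂ w : R.O} {π : A} (h : IsGap R hres U₁ U₂ s₁ s₂ w π)
    (hu₁ : ((u : R.O) : F) ∈ U₁') (μ : A) (r' : R.O) (hur : u = 1 + R.const μ * r')
    (hμ : A.valuation (μ : K) ^ (p - 1) < A.valuation (p : K) ^ p) : False := by
  have hp : p.Prime := Fact.out
  have hp1 : p - 1 ≠ 0 := by have := hp.two_le; omega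
  have : CharP Φ p := xs_charP (k := k) p
  have hπK : (π : K) ≠ 0 := fun h0 => h.ne (Subtype.ext h0)
  obtain ⟨c, hc⟩ := gap_dvd_p R hres C u hu Tw h
  -- `v(μ) < v(π) ^ p`
  have e5 : (p : K) = (c : K) * (π : K) ^ (p - 1) := by
    have := congrArg (fun z : A => (z : K)) hc
    simpa using this
  have hlt : A.valuation (μ : K) < A.valuation (π : K) ^ p := by
    apply lt_of_pow_lt_pow_left₀ (p - 1) zero_le
    refine lt_of_lt_of_le hμ ?_
    rw [e5, map_mul, map_pow, mul_pow, ← pow_mul, ← pow_mul, mul_comm p (p - 1)]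
    calc A.valuation (c : K) ^ p * A.valuation (π : K) ^ ((p - 1) * p)
        ≤ 1 * A.valuation (π : K) ^ ((p - 1) * p) := by
          apply mul_le_mul_of_nonneg_right _ zero_le
          exact pow_le_one₀ zero_le (A.valuation_le_one c)
      _ = _ := one_mul _
  have hπp0 : A.valuation (π : K) ^ p ≠ 0 := pow_ne_zero _ ((map_ne_zero _).2 hπK)
  have hmv : A.valuation ((μ : K) / (π : K) ^ p) < 1 := by
    rw [map_div₀, map_pow]
    exact (div_lt_one₀ (zero_lt_iff.2 hπp0)).2 hlt
  set m : A := ⟨(μ : K) / (π : K) ^ p, (A.valuation_le_one_iff _).1 hmv.le⟩ with hmdef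
  have hm : μ = π ^ p * m := by
    apply Subtype.ext
    show (μ : K) = (π : K) ^ p * ((μ : K) / (π : K) ^ p)
    field_simp
  have hm0 : resK m = 0 := (xs_res_eq_zero_iff hres m).2 hmv
  by_cases hc0 : resK c = 0
  · obtain ⟨⟨m', hm'⟩, -⟩ := gap_optimal R hres C u hu Tw h c hc hc0 μ r' hur ⟨m, hm⟩
    have h1 : A.valuation (π : K) ^ p ≤ A.valuation (μ : K) := by
      have h2 : ((π : K)) ^ p = (μ : K) * (m' : K) := congrArg (fun z : A => (z : K)) hm'
      rw [← map_pow, h2, map_mul]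
      calc A.valuation (μ : K) * A.valuation (m' : K) ≤ A.valuation (μ : K) * 1 :=
            mul_le_mul_of_nonneg_left (A.valuation_le_one m') zero_le
        _ = _ := mul_one _
    exact absurd hlt (not_lt.2 h1)
  obtain ⟨a, r₁, r₂, ha, hr₁, hr₂, e₁, -, hrr⟩ := gap_rep R hres C u hu Tw h c hc
  obtain ⟨α, hα⟩ := xs_exists_root (A := A) p hp.pos a
  have hresα : resK α = 1 := by
    apply xs_eq_one_of_pow p
    rw [← map_pow, hα, ha]
  have hαu : IsUnit α := by
    by_contra hn
    have := (resK_eq_zero_iff hres α).2 hn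
    rw [hresα] at this
    exact one_ne_zero this
  obtain ⟨α', hαα'⟩ := hαu.exists_right_inv
  have hresα' : resK α' = 1 := by
    have := congrArg resK hαα'
    rwa [map_mul, hresα, one_mul, map_one] at this
  obtain ⟨u', huu'⟩ := (R.isUnit_of_red u (by rw [hu]; exact isUnit_one)).exists_right_inv
  have hredu' : R.red u' = 1 := by
    have := congrArg R.red huu'
    rwa [map_mul, hu, one_mul, map_one] at this
  set g : R.O := xsC R α' * s₁ with hg
  have hredg : R.red g = 1 := by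
    rw [hg, map_mul, xs_red_C, hresα', map_one, one_mul, h.red₁]
  set Pp : R.O := xsC R (π ^ p) with hPp
  set r₁' : R.O := xsC R (α' ^ p) * r₁ with hr₁'
  have hgu : g ^ p * u = 1 + Pp * r₁' := by
    have e3 : xsC R (α' ^ p) * xsC R a = 1 := by
      rw [← map_mul, ← hα, ← mul_pow, mul_comm α' α, hαα', one_pow, map_one]
    calc g ^ p * u = xsC R (α' ^ p) * (s₁ ^ p * u) := by rw [hg, mul_pow, map_pow]; ring
      _ = xsC R (α' ^ p) * xsC R a + Pp * r₁' := by
          rw [e₁, xs_const, xs_const, hr₁', hPp]; ring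
      _ = 1 + Pp * r₁' := by rw [e3]
  set ρ' : R.O := (r₁' - xsC R m * r') * u' with hρ'
  have hgp : g ^ p = 1 + R.const (π ^ p) * ρ' := by
    have e4 : u = 1 + Pp * (xsC R m * r') := by
      rw [hur, xs_const, hm, map_mul, ← hPp]; ring
    calc g ^ p = (g ^ p * u) * u' := by rw [mul_assoc, huu', mul_one]
      _ = (1 + Pp * r₁') * u' := by rw [hgu]
      _ = u * u' + Pp * ((r₁' - xsC R m * r') * u') := by
          conv_rhs => rw [e4]
          ring
      _ = 1 + R.const (π ^ p) * ρ' := by rw [huu', xs_const]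
  have hredρ : R.red ρ' = R.red r₁ := by
    simp only [hρ', hr₁', map_mul, map_sub, map_pow, xs_red_C, hresα', hredu', map_one, one_pow,
      one_mul, mul_one, hm0, map_zero, zero_mul, sub_zero]
  obtain ⟨g₁, hg₁, hρg⟩ := pow_boundary R g ρ' hredg π c h.ne h.res hc hgp
  -- `g₁ ∈ U₁`
  have h1U : (1 : F) ∈ U₁ := by
    rw [Tw.mem₁, one_pow, one_mul]
    exact hu₁
  have hgU : ((g : R.O) : F) ∈ U₁ := by
    show ((xsC R α' : R.O) : F) * ((s₁ : R.O) : F) ∈ U₁
    rw [xs_coe_C, ← Algebra.smul_def]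
    exact Submodule.smul_mem _ _ h.mem₁
  have hg₁U : ((g₁ : R.O) : F) ∈ U₁ := by
    have h2 : ((g : R.O) : F) - 1 = (π : K) • ((g₁ : R.O) : F) := by
      have := congrArg (fun z : R.O => (z : F)) hg₁
      simp only [Algebra.smul_def]
      rw [this]
      show (1 : F) + algebraMap K F (π : K) * ((g₁ : R.O) : F) - 1 = _
      ring
    rw [← Submodule.smul_mem_iff _ hπK, ← h2]
    exact Submodule.sub_mem _ hgU h1U
  set y₂ : Φ := R.red g₁ - R.red w with hy₂
  have hy₂12 : y₂ ∈ W₁₂ := by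
    apply Tw.red₁₂
    have h3 : ((g₁ - w : R.O) : F) ∈ U₁ ⊔ U₂ :=
      Submodule.sub_mem _ (Submodule.mem_sup_left hg₁U) (x0_w_mem R hres h)
    have := red_mem_redSp hres h3
    rwa [map_sub] at this
  have hy₂eq : y₂ ^ p + algebraMap k Φ (resK c) * y₂ = R.red r₂ := by
    rw [hy₂, sub_pow_char]
    have h4 : R.red r₂ = R.red r₁ - (R.red w ^ p + algebraMap k Φ (resK c) * R.red w) := by
      rw [← hrr]; ring
    rw [h4, ← hredρ, hρg]
    ring
  have hy₂W : y₂ ∈ W₂ := by
    apply hAS (resK c) y₂ hy₂12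
    rw [hy₂eq]
    exact red_mem_redSp hres hr₂
  apply h.not_mem
  have h5 : R.red w = R.red g₁ + (-y₂) := by rw [hy₂]; ring
  rw [h5]
  refine Submodule.add_mem_sup (red_mem_redSp hres hg₁U) (Submodule.neg_mem _ ?_)
  rw [Tw.red₂]
  exact hy₂W

end Fermat.Agent.S40Lib
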