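import Mathlib

/-!
# S40 block (E), (GN): roots outside a valuation ring
-/

set_option autoImplicit false

namespace Fermat.Agent.S40Lib

open Polynomial

/-! ## (GN) `S40/GaussRoots.lean` : Mathlib only -/

/-- `f ∈ A[X]`, `S` a set of roots of `f` outside `A`: then `lc(f) ∏_{s ∈ S} s ∈ A`. -/
theorem lc_mul_prod_roots_mem {K : Type} [Field K] (A : ValuationSubring K) (f : K[X])
    (hf : ∀ i, f.coeff i ∈ A) (S : Finset K) (hS : ∀ s ∈ S, f.IsRoot s ∧ s ∉ A) :
    f.leadingCoeff * ∏ s ∈ S, s ∈ A := by
  classical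
  induction S using Finset.induction_on generalizing f with
  | empty =>
    rw [Finset.prod_empty, mul_one]
    exact hf _
  | insert s S' hs ih =>
    obtain ⟨hroot, hsA⟩ := hS s (Finset.mem_insert_self _ _)
    obtain ⟨g, hg⟩ := dvd_iff_isRoot.mpr hroot
    have hsinv : s⁻¹ ∈ A := (A.mem_or_inv_mem s).resolve_left hsA
    have hs0 : s ≠ 0 := fun h => hsA (h ▸ A.zero_mem)
    have hcoef : ∀ i, (C s * g).coeff i ∈ A := by
      intro i
      induction i with
      | zero =>
        have h1 : f.coeff 0 = - (s * g.coeff 0) := by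
          rw [hg, sub_mul, coeff_sub, coeff_X_mul_zero, coeff_C_mul, zero_sub]
        rw [coeff_C_mul]
        have h2 := hf 0
        rw [h1] at h2
        simpa using neg_mem h2
      | succ i ihi =>
        have h1 : f.coeff (i + 1) = g.coeff i - s * g.coeff (i + 1) := by
          rw [hg, sub_mul, coeff_sub, coeff_X_mul, coeff_C_mul]
        rw [coeff_C_mul] at ihi ⊢
        have h3 : s * g.coeff (i + 1) = s⁻¹ * (s * g.coeff i) - f.coeff (i + 1) := by
          rw [h1, ← mul_assoc, inv_mul_cancel₀ hs0]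
          ring
        rw [h3]
        exact sub_mem (mul_mem hsinv ihi) (hf _)
    have hroots : ∀ t ∈ S', (C s * g).IsRoot t ∧ t ∉ A := by
      intro t ht
      obtain ⟨h1, h2⟩ := hS t (Finset.mem_insert_of_mem ht)
      refine ⟨?_, h2⟩
      have hts : t - s ≠ 0 := by
        intro h
        rw [sub_eq_zero] at h
        exact hs (h ▸ ht)
      rw [IsRoot.def, hg, eval_mul, eval_sub, eval_X, eval_C] at h1
      rw [IsRoot.def, eval_mul, eval_C, (mul_eq_zero.1 h1).resolve_left hts, mul_zero]
    have h := ih (C s * g) hcoef hroots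
    rw [Finset.prod_insert hs]
    have hlc : (C s * g).leadingCoeff = s * f.leadingCoeff := by
      rw [leadingCoeff_mul, leadingCoeff_C, hg, leadingCoeff_mul, leadingCoeff_X_sub_C, one_mul]
    rw [hlc] at h
    have e : f.leadingCoeff * (s * ∏ x ∈ S', x) = s * f.leadingCoeff * ∏ x ∈ S', x := by ring
    rw [e]
    exact h

end Fermat.Agent.S40Lib
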