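import Fermat.Agent.S40.EDefs
import Fermat.Agent.S36.K0a
import Fermat.Agent.S36.K0d

/-!
# S40 block (E), (TR1): the value group of `K0(ζ)`, inertia preserves the valuation
-/

set_option autoImplicit false

namespace Fermat.Agent.S40Lib

open Polynomial
open Fermat.Agent.S36Lib

local notation "Qb" => AlgebraicClosure ℚ
local notation "GQ" => (AlgebraicClosure ℚ ≃ₐ[ℚ] AlgebraicClosure ℚ)

/-! ## (TR1) `S40/TR1.lean` -/

theorem TR1_nonunits {A : ValuationSubring Qb} {σ : GQ} (hσ : σ ∈ A.inertiaSubgroupIn ℚ) {b : Qb}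
    (hb : b ∈ A.nonunits) : σ b ∈ A.nonunits := by
  have h1 := (inertia_mem hσ (A.nonunits_subset hb)).2
  have h2 := K0d_nonunits_add hb h1
  rwa [add_sub_cancel] at h2

theorem TR1_exists_pow (σ : GQ) (a : Qb) : ∃ N : ℕ, 0 < N ∧ (σ ^ N) a = a := by
  have hfin : ((minpoly ℚ a).rootSet Qb).Finite := Polynomial.rootSet_finite _ _
  have hint : IsIntegral ℚ a := (AlgebraicClosure.isAlgebraic ℚ).isIntegral.isIntegral a
  have hmem : ∀ k : ℕ, (σ ^ k) a ∈ (minpoly ℚ a).rootSet Qb := by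
    intro k
    rw [Polynomial.mem_rootSet]
    refine ⟨minpoly.ne_zero hint, ?_⟩
    rw [Polynomial.aeval_algHom_apply, minpoly.aeval, map_zero]
  have := hfin.to_subtype
  obtain ⟨i, j, hij, h⟩ := Finite.exists_ne_map_eq_of_infinite
    (fun k : ℕ => (⟨(σ ^ k) a, hmem k⟩ : (minpoly ℚ a).rootSet Qb))
  have h' : (σ ^ i) a = (σ ^ j) a := congrArg Subtype.val h
  have key : ∀ i j : ℕ, i < j → (σ ^ i) a = (σ ^ j) a → ∃ N : ℕ, 0 < N ∧ (σ ^ N) a = a := by
    intro i j hlt h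
    refine ⟨j - i, Nat.sub_pos_of_lt hlt, ?_⟩
    have e : σ ^ j = σ ^ i * σ ^ (j - i) := by
      rw [← pow_add, Nat.add_sub_cancel' hlt.le]
    rw [e, AlgEquiv.mul_apply] at h
    exact ((σ ^ i).injective h).symm
  rcases lt_or_gt_of_ne hij with hlt | hlt
  · exact key i j hlt h'
  · exact key j i hlt h'.symm

theorem TR1_prod (σ : GQ) {a : Qb} (ha : a ≠ 0) (n : ℕ) :
    (∏ k ∈ Finset.range n, (σ ^ k) (σ a / a)) * a = (σ ^ n) a := by
  induction n with
  | zero => simp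
  | succ n ih =>
    have h0 : (σ ^ n) a ≠ 0 := (_root_.map_ne_zero _).2 ha
    have e : (σ ^ n) (σ a / a) = (σ ^ (n + 1)) a / (σ ^ n) a := by
      rw [map_div₀, pow_succ, AlgEquiv.mul_apply]
    rw [Finset.prod_range_succ, mul_right_comm, ih, e, mul_div_cancel₀ _ h0]

theorem TR1_not_lt (A : ValuationSubring Qb) {σ : GQ} (hσ : σ ∈ A.inertiaSubgroupIn ℚ) {a : Qb}
    (ha : a ≠ 0) : ¬ A.valuation (σ a / a) < 1 := by
  intro hlt
  have hb : σ a / a ∈ A.nonunits := (A.mem_nonunits_iff).2 hlt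
  obtain ⟨N, hN, hNa⟩ := TR1_exists_pow σ a
  have h1 := TR1_prod σ ha N
  rw [hNa] at h1
  have h2 : ∏ k ∈ Finset.range N, (σ ^ k) (σ a / a) = 1 := by
    have : (∏ k ∈ Finset.range N, (σ ^ k) (σ a / a)) * a = 1 * a := by rw [h1, one_mul]
    exact mul_right_cancel₀ ha this
  have hk : ∀ k : ℕ, (σ ^ k) (σ a / a) ∈ A.nonunits := fun k =>
    TR1_nonunits ((A.inertiaSubgroupIn ℚ).pow_mem hσ k) hb
  obtain ⟨N', rfl⟩ : ∃ N', N = N' + 1 := ⟨N - 1, by omega⟩
  rw [Finset.prod_range_succ] at h2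
  have h3 : (∏ k ∈ Finset.range N', (σ ^ k) (σ a / a)) * (σ ^ N') (σ a / a) ∈ A.nonunits :=
    K0d_nonunits_mul (prod_mem fun k _ => A.nonunits_subset (hk k)) (hk N')
  rw [h2, A.mem_nonunits_iff, map_one] at h3
  exact lt_irrefl _ h3

/-- inertia preserves the valuation -/
theorem val_inertia (A : ValuationSubring Qb) {σ : GQ} (hσ : σ ∈ A.inertiaSubgroupIn ℚ) (a : Qb) :
    A.valuation (σ a) = A.valuation a := by
  by_cases ha : a = 0
  · rw [ha, map_zero]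
  have h1 := TR1_not_lt A hσ ha
  have h2 := TR1_not_lt A hσ (inv_ne_zero ha)
  have hv : A.valuation a ≠ 0 := (Valuation.ne_zero_iff _).mpr ha
  have hv' : A.valuation (σ a) ≠ 0 := (Valuation.ne_zero_iff _).mpr ((_root_.map_ne_zero _).2 ha)
  rw [map_div₀, not_lt] at h1 h2
  rw [map_inv₀, map_inv₀, map_inv₀, div_inv_eq_mul, mul_comm, ← div_eq_mul_inv] at h2
  apply le_antisymm
  · exact (one_le_div₀ (zero_lt_iff.2 hv')).1 h2
  · exact (one_le_div₀ (zero_lt_iff.2 hv)).1 h1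

theorem TR1_pow_mod {p : ℕ} {ζ : Qb} (hζ : ζ ^ p = 1) (m : ℕ) : ζ ^ (m % p) = ζ ^ m := by
  conv_rhs => rw [← Nat.div_add_mod m p, pow_add, pow_mul, hζ, one_pow, one_mul]

/-- the value group of `K1 = K0(ζ)` -/
theorem val_of_fixed (A : ValuationSubring Qb) {p : ℕ} (hp : p.Prime) (hA : A.LiesOverPrime p)
    {ζ : Qb} (hζ : IsPrimitiveRoot ζ p) {a : Qb} (ha0 : a ≠ 0)
    (ha : ∀ σ ∈ A.inertiaSubgroupIn ℚ, σ ζ = ζ → σ a = a) :
    ∃ m : ℤ, A.valuation a = A.valuation (ζ - 1) ^ m := by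
  classical
  have : Fact p.Prime := ⟨hp⟩
  have : NeZero p := ⟨hp.ne_zero⟩
  have hex : ∀ j : (ZMod p)ˣ, ∃ σ ∈ A.inertiaSubgroupIn ℚ, σ ζ = ζ ^ (j : ZMod p).val := by
    intro j
    apply exists_inertia_zeta A hp hA hζ
    intro hdvd
    have h0 : ((j : ZMod p).val : ZMod p) = 0 := (ZMod.natCast_eq_zero_iff _ _).2 hdvd
    rw [ZMod.natCast_zmod_val] at h0
    exact j.ne_zero h0
  choose s hsI hsζ using hex
  set N : Qb := ∏ j : (ZMod p)ˣ, s j a with hN
  have hN0 : N ≠ 0 := Finset.prod_ne_zero_iff.2 fun j _ => (_root_.map_ne_zero _).2 ha0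
  have hNK : N ∈ K0 A := by
    rw [mem_K0_iff]
    intro ρ hρ
    set c : (ZMod p)ˣ := hζ.autToPow ℚ ρ with hc
    have hρζ : ρ ζ = ζ ^ (c : ZMod p).val := (hζ.autToPow_spec ℚ ρ).symm
    have hstep : ∀ j : (ZMod p)ˣ, ρ (s j a) = s (c * j) a := by
      intro j
      have h1 : ((s (c * j))⁻¹ * (ρ * s j)) ∈ A.inertiaSubgroupIn ℚ :=
        (A.inertiaSubgroupIn ℚ).mul_mem ((A.inertiaSubgroupIn ℚ).inv_mem (hsI _))
          ((A.inertiaSubgroupIn ℚ).mul_mem hρ (hsI _))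
      have h2 : (ρ * s j) ζ = s (c * j) ζ := by
        rw [AlgEquiv.mul_apply, hsζ, hsζ, map_pow, hρζ, ← pow_mul, Units.val_mul, ZMod.val_mul,
          TR1_pow_mod hζ.pow_eq_one]
      have h3 : ((s (c * j))⁻¹ * (ρ * s j)) ζ = ζ := by
        rw [AlgEquiv.mul_apply, h2]
        exact (s (c * j)).symm_apply_apply ζ
      have h4 := ha _ h1 h3
      rw [AlgEquiv.mul_apply] at h4
      have h5 := congrArg (s (c * j)) h4
      rw [AlgEquiv.mul_apply] at h5
      rw [← h5]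
      exact ((s (c * j)).apply_symm_apply _).symm
    rw [hN, map_prod]
    rw [Finset.prod_congr rfl fun j _ => hstep j]
    exact Fintype.prod_equiv (Equiv.mulLeft c) _ _ (fun j => rfl)
  obtain ⟨m, u, -, hu, hNu⟩ := exists_zpow_mul_unit A hp hA hNK hN0
  have hu0 : u ≠ 0 := by
    rintro rfl
    rw [mul_zero] at hNu
    exact hN0 hNu
  have hv1 : A.valuation N = A.valuation a ^ (p - 1) := by
    rw [hN, map_prod, Finset.prod_congr rfl fun j _ => val_inertia A (hsI j) a, Finset.prod_const,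
      Finset.card_univ, ZMod.card_units]
  have hv2 : A.valuation N = (A.valuation (ζ - 1) ^ m) ^ (p - 1) := by
    rw [hNu, map_mul, K0d_val_unit hu hu0, mul_one, map_zpow₀, ← K0d_val_zeta A hp hζ,
      ← zpow_natCast, ← zpow_natCast, ← zpow_mul, ← zpow_mul, mul_comm]
  refine ⟨m, ?_⟩
  have hp1 : p - 1 ≠ 0 := by have := hp.two_le; omega
  rw [← pow_left_inj₀ zero_le zero_le hp1, ← hv1, hv2]

end Fermat.Agent.S40Lib
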