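import Fermat.Agent.S40.TR2

/-!
# S40 block (E), (TR3): the bound `v(τ c - c) ≥ v(c) + v(ζ - 1)` on `K1(ϖ)`
-/

set_option autoImplicit false

namespace Fermat.Agent.S40Lib

open Polynomial
open Fermat.Agent.S36Lib

local notation "Qb" => AlgebraicClosure ℚ
local notation "GQ" => (AlgebraicClosure ℚ ≃ₐ[ℚ] AlgebraicClosure ℚ)

section TR

variable (A : ValuationSubring Qb) {p : ℕ} (hp : p.Prime) (hA : A.LiesOverPrime p)
  {ζ ϖ u : Qb} {n : ℤ} (hζ : IsPrimitiveRoot ζ p) (hu0 : u ≠ 0) (hu : IsU A u)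
  (hfix : ∀ σ ∈ A.inertiaSubgroupIn ℚ, σ ζ = ζ → σ u = u) (hϖ : ϖ ^ p = (ζ - 1) ^ n * u)
  (hn : ¬ (p : ℤ) ∣ n)

/-! ## (TR3) `S40/TR3.lean` -/

include hp hA hζ hu0 hu hϖ in
/-- the value of a term -/
theorem TR3_val {a : Qb} (ha0 : a ≠ 0)
    (ha : ∀ σ ∈ A.inertiaSubgroupIn ℚ, σ ζ = ζ → σ a = a) (k : ℕ) :
    ∃ m : ℤ, A.valuation (a * ϖ ^ k) ^ p = A.valuation (ζ - 1) ^ ((p : ℤ) * m + (k : ℤ) * n) := by
  obtain ⟨m, hm⟩ := val_of_fixed A hp hA hζ ha0 ha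
  have hl0 : ζ - 1 ≠ 0 := hζ.sub_one_ne_zero hp.one_lt
  have hv0 : A.valuation (ζ - 1) ≠ 0 := (Valuation.ne_zero_iff _).2 hl0
  have h1 : A.valuation ϖ ^ p = A.valuation (ζ - 1) ^ n := by
    rw [← map_pow, hϖ, map_mul, map_zpow₀, K0d_val_unit hu hu0, mul_one]
  refine ⟨m, ?_⟩
  rw [map_mul, map_pow, mul_pow, ← pow_mul, mul_comm k p, pow_mul, h1, hm, zpow_add₀ hv0,
    mul_comm (p : ℤ) m, zpow_mul, zpow_natCast, mul_comm (k : ℤ) n, zpow_mul, zpow_natCast]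

include hp hA hζ hu0 hu hϖ hn in
/-- the values of the terms are pairwise distinct, so the sum is dominated by no term -/
theorem val_term_le (a : ℕ → Qb)
    (ha : ∀ k, ∀ σ ∈ A.inertiaSubgroupIn ℚ, σ ζ = ζ → σ (a k) = a k) (k : ℕ) (hk : k < p) :
    A.valuation (a k * ϖ ^ k) ≤ A.valuation (∑ k ∈ Finset.range p, a k * ϖ ^ k) := by
  classical
  have hl0 : ζ - 1 ≠ 0 := hζ.sub_one_ne_zero hp.one_lt
  have hv0 : 0 < A.valuation (ζ - 1) := zero_lt_iff.2 ((Valuation.ne_zero_iff _).2 hl0)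
  have hv1 : A.valuation (ζ - 1) < 1 :=
    (A.mem_nonunits_iff).1 (K0d_zeta_sub_one_mem A hp hA hζ)
  obtain ⟨j, hjm, hj⟩ := Finset.exists_max_image (Finset.range p)
    (fun i : ℕ => A.valuation (a i * ϖ ^ i)) ⟨k, Finset.mem_range.2 hk⟩
  by_cases hjpos : A.valuation (a j * ϖ ^ j) = 0
  · have h1 := hj k (Finset.mem_range.2 hk)
    simp only [hjpos] at h1
    exact h1.trans zero_le
  have hcj : a j ≠ 0 := by
    intro h0
    apply hjpos
    rw [h0, zero_mul, map_zero]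
  have hsum : A.valuation (∑ k ∈ Finset.range p, a k * ϖ ^ k) = A.valuation (a j * ϖ ^ j) := by
    apply Valuation.map_sum_eq_of_lt _ hjm
    intro i hi
    have hij : i ≠ j := by
      intro h
      simp [h] at hi
    have him : i ∈ Finset.range p := (Finset.mem_sdiff.1 hi).1
    refine lt_of_le_of_ne (hj i him) ?_
    intro heq
    by_cases hci : a i = 0
    · apply hjpos
      rw [← heq, hci, zero_mul, map_zero]
    obtain ⟨m, hm⟩ := TR3_val A hp hA hζ hu0 hu hϖ hci (ha i) i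
    obtain ⟨m', hm'⟩ := TR3_val A hp hA hζ hu0 hu hϖ hcj (ha j) j
    rw [heq, hm'] at hm
    have h3 := zpow_right_injective₀ hv0 hv1.ne hm
    have hi' := Finset.mem_range.1 him
    have hj' := Finset.mem_range.1 hjm
    have h4 : (p : ℤ) ∣ ((i : ℤ) - (j : ℤ)) * n := ⟨m' - m, by linarith⟩
    have hpp : Prime (p : ℤ) := Nat.prime_iff_prime_int.1 hp
    have h5 : (p : ℤ) ∣ (i : ℤ) - (j : ℤ) := (hpp.dvd_or_dvd h4).resolve_right hn
    apply hij
    obtain ⟨t, ht⟩ := h5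
    have ht0 : t = 0 := by
      by_contra hne
      have h6 : (1 : ℤ) ≤ |t| := Int.one_le_abs hne
      have h7 : |(i : ℤ) - (j : ℤ)| = (p : ℤ) * |t| := by
        rw [ht, abs_mul, abs_of_nonneg (Int.natCast_nonneg _)]
      have h8 : |(i : ℤ) - (j : ℤ)| < (p : ℤ) := by
        rw [abs_lt]
        constructor <;> omega
      rw [h7] at h8
      nlinarith [Int.natCast_nonneg p]
    rw [ht0, mul_zero] at ht
    omega
  rw [hsum]
  exact hj k (Finset.mem_range.2 hk)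

include hp hζ in
theorem TR3_val_pow_sub_one (m : ℕ) : A.valuation (ζ ^ m - 1) ≤ A.valuation (ζ - 1) := by
  rw [← geom_sum_mul, map_mul]
  apply mul_le_of_le_one_left'
  rw [A.valuation_le_one_iff]
  exact sum_mem fun i _ => pow_mem (K0d_zeta_mem A hp hζ) i

include hp hA hζ hu0 hu hfix hϖ hn in
/-- **(TR)** -/
theorem tr_bound {τ : GQ} (hτ : τ ∈ A.inertiaSubgroupIn ℚ) (hτζ : τ ζ = ζ) {c : Qb}
    (hc : ∀ σ ∈ A.inertiaSubgroupIn ℚ, σ ζ = ζ → σ ϖ = ϖ → σ c = c) :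
    A.valuation (τ c - c) ≤ A.valuation c * A.valuation (ζ - 1) := by
  obtain ⟨a, ha, hca⟩ := exists_expansion_varpi A hp hA hζ hu0 hu hfix hϖ hn hc
  obtain ⟨i, -, hi⟩ := exists_kummer_exp A hp hζ hfix hϖ hτ hτζ
  have h1 : τ c - c = ∑ k ∈ Finset.range p, (a k * ϖ ^ k) * (ζ ^ (i * k) - 1) := by
    conv_lhs => rw [hca]
    rw [map_sum, ← Finset.sum_sub_distrib]
    refine Finset.sum_congr rfl fun k _ => ?_
    rw [map_mul, map_pow, ha k τ hτ hτζ, hi, mul_pow, ← pow_mul]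
    ring
  rw [h1]
  apply Valuation.map_sum_le
  intro k hk
  rw [map_mul]
  refine mul_le_mul' ?_ (TR3_val_pow_sub_one A hp hζ _)
  conv_rhs => rw [hca]
  exact val_term_le A hp hA hζ hu0 hu hϖ hn a ha k (Finset.mem_range.1 hk)

end TR

end Fermat.Agent.S40Lib
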