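import Fermat.Agent.S40.LocLine
import Fermat.Agent.S40.TR3
import Fermat.Agent.S36.K0c

/-!
# S40 block (E), (L4): good reduction at `p` excludes "très ramifiée"
-/

set_option autoImplicit false

namespace Fermat.Agent.S40Lib

open WeierstrassCurve WeierstrassCurve.Affine Polynomial
open Fermat.Agent.S05Lib Fermat.Agent.S13Lib Fermat.Agent.S36Lib

local notation "Qb" => AlgebraicClosure ℚ
local notation "GQ" => (AlgebraicClosure ℚ ≃ₐ[ℚ] AlgebraicClosure ℚ)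

theorem L4_absA {Γ : Type*} [LinearOrderedCommGroupWithZero Γ] {b ξ l cc y₂ : Γ} (hξ : 1 < ξ)
    (h1 : b * ξ ^ 2 = y₂) (h2 : y₂ ^ 2 = ξ ^ 3) (h3 : b ≤ cc * l) (h4 : cc < 1) (hl : l ≠ 0)
    (h5 : ξ * l ^ 2 ≤ 1) : False := by
  have hξ0 : ξ ≠ 0 := ne_of_gt (lt_trans zero_lt_one hξ)
  have e1 : b ^ 2 * ξ = 1 := by
    apply mul_right_cancel₀ (pow_ne_zero 3 hξ0)
    calc b ^ 2 * ξ * ξ ^ 3 = (b * ξ ^ 2) ^ 2 := by
          simp only [pow_succ, pow_zero, one_mul]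
          ac_rfl
      _ = y₂ ^ 2 := by rw [h1]
      _ = ξ ^ 3 := h2
      _ = 1 * ξ ^ 3 := (one_mul _).symm
  have hbl : b < l := lt_of_le_of_lt h3 (by
    calc cc * l < 1 * l := mul_lt_mul_of_pos_right h4 (zero_lt_iff.mpr hl)
      _ = l := one_mul l)
  have h6 : b ^ 2 < l ^ 2 := pow_lt_pow_left₀ hbl zero_le two_ne_zero
  have h7 : b ^ 2 * ξ < l ^ 2 * ξ := mul_lt_mul_of_pos_right h6 (zero_lt_iff.mpr hξ0)
  rw [e1, mul_comm] at h7
  exact absurd h5 (not_le.mpr h7)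

theorem L4_absB {Γ : Type*} [LinearOrderedCommGroupWithZero Γ] {a b d ξ ξ₁ l y₁ y₂ : Γ}
    (hξ : 1 < ξ) (hξ₁ : 1 < ξ₁) (h1 : b * d ^ 2 = y₁ * y₂) (h2 : y₁ ^ 2 = ξ₁ ^ 3)
    (h3 : y₂ ^ 2 = ξ ^ 3) (h4 : ξ₁ ^ 2 * d ^ 2 = (ξ₁ * ξ) ^ 2) (h5 : a * ξ₁ ^ 2 = b)
    (h6 : a ≤ ξ₁⁻¹ * l) (h7 : ξ * l ^ 2 ≤ 1) : False := by
  have hξ0 : ξ ≠ 0 := ne_of_gt (lt_trans zero_lt_one hξ)
  have hξ₁0 : ξ₁ ≠ 0 := ne_of_gt (lt_trans zero_lt_one hξ₁)
  have hd : d ^ 2 = ξ ^ 2 := by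
    apply mul_left_cancel₀ (pow_ne_zero 2 hξ₁0)
    rw [h4, mul_pow]
  rw [hd] at h1
  have e1 : b ^ 2 * ξ = ξ₁ ^ 3 := by
    apply mul_right_cancel₀ (pow_ne_zero 3 hξ0)
    calc b ^ 2 * ξ * ξ ^ 3 = (b * ξ ^ 2) ^ 2 := by
          simp only [pow_succ, pow_zero, one_mul]
          ac_rfl
      _ = y₁ ^ 2 * y₂ ^ 2 := by rw [h1, mul_pow]
      _ = ξ₁ ^ 3 * ξ ^ 3 := by rw [h2, h3]
  have e2 : a ^ 2 * ξ₁ * ξ = 1 := by
    apply mul_right_cancel₀ (pow_ne_zero 3 hξ₁0)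
    calc a ^ 2 * ξ₁ * ξ * ξ₁ ^ 3 = (a * ξ₁ ^ 2) ^ 2 * ξ := by
          simp only [pow_succ, pow_zero, one_mul]
          ac_rfl
      _ = b ^ 2 * ξ := by rw [h5]
      _ = ξ₁ ^ 3 := e1
      _ = 1 * ξ₁ ^ 3 := (one_mul _).symm
  have h8 : a * ξ₁ ≤ l := by
    calc a * ξ₁ ≤ ξ₁⁻¹ * l * ξ₁ := mul_le_mul_left h6 ξ₁
      _ = l := by rw [mul_comm, ← mul_assoc, mul_inv_cancel₀ hξ₁0, one_mul]
  have h9 : (a * ξ₁) ^ 2 ≤ l ^ 2 := pow_le_pow_left₀ zero_le h8 2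
  have h10 : (a * ξ₁) ^ 2 * ξ ≤ l ^ 2 * ξ := mul_le_mul_left h9 ξ
  have e3 : (a * ξ₁) ^ 2 * ξ = ξ₁ := by
    calc (a * ξ₁) ^ 2 * ξ = (a ^ 2 * ξ₁ * ξ) * ξ₁ := by
          simp only [pow_succ, pow_zero, one_mul]
          ac_rfl
      _ = ξ₁ := by rw [e2, one_mul]
  rw [e3, mul_comm] at h10
  exact absurd (h10.trans h7) (not_le.mpr hξ₁)

theorem L4_val_Y {K : Type} [Field K] (A : ValuationSubring K) {a₂ a₄ X Y : K} (ha₂ : a₂ ∈ A)
    (ha₄ : a₄ ∈ A) (e : Y ^ 2 = X ^ 3 + a₂ * X ^ 2 + a₄ * X) (hX : 1 < A.valuation X) :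
    A.valuation Y ^ 2 = A.valuation X ^ 3 := by
  rw [← map_pow, e, ← map_pow, add_assoc]
  apply Valuation.map_add_eq_of_lt_left
  have h2 : A.valuation a₂ ≤ 1 := (A.valuation_le_one_iff _).mpr ha₂
  have h4 : A.valuation a₄ ≤ 1 := (A.valuation_le_one_iff _).mpr ha₄
  refine lt_of_le_of_lt (Valuation.map_add _ _ _) (max_lt ?_ ?_)
  · rw [map_mul, map_pow, map_pow]
    calc A.valuation a₂ * A.valuation X ^ 2 ≤ 1 * A.valuation X ^ 2 := mul_le_mul' h2 le_rfl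
      _ = A.valuation X ^ 2 := one_mul _
      _ < A.valuation X ^ 3 := pow_lt_pow_right₀ hX (by norm_num)
  · rw [map_mul, map_pow]
    calc A.valuation a₄ * A.valuation X ≤ 1 * A.valuation X := mul_le_mul' h4 le_rfl
      _ = A.valuation X ^ 1 := by rw [one_mul, pow_one]
      _ < A.valuation X ^ 3 := pow_lt_pow_right₀ hX (by norm_num)

theorem L4_val_eq_one {K : Type} [Field K] (A : ValuationSubring K) {x : K} (h1 : x ∈ A)
    (h2 : x ∉ A.nonunits) : A.valuation x = 1 := by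
  rw [ValuationSubring.mem_nonunits_iff, not_lt] at h2
  exact le_antisymm ((A.valuation_le_one_iff _).mpr h1) h2

section LocQ

variable (A : ValuationSubring Qb) {p : ℕ} (hp : p.Prime) (hp2 : p ≠ 2) (hA : A.LiesOverPrime p)
  {G : Type} [AddCommGroup G] {a₂ a₄ : Qb} (M : XYModel Qb G a₂ a₄) (ha₂ : a₂ ∈ A) (ha₄ : a₄ ∈ A)
  (hgood : a₄ * (a₂ ^ 2 - 4 * a₄) ∉ A.nonunits) (act : GQ → G →+ G)
  (hact : ∀ σ ∈ A.inertiaSubgroupIn ℚ, ∀ (P : G) (X Y : Qb), M.co P = some (X, Y) →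
    M.co (act σ P) = some (σ X, σ Y))

/-! ### (L4) `S40/LocTres.lean` -/

include hp hp2 hA ha₂ ha₄ hgood hact in
/-- **good reduction at `p` excludes très ramifiée** -/
theorem not_isTres_model (x y : G) (hx : p • x = 0) (hy : p • y = 0) : ¬ IsTres A p act x y := by
  rintro ⟨ζ, ϖ, u, n, hζ, hu0, hu, hfix, hϖ, hn, hy0, hχ, hκ⟩
  obtain ⟨k, hk⟩ := hp.eq_two_or_odd'.resolve_left hp2
  have h2 := L3_two A hk hA
  obtain ⟨τ, hτ, hτζ, hτϖ⟩ := exists_tau A hp hA hζ hu0 hu hfix hϖ hn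
  have hτy : act τ y = y := by
    have := hχ τ hτ 1 (by rw [pow_one]; exact hτζ)
    rwa [one_smul] at this
  have hτx : act τ x = x + y := by
    have := hκ τ hτ hτζ 1 (by rw [pow_one]; exact hτϖ)
    rwa [one_smul] at this
  have hx0 : x ≠ 0 := by
    rintro rfl
    rw [map_zero, zero_add] at hτx
    exact hy0 hτx.symm
  obtain ⟨X₁, Y₁, hcx⟩ := M.exists_co_of_ne_zero hx0
  obtain ⟨X₂, Y₂, hcy⟩ := M.exists_co_of_ne_zero hy0
  have hXne : X₁ ≠ X₂ := by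
    rintro rfl
    rcases M.eq_or_eq_neg hcx hcy with h | h
    · rw [h, hτy] at hτx
      exact hy0 (left_eq_add.mp hτx)
    · rw [h, map_neg, hτy] at hτx
      exact hy0 (left_eq_add.mp hτx)
  obtain ⟨T₁, T₂, Z₁, Z₂, hadd, hsub, -, hprod⟩ := M.co_add_sub hcx hcy hXne
  obtain ⟨Z₁', hadd'⟩ := M.co_add hcx hcy hXne
  obtain ⟨Z₂', hsub'⟩ := M.co_sub hcx hcy hXne
  have hT₁ : T₁ = ((Y₁ - Y₂) / (X₁ - X₂)) ^ 2 - a₂ - X₁ - X₂ := by
    rw [hadd] at hadd'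
    simp only [Option.some.injEq, Prod.mk.injEq] at hadd'
    exact hadd'.1
  have hT₂ : T₂ = ((Y₁ + Y₂) / (X₁ - X₂)) ^ 2 - a₂ - X₁ - X₂ := by
    rw [hsub] at hsub'
    simp only [Option.some.injEq, Prod.mk.injEq] at hsub'
    exact hsub'.1
  have hd0 : X₁ - X₂ ≠ 0 := sub_ne_zero.mpr hXne
  have hdiff : (T₁ - T₂) * (X₁ - X₂) ^ 2 = -(4 * (Y₁ * Y₂)) := by
    rw [hT₁, hT₂]
    field_simp
    ring
  have h1 : τ T₂ = X₁ := by
    have := hact τ hτ (x - y) T₂ Z₂ hsub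
    rw [map_sub, hτx, hτy, add_sub_cancel_right, hcx] at this
    simp only [Option.some.injEq, Prod.mk.injEq] at this
    exact this.1.symm
  have h1' : τ X₁ = T₁ := by
    have := hact τ hτ x X₁ Y₁ hcx
    rw [hτx, hadd] at this
    simp only [Option.some.injEq, Prod.mk.injEq] at this
    exact this.1.symm
  have hc : ∀ σ ∈ A.inertiaSubgroupIn ℚ, σ ζ = ζ → σ ϖ = ϖ → σ T₂ = T₂ := by
    intro σ hσ hσζ hσϖ
    have e1 : act σ x = x := by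
      have := hκ σ hσ hσζ 0 (by rw [pow_zero, one_mul]; exact hσϖ)
      rwa [zero_smul, add_zero] at this
    have e2 : act σ y = y := by
      have := hχ σ hσ 1 (by rw [pow_one]; exact hσζ)
      rwa [one_smul] at this
    have := hact σ hσ (x - y) T₂ Z₂ hsub
    rw [map_sub, e1, e2, hsub] at this
    simp only [Option.some.injEq, Prod.mk.injEq] at this
    exact this.1.symm
  obtain ⟨hX₂, hle⟩ := val_X_le A hp hp2 hA M ha₂ ha₄ hgood act hact hζ hcy hy hχ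
  have hξ := (L1_not_mem_iff A).mp hX₂
  have hl0 : A.valuation (ζ - 1) ≠ 0 :=
    (Valuation.ne_zero_iff _).mpr (hζ.sub_one_ne_zero hp.one_lt)
  have hv2 : A.valuation (2 : Qb) = 1 :=
    L4_val_eq_one A (by exact_mod_cast natCast_mem A 2) h2
  have hv4 : A.valuation (4 : Qb) = 1 := by
    have : (4 : Qb) = 2 * 2 := by norm_num
    rw [this, map_mul, hv2, one_mul]
  have hy₂ := L4_val_Y A ha₂ ha₄ (M.eqn hcy) hξ
  have hττ : τ * τ ∈ A.inertiaSubgroupIn ℚ := mul_mem hτ hτ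
  have hττζ : (τ * τ) ζ = ζ := by rw [AlgEquiv.mul_apply, hτζ, hτζ]
  have hττT : (τ * τ) T₂ = T₁ := by rw [AlgEquiv.mul_apply, h1, h1']
  have hb : A.valuation (T₁ - T₂) * A.valuation (X₁ - X₂) ^ 2 =
      A.valuation Y₁ * A.valuation Y₂ := by
    rw [← map_pow, ← map_mul, hdiff, Valuation.map_neg, map_mul, map_mul, hv4, one_mul]
  by_cases hX₁ : X₁ ∈ A
  · obtain ⟨hY₁, hY₁u⟩ := Y_not_mem_nonunits A M ha₂ ha₄ h2 hgood hcx hX₁ k (hk ▸ hx)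
    have hvY₁ := L4_val_eq_one A hY₁ hY₁u
    have hT₂A : T₂ ∈ A := by
      rw [← A.valuation_le_one_iff, ← val_inertia A hτ T₂, h1]
      exact (A.valuation_le_one_iff _).mpr hX₁
    obtain ⟨x₀, hx₀K, hx₀A, hx₀⟩ := exists_K0_residue A hp hA hT₂A
    have htr := tr_bound A hp hA hζ hu0 hu hfix hϖ hn hττ hττζ (c := T₂ - x₀) (by
      intro σ hσ h3 h4
      rw [map_sub, hc σ hσ h3 h4, mem_K0_iff.mp hx₀K σ hσ])
    have e0 : (τ * τ) (T₂ - x₀) - (T₂ - x₀) = T₁ - T₂ := by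
      rw [map_sub, hττT, mem_K0_iff.mp hx₀K _ hττ]
      ring
    rw [e0] at htr
    have hd : A.valuation (X₁ - X₂) = A.valuation X₂ :=
      Valuation.map_sub_eq_of_lt_right _
        (lt_of_le_of_lt ((A.valuation_le_one_iff _).mpr hX₁) hξ)
    exact L4_absA hξ (by rw [← hd, hb, hvY₁, one_mul]) hy₂ htr
      ((ValuationSubring.mem_nonunits_iff A).mp hx₀) hl0 hle
  · have hξ₁ := (L1_not_mem_iff A).mp hX₁
    have hy₁ := L4_val_Y A ha₂ ha₄ (M.eqn hcx) hξ₁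
    have hvT₂ : A.valuation T₂ = A.valuation X₁ := by rw [← h1, val_inertia A hτ]
    have hvT₁ : A.valuation T₁ = A.valuation X₁ := by rw [← h1', val_inertia A hτ]
    have hX₁0 : A.valuation X₁ ≠ 0 := ne_of_gt (lt_trans zero_lt_one hξ₁)
    have hT₁0 : T₁ ≠ 0 := (Valuation.ne_zero_iff _).mp (by rw [hvT₁]; exact hX₁0)
    have hT₂0 : T₂ ≠ 0 := (Valuation.ne_zero_iff _).mp (by rw [hvT₂]; exact hX₁0)
    have htr := tr_bound A hp hA hζ hu0 hu hfix hϖ hn hττ hττζ (c := T₂⁻¹) (by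
      intro σ hσ h3 h4
      rw [map_inv₀, hc σ hσ h3 h4])
    have e0 : (τ * τ) T₂⁻¹ = T₁⁻¹ := by rw [map_inv₀, hττT]
    rw [e0, map_inv₀, hvT₂] at htr
    have h4 : A.valuation X₁ ^ 2 * A.valuation (X₁ - X₂) ^ 2 =
        (A.valuation X₁ * A.valuation X₂) ^ 2 := by
      have e1 : T₁ * T₂ * (X₁ - X₂) ^ 2 = (X₁ * X₂ - a₄) ^ 2 := by
        rw [hprod]
        field_simp
      have e2 : A.valuation (X₁ * X₂ - a₄) = A.valuation X₁ * A.valuation X₂ := by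
        rw [← map_mul]
        apply Valuation.map_sub_eq_of_lt_left
        rw [map_mul]
        exact lt_of_le_of_lt ((A.valuation_le_one_iff _).mpr ha₄) (one_lt_mul'' hξ₁ hξ)
      have e3 := congrArg A.valuation e1
      rw [map_mul, map_mul, map_pow, map_pow, hvT₁, hvT₂, e2] at e3
      rw [← e3, sq (A.valuation X₁)]
    have h5 : A.valuation (T₁⁻¹ - T₂⁻¹) * A.valuation X₁ ^ 2 = A.valuation (T₁ - T₂) := by
      have e1 : (T₁⁻¹ - T₂⁻¹) * (T₁ * T₂) = T₂ - T₁ := by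
        field_simp
      rw [Valuation.map_sub_swap _ T₁ T₂, ← e1, map_mul, map_mul, hvT₁, hvT₂, sq]
    exact L4_absB hξ hξ₁ hb hy₁ hy₂ h4 h5 htr hle

end LocQ

end Fermat.Agent.S40Lib
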