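import Fermat.Agent.S40.LocMult

/-!
# S40 block (E), (L2): an integral point of odd order does not reduce to a point of order 2
-/

set_option autoImplicit false

namespace Fermat.Agent.S40Lib

open WeierstrassCurve WeierstrassCurve.Affine Polynomial
open Fermat.Agent.S05Lib Fermat.Agent.S13Lib Fermat.Agent.S36Lib

section Val

variable {K : Type} [Field K] (A : ValuationSubring K)

theorem L2_nonunits_add {x y : K} (hx : x ∈ A.nonunits) (hy : y ∈ A.nonunits) :
    x + y ∈ A.nonunits := by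
  rw [ValuationSubring.mem_nonunits_iff] at *
  exact A.valuation.map_add_lt hx hy

theorem L2_nonunits_neg {x : K} (hx : x ∈ A.nonunits) : -x ∈ A.nonunits := by
  rw [ValuationSubring.mem_nonunits_iff] at *
  rwa [Valuation.map_neg]

theorem L2_nonunits_mul {x y : K} (hx : x ∈ A) (hy : y ∈ A.nonunits) : x * y ∈ A.nonunits := by
  rw [ValuationSubring.mem_nonunits_iff] at *
  rw [map_mul]
  exact lt_of_le_of_lt (mul_le_of_le_one_left' ((A.valuation_le_one_iff x).mpr hx)) hy

theorem L2_nonunits_of_mul {x y : K} (h : x * y ∈ A.nonunits) :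
    x ∈ A.nonunits ∨ y ∈ A.nonunits := by
  simp only [ValuationSubring.mem_nonunits_iff] at *
  by_contra hcon
  push Not at hcon
  rw [map_mul] at h
  exact absurd (one_le_mul_of_one_le_of_one_le hcon.1 hcon.2) (not_le.mpr h)

theorem L2_nonunits_of_pow {x : K} {n : ℕ} (h : x ^ n ∈ A.nonunits) : x ∈ A.nonunits := by
  rw [ValuationSubring.mem_nonunits_iff] at *
  by_contra hcon
  rw [not_lt] at hcon
  rw [map_pow] at h
  exact absurd (one_le_pow₀ hcon) (not_le.mpr h)

theorem L2_mem_of_sq_mem {x : K} (h : x ^ 2 ∈ A) : x ∈ A := by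
  rw [← A.valuation_le_one_iff] at *
  rw [map_pow] at h
  by_contra hcon
  rw [not_le] at hcon
  exact absurd (one_lt_pow₀ hcon two_ne_zero) (not_lt.mpr h)

theorem L2_zero_mem_nonunits : (0 : K) ∈ A.nonunits := by
  rw [ValuationSubring.mem_nonunits_iff, map_zero]
  exact zero_lt_one

end Val

section Loc

variable {K : Type} [Field K] (A : ValuationSubring K) {G : Type} [AddCommGroup G] {a₂ a₄ : K}
  (M : XYModel K G a₂ a₄) (ha₂ : a₂ ∈ A) (ha₄ : a₄ ∈ A)

/-! ### (L2) `S40/LocUnit.lean` -/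

include ha₂ ha₄ in
/-- an integral point of odd order does not reduce to a point of order 2 -/
theorem Y_not_mem_nonunits (h2 : (2 : K) ∉ A.nonunits)
    (hgood : a₄ * (a₂ ^ 2 - 4 * a₄) ∉ A.nonunits)
    {P : G} {X Y : K} (hP : M.co P = some (X, Y)) (hX : X ∈ A) (k : ℕ)
    (hPk : (2 * k + 1) • P = 0) : Y ∈ A ∧ Y ∉ A.nonunits := by
  have e := M.eqn hP
  have hY : Y ∈ A := by
    apply L2_mem_of_sq_mem
    rw [e]
    exact A.add_mem _ _ (A.add_mem _ _ (pow_mem hX 3) (A.mul_mem _ _ ha₂ (pow_mem hX 2)))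
      (A.mul_mem _ _ ha₄ hX)
  refine ⟨hY, fun hYm => ?_⟩
  have h20 : (2 : K) ≠ 0 := fun h => h2 (h ▸ L2_zero_mem_nonunits A)
  have h4 : a₄ ≠ 0 := by
    rintro rfl
    apply hgood
    rw [zero_mul]
    exact L2_zero_mem_nonunits A
  have hd : a₂ ^ 2 - 4 * a₄ ≠ 0 := by
    intro h
    apply hgood
    rw [h, mul_zero]
    exact L2_zero_mem_nonunits A
  have hP0 := M.ne_zero_of_co hP
  have hY0 : Y ≠ 0 := by
    rintro rfl
    have h1 := M.add_self_eq_zero hP
    apply hP0
    have h3 : (2 * k + 1) • P = k • (P + P) + P := by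
      rw [add_smul, one_smul, mul_comm, mul_smul, two_smul]
    rw [h3, h1, smul_zero, zero_add] at hPk
    exact hPk
  have h4A : (4 : K) ∈ A := by
    have := natCast_mem A 4
    exact_mod_cast this
  have h2A : (2 : K) ∈ A := by
    have := natCast_mem A 2
    exact_mod_cast this
  -- `X² - a₄` is a unit
  have hU : X ^ 2 - a₄ ∉ A.nonunits := by
    intro hU
    have h1 : X * (X ^ 2 + a₂ * X + a₄) ∈ A.nonunits := by
      have : X * (X ^ 2 + a₂ * X + a₄) = Y * Y := by linear_combination -e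
      rw [this]
      exact L2_nonunits_mul A hY hYm
    rcases L2_nonunits_of_mul A h1 with h | h
    · -- `a₄ ∈ 𝔪`
      have h3 : a₄ ∈ A.nonunits := by
        have : a₄ = X * X + -(X ^ 2 - a₄) := by ring
        rw [this]
        exact L2_nonunits_add A (L2_nonunits_mul A hX h) (L2_nonunits_neg A hU)
      apply hgood
      rw [mul_comm]
      exact L2_nonunits_mul A (A.sub_mem (pow_mem ha₂ 2) (A.mul_mem _ _ h4A ha₄)) h3
    · apply hgood
      have h3 : a₂ * X + 2 * a₄ ∈ A.nonunits := by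
        have : a₂ * X + 2 * a₄ = (X ^ 2 + a₂ * X + a₄) + -(X ^ 2 - a₄) := by ring
        rw [this]
        exact L2_nonunits_add A h (L2_nonunits_neg A hU)
      have h5 : a₄ * (a₂ ^ 2 - 4 * a₄) =
          (a₂ * X - 2 * a₄) * (a₂ * X + 2 * a₄) + (-(a₂ ^ 2)) * (X ^ 2 - a₄) := by ring
      rw [h5]
      exact L2_nonunits_add A
        (L2_nonunits_mul A (A.sub_mem (A.mul_mem _ _ ha₂ hX) (A.mul_mem _ _ h2A ha₄)) h3)
        (L2_nonunits_mul A (A.neg_mem _ (pow_mem ha₂ 2)) hU)
  obtain ⟨Y₃, hdbl⟩ := M.co_dbl hP hY0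
  have hX2 : (X ^ 2 - a₄) ^ 2 / (4 * Y ^ 2) ∉ A := by
    intro hmem
    apply hU
    apply L2_nonunits_of_pow A (n := 2)
    have h40 : (4 : K) ≠ 0 := by
      have : (4 : K) = 2 * 2 := by norm_num
      rw [this]
      exact mul_ne_zero h20 h20
    have : (X ^ 2 - a₄) ^ 2 = ((X ^ 2 - a₄) ^ 2 / (4 * Y ^ 2) * (4 * Y)) * Y := by
      field_simp
    rw [this]
    exact L2_nonunits_mul A (A.mul_mem _ _ hmem (A.mul_mem _ _ h4A hY)) hYm
  have h6 : (k + 1) • (P + P) = P := by
    have : (k + 1) • (P + P) = (2 * k + 1) • P + P := by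
      rw [← two_smul ℕ P, ← mul_smul, ← succ_nsmul]
      congr 1
      ring
    rw [this, hPk, zero_add]
  exact X_nsmul_not_mem A M ha₂ ha₄ h20 h4 hd hdbl hX2 (k + 1) (h6 ▸ hP) hX

end Loc

end Fermat.Agent.S40Lib
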