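import Fermat.Agent.S40.TopDefs
import Fermat.Agent.S33.MTrunk
import Fermat.Agent.S35.NormRed

/-!
# S40 / S44, (NT): if the reduction of `x` on the branch `∞` is a `p`-th power and the norm of `x`
to level `M` is a `p`-th power, then the class of `x` lies in `T₁`
-/

set_option autoImplicit false
set_option synthInstance.maxHeartbeats 400000

open AlgebraicCurve ModularCurve

namespace Fermat.Agent.S40Lib

open Fermat.Agent.S18Lib Fermat.Agent.S24Lib Fermat.Agent.ESLib Fermat.Agent.S34Lib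
  Fermat.Agent.S33Lib Fermat.Agent.S36Lib Fermat.Agent.S35Lib

variable {M p : ℕ} [NeZero M] [NeZero p] [hpF : Fact p.Prime] {hpM : ¬ p ∣ M}
variable {A : ValuationSubring Qb}

/-- (NT), `RedG` form -/
theorem inT1_of_red_fst_pow (hA : A.LiesOverPrime p)
    {R : RedG A (IsLocalRing.residue A) (FB (p * M)) (FT A M × FT A M)}
    (hR : IsQRed2 M p hpM A R) (x : R.O) (h1 : (R.red x).1 ≠ 0) (h2 : (R.red x).2 ≠ 0)
    (nm1 : ∃ g : FB M, nrm (pi1 M p) (x : FB (p * M)) = g ^ p)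
    (hpow : ∃ g : FT A M, (R.red x).1 = g ^ p) : InT1 M p hpM A (x : FB (p * M)) := by
  have hp : p.Prime := hpF.out
  obtain ⟨z, hz⟩ := nm1
  obtain ⟨g₁, hg₁⟩ := hpow
  obtain ⟨e, he⟩ := HN_aux (hA := hA) hR p hp.pos (x : FB (p * M)) z hz 1 1 x one_ne_zero
    one_ne_zero (by simp)
  have hg₁0 : g₁ ≠ 0 := by
    rintro rfl
    rw [zero_pow hp.ne_zero] at hg₁
    exact h1 hg₁
  -- the second component is a `p`-th power
  have h3 : FrT M p A hA (R.red x).2 = (e * g₁⁻¹) ^ p := by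
    rw [mul_pow, ← he, hg₁, inv_pow]
    field_simp
  set g₂ : FT A M := (FrT M p A hA).symm (e * g₁⁻¹) with hg₂
  have h4 : (R.red x).2 = g₂ ^ p := by
    apply (FrT M p A hA).injective
    rw [h3, map_pow, hg₂, RingEquiv.apply_symm_apply]
  have hg₂0 : g₂ ≠ 0 := by
    intro h0
    rw [h0, zero_pow hp.ne_zero] at h4
    exact h2 h4
  obtain ⟨G, hG⟩ := R.red_surjective (g₁, g₂)
  have hGu : IsUnit (R.red G) := by
    rw [hG, Prod.isUnit_iff]
    exact ⟨isUnit_iff_ne_zero.2 hg₁0, isUnit_iff_ne_zero.2 hg₂0⟩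
  obtain ⟨u, hu⟩ := R.isUnit_of_red G hGu
  have hG0 : ((G : R.O) : FB (p * M)) ≠ 0 := by
    intro h0
    have : G = 0 := Subtype.ext h0
    rw [this, map_zero] at hGu
    exact not_isUnit_zero hGu
  -- `h = x * (G⁻¹) ^ p`
  set Gi : R.O := ((u⁻¹ : (R.O)ˣ) : R.O) with hGi
  have hGGi : G * Gi = 1 := by rw [← hu, hGi]; exact u.mul_inv
  have hred : R.red (x * Gi ^ p) = 1 := by
    have e1 : R.red G * R.red Gi = 1 := by rw [← map_mul, hGGi, map_one]
    have e2 : R.red x = R.red G ^ p := by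
      rw [hG]
      exact Prod.ext hg₁ h4
    rw [map_mul, map_pow, e2, ← mul_pow, e1, one_pow]
  obtain ⟨k1, k2⟩ := (mt_red_eq_one_iff hR ((x * Gi ^ p : R.O) : FB (p * M))).1
    ⟨(x * Gi ^ p : R.O).2, hred⟩
  refine ⟨(G : FB (p * M)), ((x * Gi ^ p : R.O) : FB (p * M)), hG0, ?_, k1, k2⟩
  have e3 : ((G : R.O) : FB (p * M)) * ((Gi : R.O) : FB (p * M)) = 1 := by
    have := congrArg (fun t : R.O => (t : FB (p * M))) hGGi
    simpa using this
  have e4 : ((x * Gi ^ p : R.O) : FB (p * M)) =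
      (x : FB (p * M)) * ((Gi : R.O) : FB (p * M)) ^ p := by simp
  rw [e4, mul_left_comm, ← mul_pow, e3, one_pow, mul_one]

/-- (NT), `q`-expansion form -/
theorem inT1_of_gRed_pow (hA : A.LiesOverPrime p) (x : FB (p * M))
    (x1 : IsGU A (x : LaurentSeries Qb))
    (x2 : IsGU A ((wq M p hpM x : FB (p * M)) : LaurentSeries Qb))
    (nm1 : ∃ g : FB M, nrm (pi1 M p) x = g ^ p)
    (hpow : ∃ g : FT A M, gRed A ⟨(x : LaurentSeries Qb), x1.1⟩ = (g : LaurentSeries (kk A)) ^ p) :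
    InT1 M p hpM A x := by
  obtain ⟨R, hR⟩ := exists_red2 M p hpM A hA
  have hx : x ∈ R.O := (hR.mem_iff x).2 ⟨x1.1, x2.1⟩
  obtain ⟨g, hg⟩ := hpow
  refine inT1_of_red_fst_pow hA hR ⟨x, hx⟩ ?_ ?_ nm1 ⟨g, ?_⟩
  · intro h0
    apply x1.2
    rw [← hR.red_fst ⟨x, hx⟩ x1.1, h0]
    rfl
  · intro h0
    apply x2.2
    rw [← hR.red_snd ⟨x, hx⟩ x2.1, h0]
    rfl
  · apply Subtype.ext
    rw [hR.red_fst ⟨x, hx⟩ x1.1, hg]
    rfl

end Fermat.Agent.S40Lib
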