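import Fermat.Agent.S40.EDefs
import Fermat.Agent.S33.MDefs
import Fermat.Agent.S36.NrmDefs
import Fermat.Agent.S36.Mod.ValDefs

/-!
# S40 / S44, top level: definitions (the interface between TOP / KIL-0 and the modular blocks)

Level `N = p * M`, `p ∤ M` (so `M` is the *lowered* level).  Everything is expressed in terms of
Kummer generators `f : FB (p * M)`, `IsKum (p * M) p f` (`div f = p D`), modulo `p`-th powers.

* `Occurs M p S a` : the eigensystem `ℓ ↦ a ℓ mod p` (`ℓ ∉ S`) occurs at level `M`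
* `HasKiller M p S a` : a polynomial in the `T_ℓ`, `ℓ ∉ S`, which vanishes at level `M` and is
  `≡ 1 mod p` at the eigensystem `a`
* `IsEig M p hpM S a f` : `f` is a Kummer generator, `T_ℓ f = f ^ (a ℓ)` mod `p`-th powers for
  `ℓ ∉ S`, and the two norms of `f` to level `M` are `p`-th powers
* `InT1 M p hpM A f` : the class of `f` has a representative `≡ (1, 1)` on the two branches
* `LineCfg M p hpM A S a x y` : the configuration "`L = V ∩ T₁` is a line"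
* `TresFn M p A x y` : the très ramifiée conclusion, for functions
* `GapwChi`, `LineCore` : what the modular blocks deliver
(`S35Lib.nm M p = nrm (pi1 M p)` by `rfl`.)
-/

set_option autoImplicit false
set_option synthInstance.maxHeartbeats 400000

open AlgebraicCurve ModularCurve

namespace Fermat.Agent.S40Lib

open Fermat.Agent.S18Lib Fermat.Agent.S24Lib Fermat.Agent.ESLib Fermat.Agent.S34Lib
  Fermat.Agent.S33Lib Fermat.Agent.S36Lib

/-- the eigensystem `ℓ ↦ a ℓ mod p`, `ℓ ∉ S`, occurs in weight 2 and level `M` -/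
def Occurs (M p : ℕ) [NeZero M] (S : Finset ℕ) (a : ℕ → ℤ) : Prop :=
  ∃ (k : Type) (_ : Field k) (_ : CharP k p)
    (χ : CuspForm.heckeAlgebra M 2 (↑S : Set ℕ) →+* k),
    ∀ (ℓ : ℕ) (hℓ : ℓ.Prime) (hℓM : ¬ ℓ ∣ M) (hℓS : ℓ ∉ (↑S : Set ℕ)),
      χ (CuspForm.heckeAlgebra.T hℓ hℓM hℓS) = (a ℓ : k)

/-- the killer of level `M` -/
def HasKiller (M p : ℕ) [NeZero M] (S : Finset ℕ) (a : ℕ → ℤ) : Prop :=
  ∃ P : MvPolynomial ℕ ℤ, (∀ ℓ ∈ P.vars, ℓ.Prime ∧ ℓ ∉ S) ∧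
    MvPolynomial.aeval (S36Lib.evT M) P = 0 ∧ (p : ℤ) ∣ MvPolynomial.eval a P - 1

/-- the eigensystem is not Eisenstein -/
def NonEis (p : ℕ) (a : ℕ → ℤ) : Prop :=
  ∀ D : ℕ, D ≠ 0 → ∃ ℓ : ℕ, ℓ.Prime ∧ ¬ ℓ ∣ D ∧ ¬ (p : ℤ) ∣ a ℓ - ℓ - 1

section

variable (M p : ℕ) [NeZero M] [NeZero p] [hpF : Fact p.Prime] (hpM : ¬ p ∣ M)
variable (A : ValuationSubring Qb)

/-- `f` is a Kummer generator in the `a`-eigenspace, with trivial norms to level `M` -/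
structure IsEig (S : Finset ℕ) (a : ℕ → ℤ) (f : FB (p * M)) : Prop where
  kum : IsKum (p * M) p f
  hecke : ∀ (ℓ : ℕ) [NeZero ℓ], ℓ.Prime → ℓ ∉ S → ∃ g : FB (p * M), g ≠ 0 ∧
    heckeMul ℓ (f : LaurentSeries Qb) = ((g ^ p * f ^ (a ℓ) : FB (p * M)) : LaurentSeries Qb)
  nm1 : ∃ g : FB M, nrm (pi1 M p) f = g ^ p
  nm2 : ∃ g : FB M, nrm (pi1 M p) (wq M p hpM f) = g ^ p

/-- the class of `f` modulo `p`-th powers lies in `T₁` (kernel of the reduction on both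
branches) -/
def InT1 (f : FB (p * M)) : Prop :=
  ∃ g h : FB (p * M), g ≠ 0 ∧ f = g ^ p * h ∧ GOne A (h : LaurentSeries Qb) ∧
    GOne A ((wq M p hpM h : FB (p * M)) : LaurentSeries Qb)

/-- the configuration of the case "`L = V ∩ T₁` is a line": `y` spans `L`, `x ∈ V ∖ L` -/
structure LineCfg (S : Finset ℕ) (a : ℕ → ℤ) (x y : FB (p * M)) : Prop where
  ex : IsEig M p hpM S a x
  ey : IsEig M p hpM S a y
  x1 : IsGU A (x : LaurentSeries Qb)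
  x2 : IsGU A ((wq M p hpM x : FB (p * M)) : LaurentSeries Qb)
  xT : ¬ InT1 M p hpM A x
  y1 : GOne A (y : LaurentSeries Qb)
  y2 : GOne A ((wq M p hpM y : FB (p * M)) : LaurentSeries Qb)
  yne : ¬ ∃ g : FB (p * M), y = g ^ p
  galy : ∀ ζ : Qb, IsPrimitiveRoot ζ p → ∀ σ ∈ A.inertiaSubgroupIn ℚ, ∀ j : ℕ, σ ζ = ζ ^ j →
    ∃ g : FB (p * M), gal (p * M) σ y = g ^ p * y ^ j
  galx : ∀ σ ∈ A.inertiaSubgroupIn ℚ, ∃ (j : ℕ) (g : FB (p * M)),
    gal (p * M) σ x = g ^ p * x * y ^ j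

/-- the très ramifiée conclusion (function form of `IsTres`) -/
def TresFn (x y : FB (p * M)) : Prop :=
  ∃ (ζ ϖ u : Qb) (n : ℤ), IsPrimitiveRoot ζ p ∧ u ≠ 0 ∧ IsU A u ∧
    (∀ σ ∈ A.inertiaSubgroupIn ℚ, σ ζ = ζ → σ u = u) ∧ ϖ ^ p = (ζ - 1) ^ n * u ∧ ¬ (p : ℤ) ∣ n ∧
    ∀ σ ∈ A.inertiaSubgroupIn ℚ, σ ζ = ζ → ∀ j : ℕ, σ ϖ = ζ ^ j * ϖ →
      ∃ g : FB (p * M), gal (p * M) σ x = g ^ p * x * y ^ j

end

/-- **(GAPW), (G3)** = `toric_inertia` (helper19): inertia acts through the cyclotomic character on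
the classes of `T₁` whose two norms are trivial. -/
def GapwChi : Prop :=
  ∀ (M p : ℕ) [NeZero M] [NeZero p] [Fact p.Prime] (hpM : ¬ p ∣ M) (A : ValuationSubring Qb),
    (2 ∣ M ∨ 3 ∣ M) → A.LiesOverPrime p → ∀ h : FB (p * M), IsKum (p * M) p h →
    GOne A (h : LaurentSeries Qb) → GOne A ((wq M p hpM h : FB (p * M)) : LaurentSeries Qb) →
    ∀ a₁ a₂ : FB M, nrm (pi1 M p) h = a₁ ^ p → nrm (pi1 M p) (wq M p hpM h) = a₂ ^ p →
    ∀ σ ∈ A.inertiaSubgroupIn ℚ, ∀ ζ : Qb, ζ ^ p = 1 → ζ ≠ 1 → ∀ j : ℕ, σ ζ = ζ ^ j →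
      ∃ G : FB (p * M), gal (p * M) σ h = G ^ p * h ^ j

/-- **the geometric core of S40 / S44** (COV + GAPW(toric) + BL_X + CST + REG), `p ≥ 5` -/
def LineCore : Prop :=
  ∀ (M p : ℕ) [NeZero M] [NeZero p] [Fact p.Prime] (hpM : ¬ p ∣ M), 5 ≤ p →
    ∀ (A : ValuationSubring Qb), A.LiesOverPrime p → ∀ (S : Finset ℕ) (a : ℕ → ℤ),
    (∀ q : ℕ, q.Prime → q ∣ p * M → q ∈ S) → NonEis p a → HasKiller M p S a →
    ∀ x y : FB (p * M), LineCfg M p hpM A S a x y → TresFn M p A x y ∨ Occurs M p S a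

end Fermat.Agent.S40Lib
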