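import Fermat.Agent.S40.TR1

/-!
# S40 block (E), (TR2): the Kummer extension `K1(ϖ)`, Lagrange resolvents
-/

set_option autoImplicit false

namespace Fermat.Agent.S40Lib

open Polynomial
open Fermat.Agent.S36Lib

local notation "Qb" => AlgebraicClosure ℚ
local notation "GQ" => (AlgebraicClosure ℚ ≃ₐ[ℚ] AlgebraicClosure ℚ)

/-! ## (TR2) `S40/TR2.lean` -/

theorem TR2_pow {ζ ϖ : Qb} {σ : GQ} (hσζ : σ ζ = ζ) {j : ℕ} (h : σ ϖ = ζ ^ j * ϖ) (k : ℕ) :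
    (σ ^ k) ϖ = ζ ^ (j * k) * ϖ ∧ (σ ^ k) ζ = ζ := by
  induction k with
  | zero => simp
  | succ k ih =>
    rw [pow_succ', AlgEquiv.mul_apply, AlgEquiv.mul_apply, ih.1, ih.2, map_mul, map_pow, hσζ, h]
    exact ⟨by ring, rfl⟩

theorem TR2_inv_apply {σ : GQ} {x y : Qb} (h : σ x = y) : σ⁻¹ y = x := by
  rw [← h]; exact σ.symm_apply_apply x

theorem TR2_of_inv {σ : GQ} {x y : Qb} (h : σ⁻¹ y = x) : y = σ x := by
  rw [← h]; exact (σ.apply_symm_apply y).symm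

section TR

variable (A : ValuationSubring Qb) {p : ℕ} (hp : p.Prime) (hA : A.LiesOverPrime p)
  {ζ ϖ u : Qb} {n : ℤ} (hζ : IsPrimitiveRoot ζ p) (hu0 : u ≠ 0) (hu : IsU A u)
  (hfix : ∀ σ ∈ A.inertiaSubgroupIn ℚ, σ ζ = ζ → σ u = u) (hϖ : ϖ ^ p = (ζ - 1) ^ n * u)
  (hn : ¬ (p : ℤ) ∣ n)

include hp hζ hfix hϖ in
/-- `I₁` acts on `ϖ` through a character -/
theorem exists_kummer_exp {σ : GQ} (hσ : σ ∈ A.inertiaSubgroupIn ℚ) (hσζ : σ ζ = ζ) :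
    ∃ j : ℕ, j < p ∧ σ ϖ = ζ ^ j * ϖ := by
  by_cases h0 : ϖ = 0
  · exact ⟨0, hp.pos, by rw [h0, map_zero, mul_zero]⟩
  have h1 : (σ ϖ) ^ p = ϖ ^ p := by
    rw [← map_pow, hϖ, map_mul, map_zpow₀, map_sub, map_one, hσζ, hfix σ hσ hσζ]
  have h2 : (σ ϖ / ϖ) ^ p = 1 := by
    rw [div_pow, h1, div_self (pow_ne_zero _ h0)]
  have : NeZero p := ⟨hp.ne_zero⟩
  obtain ⟨j, hj, hj2⟩ := hζ.eq_pow_of_pow_eq_one h2
  exact ⟨j, hj, by rw [hj2, div_mul_cancel₀ _ h0]⟩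

include hp hζ hu0 hϖ in
theorem TR2_varpi_ne_zero : ϖ ≠ 0 := by
  have hl0 : ζ - 1 ≠ 0 := hζ.sub_one_ne_zero hp.one_lt
  rintro rfl
  rw [zero_pow hp.ne_zero] at hϖ
  exact mul_ne_zero (zpow_ne_zero _ hl0) hu0 hϖ.symm

include hp hA hζ hu0 hu hfix hϖ hn in
theorem exists_tau : ∃ τ ∈ A.inertiaSubgroupIn ℚ, τ ζ = ζ ∧ τ ϖ = ζ * ϖ := by
  have hl0 : ζ - 1 ≠ 0 := hζ.sub_one_ne_zero hp.one_lt
  have hϖ0 : ϖ ≠ 0 := TR2_varpi_ne_zero hp hζ hu0 hϖ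
  by_cases hall : ∀ σ ∈ A.inertiaSubgroupIn ℚ, σ ζ = ζ → σ ϖ = ϖ
  · exfalso
    obtain ⟨m, hm⟩ := val_of_fixed A hp hA hζ hϖ0 hall
    have h1 : A.valuation ϖ ^ p = A.valuation (ζ - 1) ^ n := by
      rw [← map_pow, hϖ, map_mul, map_zpow₀, K0d_val_unit hu hu0, mul_one]
    rw [hm, ← zpow_natCast, ← zpow_mul] at h1
    have hv0 : 0 < A.valuation (ζ - 1) := zero_lt_iff.2 ((Valuation.ne_zero_iff _).2 hl0)
    have hv1 : A.valuation (ζ - 1) < 1 :=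
      (A.mem_nonunits_iff).1 (K0d_zeta_sub_one_mem A hp hA hζ)
    have h2 := zpow_right_injective₀ hv0 hv1.ne h1
    exact hn ⟨m, by rw [← h2]; ring⟩
  · push Not at hall
    obtain ⟨σ, hσ, hσζ, hσϖ⟩ := hall
    obtain ⟨j, hj, hj2⟩ := exists_kummer_exp A hp hζ hfix hϖ hσ hσζ
    have hj0 : j ≠ 0 := by
      rintro rfl
      rw [pow_zero, one_mul] at hj2
      exact hσϖ hj2
    have hcop : Nat.Coprime j p := (Nat.coprime_of_lt_prime hj0 hj hp).symm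
    obtain ⟨k, -, hk⟩ := Nat.exists_mul_mod_eq_one_of_coprime hcop hp.one_lt
    refine ⟨σ ^ k, (A.inertiaSubgroupIn ℚ).pow_mem hσ k, (TR2_pow hσζ hj2 k).2, ?_⟩
    rw [(TR2_pow hσζ hj2 k).1, ← TR1_pow_mod hζ.pow_eq_one, hk, pow_one]

include hp hA hζ hu0 hu hfix hϖ hn in
/-- Lagrange resolvents -/
theorem exists_expansion_varpi {c : Qb}
    (hc : ∀ σ ∈ A.inertiaSubgroupIn ℚ, σ ζ = ζ → σ ϖ = ϖ → σ c = c) :
    ∃ a : ℕ → Qb, (∀ k, ∀ σ ∈ A.inertiaSubgroupIn ℚ, σ ζ = ζ → σ (a k) = a k) ∧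
      c = ∑ k ∈ Finset.range p, a k * ϖ ^ k := by
  obtain ⟨τ, hτ, hτζ, hτϖ⟩ := exists_tau A hp hA hζ hu0 hu hfix hϖ hn
  have hϖ0 : ϖ ≠ 0 := TR2_varpi_ne_zero hp hζ hu0 hϖ
  have hζ0 : ζ ≠ 0 := hζ.ne_zero hp.ne_zero
  have hp0 : (p : Qb) ≠ 0 := by exact_mod_cast hp.ne_zero
  have hτϖ' : τ ϖ = ζ ^ 1 * ϖ := by rw [pow_one, hτϖ]
  have hpow : ∀ k, (τ ^ k) ϖ = ζ ^ k * ϖ := fun k => by rw [(TR2_pow hτζ hτϖ' k).1, one_mul]
  have hpowζ : ∀ k, (τ ^ k) ζ = ζ := fun k => (TR2_pow hτζ hτϖ' k).2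
  have hI : ∀ k, τ ^ k ∈ A.inertiaSubgroupIn ℚ := fun k => Subgroup.pow_mem _ hτ k
  set F : ℕ → ℕ → Qb := fun k j => (ζ⁻¹) ^ (j * k) * (τ ^ j) c with hF
  set a : ℕ → Qb := fun k => (p : Qb)⁻¹ * (∑ j ∈ Finset.range p, F k j) * (ϖ ^ k)⁻¹ with ha
  -- `ρ ∈ I₂` fixes `τ ^ j c`
  have hρ : ∀ ρ ∈ A.inertiaSubgroupIn ℚ, ρ ζ = ζ → ρ ϖ = ϖ → ∀ j, ρ ((τ ^ j) c) = (τ ^ j) c := by
    intro ρ hρI hρζ hρϖ j
    have h1 : (τ ^ j)⁻¹ * (ρ * τ ^ j) ∈ A.inertiaSubgroupIn ℚ :=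
      Subgroup.mul_mem _ (Subgroup.inv_mem _ (hI j)) (Subgroup.mul_mem _ hρI (hI j))
    have h2 : ((τ ^ j)⁻¹ * (ρ * τ ^ j)) ζ = ζ := by
      rw [AlgEquiv.mul_apply, AlgEquiv.mul_apply, hpowζ, hρζ]
      exact TR2_inv_apply (hpowζ j)
    have h3 : ((τ ^ j)⁻¹ * (ρ * τ ^ j)) ϖ = ϖ := by
      rw [AlgEquiv.mul_apply, AlgEquiv.mul_apply, hpow, map_mul, map_pow, hρζ, hρϖ]
      exact TR2_inv_apply (hpow j)
    have h4 := hc _ h1 h2 h3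
    rw [AlgEquiv.mul_apply, AlgEquiv.mul_apply] at h4
    exact TR2_of_inv h4
  have hρa : ∀ ρ ∈ A.inertiaSubgroupIn ℚ, ρ ζ = ζ → ρ ϖ = ϖ → ∀ k, ρ (a k) = a k := by
    intro ρ hρI hρζ hρϖ k
    simp only [ha, hF]
    rw [map_mul, map_mul, map_inv₀, map_inv₀, map_natCast, map_sum, map_pow, hρϖ]
    congr 2
    refine Finset.sum_congr rfl fun j _ => ?_
    rw [map_mul, map_pow, map_inv₀, hρζ, hρ ρ hρI hρζ hρϖ j]
  -- periodicity
  have hper : ∀ k, ∑ j ∈ Finset.range p, F k (j + 1) = ∑ j ∈ Finset.range p, F k j := by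
    intro k
    have h1 := Finset.sum_range_succ' (F k) p
    rw [Finset.sum_range_succ] at h1
    have h2 : F k p = F k 0 := by
      simp only [hF]
      have h3 : (τ ^ p) c = c := hc _ (hI p) (hpowζ p) (by
        rw [hpow, hζ.pow_eq_one, one_mul])
      rw [h3, pow_mul, inv_pow, hζ.pow_eq_one, inv_one, one_pow, zero_mul, pow_zero, pow_zero]
      rfl
    rw [h2] at h1
    exact (add_right_cancel h1).symm
  have hτa : ∀ k, τ (a k) = a k := by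
    intro k
    have h1 : ∀ j, τ (F k j) = ζ ^ k * F k (j + 1) := by
      intro j
      simp only [hF]
      rw [map_mul, map_pow, map_inv₀, hτζ, pow_succ' τ j, AlgEquiv.mul_apply, add_mul, one_mul,
        pow_add, ← mul_assoc, ← mul_assoc, mul_comm (ζ ^ k), mul_assoc (ζ⁻¹ ^ (j * k)), inv_pow ζ k,
        mul_inv_cancel₀ (pow_ne_zero _ hζ0), mul_one]
    simp only [ha]
    rw [map_mul, map_mul, map_inv₀, map_inv₀, map_natCast, map_sum, map_pow, hτϖ,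
      Finset.sum_congr rfl fun j _ => h1 j, ← Finset.mul_sum, hper, mul_pow, mul_inv]
    have hk0 : ζ ^ k ≠ 0 := pow_ne_zero _ hζ0
    field_simp
  have hτpa : ∀ i k, (τ ^ i) (a k) = a k := by
    intro i k
    induction i with
    | zero => simp
    | succ i ih => rw [pow_succ', AlgEquiv.mul_apply, ih, hτa]
  refine ⟨a, ?_, ?_⟩
  · intro k σ hσ hσζ
    obtain ⟨i, -, hi⟩ := exists_kummer_exp A hp hζ hfix hϖ hσ hσζ
    have h1 : (τ ^ i)⁻¹ * σ ∈ A.inertiaSubgroupIn ℚ :=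
      Subgroup.mul_mem _ (Subgroup.inv_mem _ (hI i)) hσ
    have h2 : ((τ ^ i)⁻¹ * σ) ζ = ζ := by
      rw [AlgEquiv.mul_apply, hσζ]
      exact TR2_inv_apply (hpowζ i)
    have h3 : ((τ ^ i)⁻¹ * σ) ϖ = ϖ := by
      rw [AlgEquiv.mul_apply, hi]
      exact TR2_inv_apply (hpow i)
    have h4 := hρa _ h1 h2 h3 k
    rw [AlgEquiv.mul_apply] at h4
    rw [TR2_of_inv h4, hτpa]
  · have h1 : ∀ k, a k * ϖ ^ k = (p : Qb)⁻¹ * ∑ j ∈ Finset.range p, F k j := by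
      intro k
      simp only [ha]
      rw [mul_assoc, inv_mul_cancel₀ (pow_ne_zero _ hϖ0), mul_one]
    rw [Finset.sum_congr rfl fun k _ => h1 k, ← Finset.mul_sum, Finset.sum_comm]
    have h2 : ∀ j ∈ Finset.range p, ∑ k ∈ Finset.range p, F k j =
        (∑ k ∈ Finset.range p, ((ζ⁻¹) ^ j) ^ k) * (τ ^ j) c := by
      intro j _
      rw [Finset.sum_mul]
      refine Finset.sum_congr rfl fun k _ => ?_
      simp only [hF]
      rw [pow_mul]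
    rw [Finset.sum_congr rfl h2, Finset.sum_eq_single 0]
    · simp only [pow_zero, one_pow, Finset.sum_const, Finset.card_range, nsmul_eq_mul, mul_one]
      rw [← mul_assoc, inv_mul_cancel₀ hp0, one_mul]
      rfl
    · intro j hj hj0
      have hx1 : (ζ⁻¹) ^ j - 1 ≠ 0 := by
        intro h
        rw [sub_eq_zero, inv_pow, inv_eq_one] at h
        have := hζ.dvd_of_pow_eq_one j h
        exact absurd (Nat.le_of_dvd (Nat.pos_of_ne_zero hj0) this)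
          (not_le.2 (Finset.mem_range.1 hj))
      have h3 := geom_sum_mul ((ζ⁻¹) ^ j) p
      rw [← pow_mul, mul_comm j p, pow_mul, inv_pow ζ p, hζ.pow_eq_one, inv_one, one_pow,
        sub_self] at h3
      rw [(mul_eq_zero.1 h3).resolve_right hx1, zero_mul]
    · intro h
      exact absurd (Finset.mem_range.2 hp.pos) h

end TR

end Fermat.Agent.S40Lib
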