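import Fermat.Agent.S40.TopRhoV
import Fermat.Agent.S33.MTrunk

/-!
# S40 / S44, TOP, (CA): the case `V ∩ T₁ = 0`
-/

set_option autoImplicit false
set_option synthInstance.maxHeartbeats 400000
set_option linter.unusedSectionVars false

open AlgebraicCurve ModularCurve CongruenceSubgroup

namespace Fermat.Agent.S40Lib

open Fermat.Agent.S18Lib Fermat.Agent.S24Lib Fermat.Agent.ESLib Fermat.Agent.ESLib.P
  Fermat.Agent.S34Lib Fermat.Agent.S33Lib Fermat.Agent.S36Lib Matrix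

section Lvl

variable (M p : ℕ) [NeZero M] [NeZero p] [hpF : Fact p.Prime] (hpM : ¬ p ∣ M)
variable (A : ValuationSubring Qb)
variable (H : TrunkHyp (p * M)) {r : ℕ} (b : Module.Basis (Fin r) ℤ (EP (p * M) ℤ))
  (Θ₀ : TT0 (p * M) →+* Module.End ℤ (EP (p * M) ℤ))

theorem caseA (hA : A.LiesOverPrime p) (V : Submodule (ZMod p) (Fin r → ZMod p))
    (hV : ∀ σ : GQ, ∀ v ∈ V, rhoM b H hpF.out.pos σ *ᵥ v ∈ V)
    (h0 : ∀ v ∈ V, v ∈ mtT M p hpM A b p → v = 0) :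
    ∀ σ ∈ A.inertiaSubgroupIn ℚ, rhoV M p H b V hV σ = 1 := by
  intro σ hσ
  apply LinearMap.ext
  intro v
  apply Subtype.ext
  rw [coe_rhoV]
  have h1 := mt_inertia_mem M p hpM A H b hA hpF.out.pos σ hσ (v : Fin r → ZMod p)
  have e : (rhoM b H hpF.out.pos σ - 1) *ᵥ (v : Fin r → ZMod p) =
      rhoM b H hpF.out.pos σ *ᵥ (v : Fin r → ZMod p) - (v : Fin r → ZMod p) := by
    rw [Matrix.sub_mulVec, Matrix.one_mulVec]
  rw [e] at h1
  have h2 := h0 _ (V.sub_mem (hV σ v v.2) v.2) h1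
  exact sub_eq_zero.1 h2

end Lvl

end Fermat.Agent.S40Lib
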