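import Fermat.Agent.S40.TopEigV
import Fermat.Agent.S33.MTrunk
import Fermat.Agent.S35.NormHecke
import Fermat.Agent.S35.NormKum
import Fermat.Agent.S35.LevelDescent
import Fermat.Agent.S36.TrunkClause
import Fermat.Agent.ES.TrunkX

/-!
# S40 / S44, TOP, (EN): the norm clauses of `IsEig`
-/

set_option autoImplicit false
set_option synthInstance.maxHeartbeats 400000
set_option linter.unusedSectionVars false

open AlgebraicCurve ModularCurve CongruenceSubgroup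

namespace Fermat.Agent.S40Lib

open Fermat.Agent.S18Lib Fermat.Agent.S24Lib Fermat.Agent.ESLib Fermat.Agent.ESLib.P
  Fermat.Agent.S34Lib Fermat.Agent.S33Lib Fermat.Agent.S35Lib Fermat.Agent.S36Lib Matrix

section Lvl

variable (M p : ℕ) [NeZero M] [NeZero p] [hpF : Fact p.Prime] (hpM : ¬ p ∣ M)
variable (A : ValuationSubring Qb)
variable (H : TrunkHyp (p * M)) {r : ℕ} (b : Module.Basis (Fin r) ℤ (EP (p * M) ℤ))
  (Θ₀ : TT0 (p * M) →+* Module.End ℤ (EP (p * M) ℤ))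

/-- a polynomial in the `T_ℓ` acts on an eigenvector through its value at the eigensystem -/
theorem EN_psi (S : Finset ℕ) (a : ℕ → ℤ) {v : Fin r → ZMod p} (hv : IsEigV M p b Θ₀ S a v)
    (P : MvPolynomial ℕ ℤ) (hP : ∀ ℓ ∈ P.vars, ℓ.Prime ∧ ¬ ℓ ∣ p * M ∧ ℓ ∉ S) :
    tcPsi b Θ₀ p P *ᵥ v = ((MvPolynomial.eval a P : ℤ) : ZMod p) • v := by
  have hmem : P ∈ MvPolynomial.supported ℤ {ℓ : ℕ | ℓ.Prime ∧ ¬ ℓ ∣ p * M ∧ ℓ ∉ S} := by
    rw [MvPolynomial.mem_supported]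
    intro ℓ hℓ
    exact hP ℓ (Finset.mem_coe.1 hℓ)
  rw [MvPolynomial.supported] at hmem
  clear hP
  induction hmem using Algebra.adjoin_induction with
  | mem x hx =>
    obtain ⟨ℓ, ⟨hℓ, hℓN, hℓS⟩, rfl⟩ := hx
    rw [tcPsi_apply, MvPolynomial.aeval_X, evT_of_prime (p * M) hℓ hℓN, MvPolynomial.eval_X]
    exact hv ℓ hℓ hℓN hℓS
  | algebraMap k =>
    rw [eq_intCast, map_intCast, map_intCast]
    have : ((k : Matrix (Fin r) (Fin r) (ZMod p))) = (k : ZMod p) • 1 := by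
      rw [← Algebra.algebraMap_eq_smul_one, map_intCast]
    rw [this, smul_mulVec, one_mulVec]
    simp
  | add x y _ _ hx hy =>
    rw [map_add, add_mulVec, hx, hy, map_add, Int.cast_add, add_smul]
  | mul x y _ _ hx hy =>
    rw [map_mul, ← mulVec_mulVec, hy, mulVec_smul, hx, smul_smul, map_mul, Int.cast_mul, mul_comm]

/-! ### (EN) `S40/TopEigN.lean` -/

include H in
theorem norms_of_isEigV (hΘ : IsThetaTr Θ₀) (S : Finset ℕ)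
    (hS : ∀ q : ℕ, q.Prime → q ∣ p * M → q ∈ S) (a : ℕ → ℤ) (hk : HasKiller M p S a)
    {v : Fin r → ZMod p} (hv : IsEigV M p b Θ₀ S a v) {f : FB (p * M)} (hf : Kap b p f v) :
    (∃ g : FB M, nrm (pi1 M p) f = g ^ p) ∧
      (∃ g : FB M, nrm (pi1 M p) (wq M p hpM f) = g ^ p) := by
  have hm : 0 < p := hpF.out.pos
  obtain ⟨P, hP, h0, h1⟩ := hk
  have hP' : ∀ ℓ ∈ P.vars, ℓ.Prime ∧ ¬ ℓ ∣ p * M ∧ ℓ ∉ S := fun ℓ hℓ =>
    ⟨(hP ℓ hℓ).1, fun hd => (hP ℓ hℓ).2 (hS ℓ (hP ℓ hℓ).1 hd), (hP ℓ hℓ).2⟩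
  have hkl : KillsLevel (p * M) M (MvPolynomial.aeval (evT (p * M)) P) :=
    ⟨P, fun ℓ hℓ => ⟨(hP' ℓ hℓ).1, (hP' ℓ hℓ).2.1⟩, rfl, h0⟩
  have hone : ((MvPolynomial.eval a P : ℤ) : ZMod p) = 1 := by
    have := (ZMod.intCast_zmod_eq_zero_iff_dvd _ p).2 h1
    rw [Int.cast_sub, Int.cast_one, sub_eq_zero] at this
    exact this
  have hpsi := EN_psi M p b Θ₀ S a hv P hP'
  rw [hone, one_smul, tcPsi_apply] at hpsi
  rw [← hpsi] at hf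
  have H' : TrunkHyp M := (trunkHyp0 M).toTrunkHyp
  obtain ⟨r', b', Θ₀', -, hTr'⟩ := H'.theta
  have hdvd : ∀ ℓ : ℕ, ¬ ℓ ∣ p * M → ¬ ℓ ∣ M := fun ℓ hℓ hℓ' => hℓ (Dvd.dvd.mul_left hℓ' p)
  obtain ⟨z₁, hz₁⟩ := kap_nu_eq_pow (b := b) b' H H' hm (nm M p)
    (fun f hf => isKum_nm M p hpM _ f hf) hΘ hTr'
    (fun ℓ _ hℓ hℓN f f' hff => nm_heckeMul M p hpM hℓ hℓN f f' hff) hdvd hkl (v := v) hf
  obtain ⟨z₂, hz₂⟩ := kap_nu_eq_pow (b := b) b' H H' hm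
    ((nm M p).comp ((wq M p hpM : FB (p * M) ≃ₐ[Qb] FB (p * M)) : FB (p * M) →* FB (p * M)))
    (fun f hf => isKum_nm M p hpM _ _ (isKum_wq M p hpM _ f hf)) hΘ hTr'
    (fun ℓ _ hℓ hℓN f f' hff => nm_wq_heckeMul M p hpM hℓ hℓN f f' hff) hdvd hkl (v := v) hf
  exact ⟨⟨z₁, hz₁⟩, ⟨z₂, hz₂⟩⟩

end Lvl

end Fermat.Agent.S40Lib
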