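import Fermat.Agent.S40.TopDefs
import Fermat.Agent.S33.MTrunk
import Fermat.Agent.S35.LevelDescent

/-!
# S40 / S44, TOP, (GB): `GapwChi` without `hbase`
-/

set_option autoImplicit false
set_option synthInstance.maxHeartbeats 400000
set_option linter.unusedSectionVars false

open AlgebraicCurve ModularCurve CongruenceSubgroup

namespace Fermat.Agent.S40Lib

open Fermat.Agent.S18Lib Fermat.Agent.S24Lib Fermat.Agent.ESLib Fermat.Agent.ESLib.P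
  Fermat.Agent.S34Lib Fermat.Agent.S33Lib Fermat.Agent.S35Lib Fermat.Agent.S36Lib Matrix

/-! ## (GB) `S40/TopGapwBase.lean` : `GapwChi` without `hbase` -/

theorem GB_nrm_eq_nm (M p : ℕ) [NeZero M] [NeZero p] (g : FB (p * M)) :
    nrm (pi1 M p) g = nm M p g := rfl

theorem GB_nm_up (M p : ℕ) [NeZero M] [NeZero p] [Fact p.Prime]
    (hpM : ¬ p ∣ M) (hpM2 : ¬ p ∣ 2 * M) (g : FB (p * M))
    (hg' : (g : LaurentSeries Qb) ∈ FB (p * (2 * M))) (a : FB M)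
    (ha : nrm (pi1 M p) g = a ^ p) :
    nrm (pi1 (2 * M) p) (⟨(g : LaurentSeries Qb), hg'⟩ : FB (p * (2 * M))) =
      (aHom (Dvd.intro_left 2 rfl : M ∣ 2 * M) a) ^ p := by
  rw [GB_nrm_eq_nm] at ha ⊢
  apply Subtype.ext
  rw [LV35_nm M p hpM 2 hpM2 g hg', ha, SubmonoidClass.coe_pow, SubmonoidClass.coe_pow, coe_aHom]

theorem GB_isKum_up {N N₂ : ℕ} [NeZero N] [NeZero N₂] (hd : N ∣ N₂) {m : ℕ} (f : FB N)
    (hf : IsKum N m f) (hf' : (f : LaurentSeries Qb) ∈ FB N₂) :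
    IsKum N₂ m (⟨(f : LaurentSeries Qb), hf'⟩ : FB N₂) := by
  have h := aHom_isKum hd hf
  obtain ⟨x, hx⟩ := f
  rwa [aHom_eq] at h

/-- the descent step -/
theorem GB_descend (M p : ℕ) [NeZero M] [NeZero p] (hp : p.Prime) (hp2 : p ≠ 2) (h2M : ¬ 2 ∣ M)
    (h : FB (p * M)) (hh : h ≠ 0) (σ : GQ) (j : ℕ) (G : LaurentSeries Qb)
    (hG : G ∈ FB (p * (2 * M)))
    (hG0 : coeffMap (σ : Qb →+* Qb) (h : LaurentSeries Qb) = G ^ p * (h : LaurentSeries Qb) ^ j) :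
    ∃ G : FB (p * M), gal (p * M) σ h = G ^ p * h ^ j := by
  have hh0 : (h : LaurentSeries Qb) ≠ 0 := fun h0 => hh (Subtype.ext h0)
  have hGp : G ^ p ∈ FB (p * M) := by
    have e : G ^ p = ((gal (p * M) σ h * (h ^ j)⁻¹ : FB (p * M)) : LaurentSeries Qb) := by
      rw [MulMemClass.coe_mul, coe_gal, hG0]
      push_cast
      rw [mul_assoc, mul_inv_cancel₀ (pow_ne_zero j hh0), mul_one]
    rw [e]
    exact (gal (p * M) σ h * (h ^ j)⁻¹ : FB (p * M)).2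
  have hcomm : p * (2 * M) = 2 * (p * M) := Nat.mul_left_comm p 2 M
  have hG2 : G ∈ FB (2 * (p * M)) := hcomm ▸ hG
  have h2pM : ¬ 2 ∣ p * M := by
    intro hdv
    rcases (Nat.Prime.dvd_mul Nat.prime_two).1 hdv with h' | h'
    · exact hp2 ((Nat.prime_dvd_prime_iff_eq Nat.prime_two hp).1 h').symm
    · exact h2M h'
  have hGM : G ∈ FB (p * M) := mem_FB_of_pow_mem (p * M) h2pM p hp.pos G hG2 hGp
  refine ⟨⟨G, hGM⟩, ?_⟩
  apply Subtype.ext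
  rw [coe_gal, hG0]
  rfl

/-- as in `S33/MDescent.lean key_pM`: if `2 ∤ M` pass to the level `p * (2 * M)`
(`coe_wq_two_mul`, `aHom_isKum`, norms commute with the pull back: `S35/LevelDescent.lean`), and
come back with `mem_FB_of_pow_mem`. -/
theorem gapwChi_all (gapw : GapwChi) (M p : ℕ) [NeZero M] [NeZero p] [Fact p.Prime]
    (hpM : ¬ p ∣ M) (hp2 : p ≠ 2) (A : ValuationSubring Qb) (hA : A.LiesOverPrime p)
    (h : FB (p * M)) (hK : IsKum (p * M) p h) (h1 : GOne A (h : LaurentSeries Qb))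
    (h2 : GOne A ((wq M p hpM h : FB (p * M)) : LaurentSeries Qb))
    (hn1 : ∃ g : FB M, nrm (pi1 M p) h = g ^ p)
    (hn2 : ∃ g : FB M, nrm (pi1 M p) (wq M p hpM h) = g ^ p)
    (ζ : Qb) (hζ : IsPrimitiveRoot ζ p) (σ : GQ) (hσ : σ ∈ A.inertiaSubgroupIn ℚ) (j : ℕ)
    (hj : σ ζ = ζ ^ j) : ∃ G : FB (p * M), gal (p * M) σ h = G ^ p * h ^ j := by
  have hp : p.Prime := Fact.out
  obtain ⟨a₁, ha₁⟩ := hn1
  obtain ⟨a₂, ha₂⟩ := hn2
  by_cases h2M : 2 ∣ M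
  · exact gapw M p hpM A (Or.inl h2M) hA h hK h1 h2 a₁ a₂ ha₁ ha₂ σ hσ ζ hζ.pow_eq_one
      (hζ.ne_one hp.one_lt) j hj
  have hpM2 : ¬ p ∣ 2 * M := by
    intro hdv
    rcases (Nat.Prime.dvd_mul hp).1 hdv with h' | h'
    · exact hp2 ((Nat.prime_dvd_prime_iff_eq hp Nat.prime_two).1 h')
    · exact hpM h'
  have hd : p * M ∣ p * (2 * M) := Nat.mul_dvd_mul_left p (Dvd.intro_left 2 rfl)
  have hx' : (h : LaurentSeries Qb) ∈ FB (p * (2 * M)) := FB_le_of_dvd hd h.2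
  have hK' : IsKum (p * (2 * M)) p (⟨(h : LaurentSeries Qb), hx'⟩ : FB (p * (2 * M))) :=
    GB_isKum_up hd h hK hx'
  have hw : ((wq (2 * M) p hpM2 ⟨(h : LaurentSeries Qb), hx'⟩ : FB (p * (2 * M))) :
      LaurentSeries Qb) = ((wq M p hpM h : FB (p * M)) : LaurentSeries Qb) :=
    wq_compat M p hpM 2 hpM2 h hx'
  have h2' : GOne A ((wq (2 * M) p hpM2 ⟨(h : LaurentSeries Qb), hx'⟩ : FB (p * (2 * M))) :
      LaurentSeries Qb) := by
    rw [hw]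
    exact h2
  have hn1' := GB_nm_up M p hpM hpM2 h hx' a₁ ha₁
  have hwx' : ((wq M p hpM h : FB (p * M)) : LaurentSeries Qb) ∈ FB (p * (2 * M)) :=
    FB_le_of_dvd hd (wq M p hpM h).2
  have hweq : wq (2 * M) p hpM2 ⟨(h : LaurentSeries Qb), hx'⟩ =
      ⟨((wq M p hpM h : FB (p * M)) : LaurentSeries Qb), hwx'⟩ := Subtype.ext hw
  have hn2' := GB_nm_up M p hpM hpM2 (wq M p hpM h) hwx' a₂ ha₂
  rw [← hweq] at hn2'
  have hmain := gapw (2 * M) p hpM2 A (Or.inl (Dvd.intro M rfl)) hA ⟨(h : LaurentSeries Qb), hx'⟩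
    hK' h1 h2' _ _ hn1' hn2' σ hσ ζ hζ.pow_eq_one (hζ.ne_one hp.one_lt) j hj
  obtain ⟨⟨G, hG⟩, hGe⟩ := hmain
  have hG0 : coeffMap (σ : Qb →+* Qb) (h : LaurentSeries Qb) = G ^ p * (h : LaurentSeries Qb) ^ j := by
    have := congrArg Subtype.val hGe
    rw [coe_gal] at this
    exact this
  exact GB_descend M p hp hp2 h2M h hK.1 σ j G hG hG0

end Fermat.Agent.S40Lib
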