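import Fermat.Agent.S40.TopRhoV
import Fermat.Agent.S40.TopGapwBase
import Fermat.Agent.S40.TopEigN
import Fermat.Agent.S33.MTrunk

/-!
# S40 / S44, TOP, (CB): inertia acts by the cyclotomic character on `V ∩ T₁`
-/

set_option autoImplicit false
set_option synthInstance.maxHeartbeats 400000
set_option linter.unusedSectionVars false

open AlgebraicCurve ModularCurve CongruenceSubgroup

namespace Fermat.Agent.S40Lib

open Fermat.Agent.S18Lib Fermat.Agent.S24Lib Fermat.Agent.ESLib Fermat.Agent.ESLib.P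
  Fermat.Agent.S34Lib Fermat.Agent.S33Lib Fermat.Agent.S36Lib Matrix

section Lvl

variable (M p : ℕ) [NeZero M] [NeZero p] [hpF : Fact p.Prime] (hpM : ¬ p ∣ M)
variable (A : ValuationSubring Qb)
variable (H : TrunkHyp (p * M)) {r : ℕ} (b : Module.Basis (Fin r) ℤ (EP (p * M) ℤ))
  (Θ₀ : TT0 (p * M) →+* Module.End ℤ (EP (p * M) ℤ))

theorem chi_on_T1 (gapw : GapwChi) (hp2 : p ≠ 2) (hA : A.LiesOverPrime p) (hΘ : IsThetaTr Θ₀)
    (S : Finset ℕ) (hS : ∀ q : ℕ, q.Prime → q ∣ p * M → q ∈ S) (a : ℕ → ℤ)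
    (hk : HasKiller M p S a) {v : Fin r → ZMod p} (he : IsEigV M p b Θ₀ S a v)
    (h1 : v ∈ mtT M p hpM A b p) {ζ : Qb} (hζ : IsPrimitiveRoot ζ p)
    (σ : GQ) (hσ : σ ∈ A.inertiaSubgroupIn ℚ) (j : ℕ) (hj : σ ζ = ζ ^ j) :
    rhoM b H hpF.out.pos σ *ᵥ v = (j : ZMod p) • v := by
  have hp := hpF.out
  obtain ⟨h, hK, g1, g2⟩ := h1
  obtain ⟨n1, n2⟩ := norms_of_isEigV M p hpM H b Θ₀ hΘ S hS a hk he hK
  obtain ⟨G, hG⟩ := gapwChi_all gapw M p hpM hp2 A hA h (hK.isKum H hp.pos) g1 g2 n1 n2 ζ hζ σ hσ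
    j hj
  have k1 := rhoM_spec H hp.pos σ hK
  have hG0 : G ≠ 0 := by
    rintro rfl
    rw [zero_pow hp.ne_zero, zero_mul] at hG
    exact (k1.ne_zero H hp.pos) hG
  have k2 := (hK.pow H hp.pos j).pow_mul H hp.pos hG0
  rw [← hG] at k2
  rw [k1.unique H hp.pos k2]
  funext i
  simp
end Lvl

end Fermat.Agent.S40Lib
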