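import Fermat.Agent.S40.TopKap

/-!
# S40 / S44, TOP, (EH): the Hecke clause of `IsEig`
-/

set_option autoImplicit false
set_option synthInstance.maxHeartbeats 400000
set_option linter.unusedSectionVars false

open AlgebraicCurve ModularCurve CongruenceSubgroup

namespace Fermat.Agent.S40Lib

open Fermat.Agent.S18Lib Fermat.Agent.S24Lib Fermat.Agent.ESLib Fermat.Agent.ESLib.P
  Fermat.Agent.S34Lib Fermat.Agent.S33Lib Fermat.Agent.S36Lib Matrix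

section Lvl

variable (M p : ℕ) [NeZero M] [NeZero p] [hpF : Fact p.Prime] (hpM : ¬ p ∣ M)
variable (A : ValuationSubring Qb)
variable (H : TrunkHyp (p * M)) {r : ℕ} (b : Module.Basis (Fin r) ℤ (EP (p * M) ℤ))
  (Θ₀ : TT0 (p * M) →+* Module.End ℤ (EP (p * M) ℤ))

/-! ### (EH) `S40/TopEigH.lean` : the Hecke clause of `IsEig` (`Kap.hecke`, KK) -/

include H in
theorem hecke_of_isEigV (hΘ : IsThetaTr Θ₀) (S : Finset ℕ)
    (hS : ∀ q : ℕ, q.Prime → q ∣ p * M → q ∈ S) (a : ℕ → ℤ)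
    {v : Fin r → ZMod p} (hv : IsEigV M p b Θ₀ S a v) {f : FB (p * M)} (hf : Kap b p f v)
    (ℓ : ℕ) [NeZero ℓ] (hℓ : ℓ.Prime) (hℓS : ℓ ∉ S) :
    ∃ g : FB (p * M), g ≠ 0 ∧
      heckeMul ℓ (f : LaurentSeries Qb) = ((g ^ p * f ^ (a ℓ) : FB (p * M)) : LaurentSeries Qb) := by
  have hℓN : ¬ ℓ ∣ p * M := fun h => hℓS (hS ℓ hℓ h)
  have h1 := hf.hecke H hΘ hℓ hℓN
  obtain ⟨f', hf1, hf2⟩ := h1
  rw [hv ℓ hℓ hℓN hℓS] at hf2
  obtain ⟨g, hg, h2⟩ := kap_eq_pow_mul M p H b (kap_zpow M p H b hf (a ℓ)) hf2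
  exact ⟨g, hg, by rw [← hf1, h2]⟩

end Lvl

end Fermat.Agent.S40Lib
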