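import Fermat.Agent.S40.TopT1
import Fermat.Agent.S40.TopEigN
import Fermat.Agent.S40.TopEigH
import Fermat.Agent.S40.TopGapwBase

/-!
# S40 / S44, TOP, leaf (CC1): the case "`V ∩ T₁` is a line"
-/

set_option autoImplicit false
set_option synthInstance.maxHeartbeats 400000
set_option linter.unusedSectionVars false

open AlgebraicCurve ModularCurve CongruenceSubgroup

namespace Fermat.Agent.S40Lib

open Fermat.Agent.S18Lib Fermat.Agent.S24Lib Fermat.Agent.ESLib Fermat.Agent.ESLib.P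
  Fermat.Agent.S34Lib Fermat.Agent.S33Lib Fermat.Agent.S35Lib Fermat.Agent.S36Lib Matrix

section Lvl

variable (M p : ℕ) [NeZero M] [NeZero p] [hpF : Fact p.Prime] (hpM : ¬ p ∣ M)
variable (A : ValuationSubring Qb)
variable (H : TrunkHyp (p * M)) {r : ℕ} (b : Module.Basis (Fin r) ℤ (EP (p * M) ℤ))
  (Θ₀ : TT0 (p * M) →+* Module.End ℤ (EP (p * M) ℤ))

/-- the configuration -/
theorem exists_lineCfg (gapw : GapwChi) (hp2 : p ≠ 2) (hA : A.LiesOverPrime p)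
    (hΘ : IsThetaTr Θ₀)
    (S : Finset ℕ) (hS : ∀ q : ℕ, q.Prime → q ∣ p * M → q ∈ S) (a : ℕ → ℤ)
    (hk : HasKiller M p S a) (V : Submodule (ZMod p) (Fin r → ZMod p))
    (hV : ∀ σ : GQ, ∀ v ∈ V, rhoM b H hpF.out.pos σ *ᵥ v ∈ V)
    (he : ∀ v ∈ V, IsEigV M p b Θ₀ S a v)
    {x₀ y₀ : Fin r → ZMod p} (hx₀ : x₀ ∈ V) (hy₀ : y₀ ∈ V) (hyT : y₀ ∈ mtT M p hpM A b p)
    (hy0 : y₀ ≠ 0) (hxT : x₀ ∉ mtT M p hpM A b p)
    (hline : ∀ v ∈ V, v ∈ mtT M p hpM A b p → ∃ j : ℕ, v = j • y₀) :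
    ∃ x y : FB (p * M), Kap b p x x₀ ∧ Kap b p y y₀ ∧ LineCfg M p hpM A S a x y := by
  have hm : 0 < p := hpF.out.pos
  obtain ⟨x, hx, hx1, hx2⟩ := exists_kap_isGU M p hpM A H b hA x₀
  obtain ⟨y, hy, hy1, hy2⟩ := hyT
  have hex : IsEig M p hpM S a x :=
    ⟨hx.isKum H hm, fun ℓ _ hℓ hℓS => hecke_of_isEigV M p H b Θ₀ hΘ S hS a (he x₀ hx₀) hx ℓ hℓ hℓS,
      (norms_of_isEigV M p hpM H b Θ₀ hΘ S hS a hk (he x₀ hx₀) hx).1,
      (norms_of_isEigV M p hpM H b Θ₀ hΘ S hS a hk (he x₀ hx₀) hx).2⟩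
  have hey : IsEig M p hpM S a y :=
    ⟨hy.isKum H hm, fun ℓ _ hℓ hℓS => hecke_of_isEigV M p H b Θ₀ hΘ S hS a (he y₀ hy₀) hy ℓ hℓ hℓS,
      (norms_of_isEigV M p hpM H b Θ₀ hΘ S hS a hk (he y₀ hy₀) hy).1,
      (norms_of_isEigV M p hpM H b Θ₀ hΘ S hS a hk (he y₀ hy₀) hy).2⟩
  refine ⟨x, y, hx, hy, hex, hey, hx1, hx2, ?_, hy1, hy2, ?_, ?_, ?_⟩
  · intro h
    exact hxT ((inT1_iff M p hpM A H b hx).1 h)
  · rintro ⟨g, hg⟩
    have hg0 : g ≠ 0 := by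
      rintro rfl
      exact hy.ne_zero H hm (by rw [hg, zero_pow hm.ne'])
    rw [hg] at hy
    exact hy0 (hy.unique H hm (Kap.pow_self H hm hg0))
  · intro ζ hζ σ hσ j hj
    exact gapwChi_all gapw M p hpM hp2 A hA y hey.kum hy1 hy2 hey.nm1 hey.nm2 ζ hζ σ hσ j hj
  · intro σ hσ
    have h1 := mt_inertia_mem M p hpM A H b hA hm σ hσ x₀
    have h2 : (rhoM b H hm σ - 1) *ᵥ x₀ ∈ V := by
      rw [Matrix.sub_mulVec, Matrix.one_mulVec]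
      exact V.sub_mem (hV σ x₀ hx₀) hx₀
    obtain ⟨j, hj⟩ := hline _ h2 h1
    have h3 : rhoM b H hm σ *ᵥ x₀ = x₀ + j • y₀ := by
      rw [← hj, Matrix.sub_mulVec, Matrix.one_mulVec]
      abel
    have h4 := rhoM_spec H hm σ hx
    rw [h3] at h4
    have h5 := hx.mul H hm (hy.pow H hm j)
    have h6 := h4.mul H hm (h5.inv H hm)
    rw [add_neg_cancel] at h6
    obtain ⟨g, -, hg⟩ := h6.eq_pow H hm
    exact ⟨j, g, by rw [mul_assoc, ← hg, inv_mul_cancel_right₀ (h5.ne_zero H hm)]⟩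

end Lvl

end Fermat.Agent.S40Lib
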