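import Fermat.Agent.S40.TopEigV

/-!
# S40 / S44, TOP, (RV): the representation on a stable subspace `V`
-/

set_option autoImplicit false
set_option synthInstance.maxHeartbeats 400000
set_option linter.unusedSectionVars false

open AlgebraicCurve ModularCurve CongruenceSubgroup

namespace Fermat.Agent.S40Lib

open Fermat.Agent.S18Lib Fermat.Agent.S24Lib Fermat.Agent.ESLib Fermat.Agent.ESLib.P
  Fermat.Agent.S34Lib Fermat.Agent.S33Lib Fermat.Agent.S36Lib Matrix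

section Lvl

variable (M p : ℕ) [NeZero M] [NeZero p] [hpF : Fact p.Prime] (hpM : ¬ p ∣ M)
variable (A : ValuationSubring Qb)
variable (H : TrunkHyp (p * M)) {r : ℕ} (b : Module.Basis (Fin r) ℤ (EP (p * M) ℤ))
  (Θ₀ : TT0 (p * M) →+* Module.End ℤ (EP (p * M) ℤ))

/-! ### (RV) `S40/TopRhoV.lean` : the representation on `V` -/

/-- the representation on a stable subspace -/
noncomputable def rhoV (V : Submodule (ZMod p) (Fin r → ZMod p))
    (hV : ∀ σ : GQ, ∀ v ∈ V, rhoM b H hpF.out.pos σ *ᵥ v ∈ V) : GQ →* Module.End (ZMod p) V where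
  toFun σ := (Matrix.mulVecLin (rhoM b H hpF.out.pos σ)).restrict (fun v hv => hV σ v hv)
  map_one' := by
    apply LinearMap.ext
    intro v
    apply Subtype.ext
    simp
  map_mul' σ τ := by
    apply LinearMap.ext
    intro v
    apply Subtype.ext
    show (rhoM b H hpF.out.pos (σ * τ)) *ᵥ (v : Fin r → ZMod p) =
      rhoM b H hpF.out.pos σ *ᵥ (rhoM b H hpF.out.pos τ *ᵥ (v : Fin r → ZMod p))
    rw [map_mul, Matrix.mulVec_mulVec]

theorem coe_rhoV (V : Submodule (ZMod p) (Fin r → ZMod p))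
    (hV : ∀ σ : GQ, ∀ v ∈ V, rhoM b H hpF.out.pos σ *ᵥ v ∈ V) (σ : GQ) (v : V) :
    ((rhoV M p H b V hV σ v : V) : Fin r → ZMod p) =
      rhoM b H hpF.out.pos σ *ᵥ (v : Fin r → ZMod p) :=
  rfl

theorem rhoV_level (V : Submodule (ZMod p) (Fin r → ZMod p))
    (hV : ∀ σ : GQ, ∀ v ∈ V, rhoM b H hpF.out.pos σ *ᵥ v ∈ V) :
    GaloisFactorsThroughFiniteLevel (rhoV M p H b V hV) := by
  have h := rhoM_level (b := b) H hpF.out.pos
  obtain ⟨L, hL, h1⟩ := h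
  refine ⟨L, hL, fun σ hσ => ?_⟩
  apply LinearMap.ext
  intro v
  apply Subtype.ext
  rw [coe_rhoV, h1 σ hσ, Matrix.one_mulVec]
  rfl

theorem rhoV_simple (V : Submodule (ZMod p) (Fin r → ZMod p))
    (hV : ∀ σ : GQ, ∀ v ∈ V, rhoM b H hpF.out.pos σ *ᵥ v ∈ V)
    (hs : ∀ V' : Submodule (ZMod p) (Fin r → ZMod p), V' ≤ V →
        (∀ σ : GQ, ∀ v ∈ V', rhoM b H hpF.out.pos σ *ᵥ v ∈ V') → V' = ⊥ ∨ V' = V)
    (N : Submodule (ZMod p) V) (hN : ∀ g, ∀ x ∈ N, rhoV M p H b V hV g x ∈ N) :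
    N = ⊥ ∨ N = ⊤ := by
  have h1 : N.map V.subtype ≤ V := by
    rintro _ ⟨x, -, rfl⟩
    exact x.2
  have h2 : ∀ σ : GQ, ∀ v ∈ N.map V.subtype, rhoM b H hpF.out.pos σ *ᵥ v ∈ N.map V.subtype := by
    rintro σ _ ⟨x, hx, rfl⟩
    exact ⟨rhoV M p H b V hV σ x, hN σ x hx, rfl⟩
  rcases hs _ h1 h2 with h3 | h3
  · left
    rw [Submodule.eq_bot_iff]
    intro x hx
    have h4 : V.subtype x ∈ N.map V.subtype := ⟨x, hx, rfl⟩
    rw [h3, Submodule.mem_bot] at h4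
    exact Subtype.ext h4
  · right
    rw [Submodule.eq_top_iff']
    intro x
    have h4 : (x : Fin r → ZMod p) ∈ N.map V.subtype := by
      rw [h3]
      exact x.2
    obtain ⟨y, hy, hyx⟩ := h4
    have : y = x := Subtype.ext hyx
    rwa [← this]

theorem rhoV_quad (hΘ : IsThetaTr Θ₀) (S : Finset ℕ) (a : ℕ → ℤ)
    (V : Submodule (ZMod p) (Fin r → ZMod p))
    (hV : ∀ σ : GQ, ∀ v ∈ V, rhoM b H hpF.out.pos σ *ᵥ v ∈ V)
    (he : ∀ v ∈ V, IsEigV M p b Θ₀ S a v)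
    (ℓ : ℕ) (hℓ : ℓ.Prime) (hℓN : ¬ ℓ ∣ p * M) (hℓS : ℓ ∉ S)
    (𝔄 : ValuationSubring Qb) (h𝔄 : 𝔄.LiesOverPrime ℓ) (σ : GQ) (hσ : 𝔄.IsFrobeniusAt σ ℓ) :
    rhoV M p H b V hV σ * rhoV M p H b V hV σ - ((a ℓ : ℤ) : ZMod p) • rhoV M p H b V hV σ
      + (ℓ : ZMod p) • (1 : Module.End (ZMod p) V) = 0 := by
  have hℓp : ¬ ℓ ∣ p := fun h => hℓN (Dvd.dvd.mul_right h M)
  have hes := rhoM_es (b := b) H hpF.out.pos hΘ hℓ hℓN hℓp 𝔄 h𝔄 σ hσ
  apply LinearMap.ext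
  intro v
  apply Subtype.ext
  have h1 := congrArg (fun X => X *ᵥ (v : Fin r → ZMod p)) hes
  simp only [add_mulVec, sub_mulVec, ← mulVec_mulVec, natCast_mulVec, zero_mulVec] at h1
  rw [he _ (hV σ v v.2) ℓ hℓ hℓN hℓS] at h1
  exact h1

end Lvl

end Fermat.Agent.S40Lib
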