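import Fermat.Agent.S40.TopEigV
import Fermat.Agent.S40.TopRhoV
import Fermat.Agent.S33.MTrunk

/-!
# S40 / S44, TOP, (CC2): `TresFn` for functions gives `IsTres` on `V`
-/

set_option autoImplicit false
set_option synthInstance.maxHeartbeats 400000
set_option linter.unusedSectionVars false

open AlgebraicCurve ModularCurve CongruenceSubgroup

namespace Fermat.Agent.S40Lib

open Fermat.Agent.S18Lib Fermat.Agent.S24Lib Fermat.Agent.ESLib Fermat.Agent.ESLib.P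
  Fermat.Agent.S34Lib Fermat.Agent.S33Lib Fermat.Agent.S36Lib Matrix

section Lvl

variable (M p : ℕ) [NeZero M] [NeZero p] [hpF : Fact p.Prime] (hpM : ¬ p ∣ M)
variable (A : ValuationSubring Qb)
variable (H : TrunkHyp (p * M)) {r : ℕ} (b : Module.Basis (Fin r) ℤ (EP (p * M) ℤ))
  (Θ₀ : TT0 (p * M) →+* Module.End ℤ (EP (p * M) ℤ))

/-- `TresFn` for functions gives `IsTres` on `V` -/
theorem isTres_of_tresFn (S : Finset ℕ) (a : ℕ → ℤ) (V : Submodule (ZMod p) (Fin r → ZMod p))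
    (hV : ∀ σ : GQ, ∀ v ∈ V, rhoM b H hpF.out.pos σ *ᵥ v ∈ V)
    {x₀ y₀ : V} {x y : FB (p * M)} (hx : Kap b p x (x₀ : Fin r → ZMod p))
    (hy : Kap b p y (y₀ : Fin r → ZMod p)) (hc : LineCfg M p hpM A S a x y)
    (ht : TresFn M p A x y) :
    IsTres A p (fun σ => (rhoV M p H b V hV σ).toAddMonoidHom) x₀ y₀ := by
  have hm : 0 < p := hpF.out.pos
  obtain ⟨ζ, ϖ, u, n, hζ, hu0, hU, hfix, hϖ, hn, hκ⟩ := ht
  refine ⟨ζ, ϖ, u, n, hζ, hu0, hU, hfix, hϖ, hn, ?_, ?_, ?_⟩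
  · intro h0
    rw [h0] at hy
    obtain ⟨g, -, hg⟩ := Kap.eq_pow H hm hy
    exact hc.yne ⟨g, hg⟩
  · intro σ hσ j hj
    obtain ⟨g, hg⟩ := hc.galy ζ hζ σ hσ j hj
    have h1 := rhoM_spec H hm σ hy
    have hg0 : g ≠ 0 := by
      rintro rfl
      apply h1.ne_zero H hm
      rw [hg, zero_pow hm.ne', zero_mul]
    rw [hg] at h1
    have h2 := h1.unique H hm ((hy.pow H hm j).pow_mul H hm hg0)
    apply Subtype.ext
    show rhoM b H hpF.out.pos σ *ᵥ (y₀ : Fin r → ZMod p) = _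
    rw [h2]
    rfl
  · intro σ hσ hσζ j hj
    obtain ⟨g, hg⟩ := hκ σ hσ hσζ j hj
    have h1 := rhoM_spec H hm σ hx
    have hg0 : g ≠ 0 := by
      rintro rfl
      apply h1.ne_zero H hm
      rw [hg, zero_pow hm.ne', zero_mul, zero_mul]
    rw [hg, mul_assoc] at h1
    have h2 := h1.unique H hm ((hx.mul H hm (hy.pow H hm j)).pow_mul H hm hg0)
    apply Subtype.ext
    show rhoM b H hpF.out.pos σ *ᵥ (x₀ : Fin r → ZMod p) = _
    rw [h2]
    rfl

end Lvl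

end Fermat.Agent.S40Lib
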