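import Fermat.Agent.S40.TopDefs
import Fermat.Agent.ES.Trunk

/-!
# S40 / S44, TOP: the definition `IsEigV` (verbatim from the skeleton of helper26)
-/

set_option autoImplicit false
set_option synthInstance.maxHeartbeats 400000
set_option linter.unusedSectionVars false

open AlgebraicCurve ModularCurve CongruenceSubgroup

namespace Fermat.Agent.S40Lib

open Fermat.Agent.S18Lib Fermat.Agent.S24Lib Fermat.Agent.ESLib Fermat.Agent.ESLib.P
  Fermat.Agent.S34Lib Fermat.Agent.S33Lib Fermat.Agent.S36Lib Matrix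

section Lvl

variable (M p : ℕ) [NeZero M] [NeZero p] [hpF : Fact p.Prime] (hpM : ¬ p ∣ M)
variable (A : ValuationSubring Qb)
variable (H : TrunkHyp (p * M)) {r : ℕ} (b : Module.Basis (Fin r) ℤ (EP (p * M) ℤ))
  (Θ₀ : TT0 (p * M) →+* Module.End ℤ (EP (p * M) ℤ))

/-- `v` is an eigenvector of all `T_ℓ`, `ℓ ∉ S`, with eigenvalue `a ℓ` -/
def IsEigV (S : Finset ℕ) (a : ℕ → ℤ) (v : Fin r → ZMod p) : Prop :=
  ∀ (ℓ : ℕ) (hℓ : ℓ.Prime) (hℓN : ¬ ℓ ∣ p * M), ℓ ∉ S →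
    (ThM b Θ₀ (CuspForm.heckeAlgebra.T hℓ hℓN hℓN)).map (Int.castRingHom (ZMod p)) *ᵥ v
      = (a ℓ : ZMod p) • v

end Lvl

end Fermat.Agent.S40Lib
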