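import Fermat.Agent.S40.TopEigV

/-!
# S40 / S44, TOP, (KK): small lemmas on `Kap`
-/

set_option autoImplicit false
set_option synthInstance.maxHeartbeats 400000
set_option linter.unusedSectionVars false

open AlgebraicCurve ModularCurve CongruenceSubgroup

namespace Fermat.Agent.S40Lib

open Fermat.Agent.S18Lib Fermat.Agent.S24Lib Fermat.Agent.ESLib Fermat.Agent.ESLib.P
  Fermat.Agent.S34Lib Fermat.Agent.S33Lib Fermat.Agent.S36Lib Matrix

section Lvl

variable (M p : ℕ) [NeZero M] [NeZero p] [hpF : Fact p.Prime] (hpM : ¬ p ∣ M)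
variable (A : ValuationSubring Qb)
variable (H : TrunkHyp (p * M)) {r : ℕ} (b : Module.Basis (Fin r) ℤ (EP (p * M) ℤ))
  (Θ₀ : TT0 (p * M) →+* Module.End ℤ (EP (p * M) ℤ))

/-! ### (KK) `S40/TopKap.lean` : small lemmas on `Kap` -/

include H in
/-- two Kummer generators with the same coordinates differ by a `p`-th power -/
theorem kap_eq_pow_mul {v : Fin r → ZMod p} {f f' : FB (p * M)} (hf : Kap b p f v)
    (hf' : Kap b p f' v) : ∃ g : FB (p * M), g ≠ 0 ∧ f' = g ^ p * f := by
  have hp := hpF.out.pos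
  have h1 := hf'.mul H hp (hf.inv H hp)
  rw [add_neg_cancel] at h1
  obtain ⟨g, hg, h2⟩ := h1.eq_pow H hp
  refine ⟨g, hg, ?_⟩
  rw [← h2, mul_assoc, inv_mul_cancel₀ (hf.ne_zero H hp), mul_one]

include H in
/-- integral powers -/
theorem kap_zpow {v : Fin r → ZMod p} {f : FB (p * M)} (hf : Kap b p f v) (n : ℤ) :
    Kap b p (f ^ n) ((n : ZMod p) • v) := by
  have hp := hpF.out.pos
  cases n with
  | ofNat k =>
    have h1 := hf.pow H hp k
    rw [Int.ofNat_eq_natCast, zpow_natCast, Int.cast_natCast, Nat.cast_smul_eq_nsmul]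
    exact h1
  | negSucc k =>
    have h1 := (hf.pow H hp (k + 1)).inv H hp
    rw [zpow_negSucc, Int.cast_negSucc, neg_smul, Nat.cast_smul_eq_nsmul]
    exact h1

end Lvl

end Fermat.Agent.S40Lib
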