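import Mathlib

/-!
# S40 / S44, TOP, leaf (LA): trichotomy for a subspace of a plane
-/

set_option autoImplicit false
set_option linter.unusedSectionVars false

namespace Fermat.Agent.S40Lib

variable (p : ℕ) [hpF : Fact p.Prime]

theorem plane_trichotomy {V : Type} [AddCommGroup V] [Module (ZMod p) V]
    (hdim : Module.finrank (ZMod p) V = 2) (T : Submodule (ZMod p) V) :
    T = ⊥ ∨ T = ⊤ ∨ ∃ x y : V, y ∈ T ∧ y ≠ 0 ∧ x ∉ T ∧ ∀ v ∈ T, ∃ j : ℕ, v = j • y := by
  have hfd : FiniteDimensional (ZMod p) V := Module.finite_of_finrank_pos (by omega)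
  by_cases h0 : T = ⊥
  · exact Or.inl h0
  by_cases h1 : T = ⊤
  · exact Or.inr (Or.inl h1)
  refine Or.inr (Or.inr ?_)
  have hle : Module.finrank (ZMod p) T < 2 := by
    rw [← hdim]
    exact Submodule.finrank_lt h1
  have hpos : 0 < Module.finrank (ZMod p) T := by
    rw [Module.finrank_pos_iff_exists_ne_zero]
    obtain ⟨y, hy, hy0⟩ := (Submodule.ne_bot_iff T).1 h0
    exact ⟨⟨y, hy⟩, fun h => hy0 (congrArg Subtype.val h)⟩
  have hone : Module.finrank (ZMod p) T = 1 := by omega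
  obtain ⟨y, hy0, hy⟩ := finrank_eq_one_iff'.1 hone
  obtain ⟨x, -, hx⟩ := SetLike.exists_of_lt (lt_top_iff_ne_top.2 h1)
  refine ⟨x, y, y.2, fun h => hy0 (Subtype.ext h), hx, fun v hv => ?_⟩
  obtain ⟨c, hc⟩ := hy ⟨v, hv⟩
  refine ⟨c.val, ?_⟩
  have h2 : c • (y : V) = v := congrArg Subtype.val hc
  rw [← h2, ← Nat.cast_smul_eq_nsmul (ZMod p), ZMod.natCast_zmod_val]

end Fermat.Agent.S40Lib
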