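import Fermat.Agent.S40.TopEigV
import Fermat.Agent.S40.Equiv

/-!
# S40 / S44, TOP, (NE): the eigensystem of `W` is not Eisenstein
-/

set_option autoImplicit false
set_option synthInstance.maxHeartbeats 400000
set_option linter.unusedSectionVars false

open AlgebraicCurve ModularCurve CongruenceSubgroup

namespace Fermat.Agent.S40Lib

open Fermat.Agent.S18Lib Fermat.Agent.S24Lib Fermat.Agent.ESLib Fermat.Agent.ESLib.P
  Fermat.Agent.S34Lib Fermat.Agent.S33Lib Fermat.Agent.S36Lib Matrix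

/-! ## (NE) `S40/TopNE.lean` : the eigensystem of `W` is not Eisenstein -/

/-- apply `exists_equiv_ETor` to the TRIVIAL module `V = ZMod p`, `ρ = 1`: if `a_ℓ = ℓ + 1` for all
`ℓ ∤ D` it satisfies `hquad`, so `E[p] ≃ ZMod p`, against `finrank_ETor`. -/
theorem nonEis_of_irr (W : WeierstrassCurve ℤ) (hΔ : W.Δ ≠ 0) {p : ℕ} [Fact p.Prime]
    (hp2 : p ≠ 2) (hirr : W.ModRepIsIrreducible p) : NonEis p W.apOfModel := by
  intro D hD
  by_contra hcon
  push Not at hcon
  have hlev : GaloisFactorsThroughFiniteLevel (1 : GQ →* Module.End (ZMod p) (ZMod p)) :=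
    ⟨⊥, inferInstance, fun σ _ => rfl⟩
  have hV : ∀ N : Submodule (ZMod p) (ZMod p),
      (∀ g, ∀ x ∈ N, (1 : GQ →* Module.End (ZMod p) (ZMod p)) g x ∈ N) → N = ⊥ ∨ N = ⊤ :=
    fun N _ => Ideal.eq_bot_or_top N
  have h := exists_equiv_ETor W hΔ hp2 hirr (1 : GQ →* Module.End (ZMod p) (ZMod p)) hlev hV D hD
    (by
      intro ℓ hℓ hℓD 𝔄 _ σ _
      have h1 := hcon ℓ hℓ hℓD
      have h2 : ((W.apOfModel ℓ : ℤ) : ZMod p) = (ℓ : ZMod p) + 1 := by
        have h3 := (ZMod.intCast_zmod_eq_zero_iff_dvd _ p).2 h1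
        push_cast at h3
        linear_combination h3
      rw [MonoidHom.one_apply, h2, mul_one, add_smul, one_smul]
      abel)
  obtain ⟨φ, -⟩ := h
  have h1 := φ.finrank_eq
  rw [(finrank_ETor W hΔ hp2).2, Module.finrank_self] at h1
  omega

end Fermat.Agent.S40Lib
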