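import Fermat.Agent.S40.TopEigV

/-!
# S40 / S44, TOP, (SIM): a simple Galois submodule of the eigenspace
-/

set_option autoImplicit false
set_option synthInstance.maxHeartbeats 400000
set_option linter.unusedSectionVars false

open AlgebraicCurve ModularCurve CongruenceSubgroup

namespace Fermat.Agent.S40Lib

open Fermat.Agent.S18Lib Fermat.Agent.S24Lib Fermat.Agent.ESLib Fermat.Agent.ESLib.P
  Fermat.Agent.S34Lib Fermat.Agent.S33Lib Fermat.Agent.S36Lib Matrix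

section Lvl

variable (M p : ℕ) [NeZero M] [NeZero p] [hpF : Fact p.Prime] (hpM : ¬ p ∣ M)
variable (A : ValuationSubring Qb)
variable (H : TrunkHyp (p * M)) {r : ℕ} (b : Module.Basis (Fin r) ℤ (EP (p * M) ℤ))
  (Θ₀ : TT0 (p * M) →+* Module.End ℤ (EP (p * M) ℤ))

/-! ### (SIM) `S40/TopSimple.lean` : a simple Galois submodule of the eigenspace
(the eigenspace is stable by `rhoM_comm_T`; take a nonzero stable subspace of minimal `finrank`) -/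

theorem exists_simple (hΘ : IsThetaTr Θ₀) (S : Finset ℕ) (a : ℕ → ℤ)
    (h : ∃ v : Fin r → ZMod p, v ≠ 0 ∧ IsEigV M p b Θ₀ S a v) :
    ∃ V : Submodule (ZMod p) (Fin r → ZMod p), V ≠ ⊥ ∧
      (∀ σ : GQ, ∀ v ∈ V, rhoM b H hpF.out.pos σ *ᵥ v ∈ V) ∧
      (∀ V' : Submodule (ZMod p) (Fin r → ZMod p), V' ≤ V →
        (∀ σ : GQ, ∀ v ∈ V', rhoM b H hpF.out.pos σ *ᵥ v ∈ V') → V' = ⊥ ∨ V' = V) ∧
      ∀ v ∈ V, IsEigV M p b Θ₀ S a v := by
  let E : Submodule (ZMod p) (Fin r → ZMod p) :=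
    { carrier := {v | IsEigV M p b Θ₀ S a v}
      zero_mem' := by
        intro ℓ hℓ hℓN hℓS
        rw [mulVec_zero, smul_zero]
      add_mem' := by
        intro x y hx hy ℓ hℓ hℓN hℓS
        rw [mulVec_add, hx ℓ hℓ hℓN hℓS, hy ℓ hℓ hℓN hℓS, smul_add]
      smul_mem' := by
        intro c x hx ℓ hℓ hℓN hℓS
        rw [mulVec_smul, hx ℓ hℓ hℓN hℓS, smul_comm] }
  have hEmem : ∀ v, v ∈ E ↔ IsEigV M p b Θ₀ S a v := fun v => Iff.rfl
  have hE : ∀ σ : GQ, ∀ v ∈ E, rhoM b H hpF.out.pos σ *ᵥ v ∈ E := by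
    intro σ v hv
    rw [hEmem] at hv ⊢
    intro ℓ hℓ hℓN hℓS
    rw [mulVec_mulVec, ← rhoM_comm_T H hpF.out.pos hΘ hℓ hℓN σ, ← mulVec_mulVec,
      hv ℓ hℓ hℓN hℓS, mulVec_smul]
  let 𝒮 : Set (Submodule (ZMod p) (Fin r → ZMod p)) :=
    {V | V ≠ ⊥ ∧ V ≤ E ∧ ∀ σ : GQ, ∀ v ∈ V, rhoM b H hpF.out.pos σ *ᵥ v ∈ V}
  have hne : 𝒮.Nonempty := by
    obtain ⟨v, hv0, hv⟩ := h
    refine ⟨E, ?_, le_rfl, hE⟩
    intro hbot
    have h1 : v ∈ E := (hEmem v).2 hv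
    rw [hbot, Submodule.mem_bot] at h1
    exact hv0 h1
  obtain ⟨V, hV, hmin⟩ := WellFounded.has_min
    (wellFounded_lt (α := Submodule (ZMod p) (Fin r → ZMod p))) 𝒮 hne
  obtain ⟨hV0, hVE, hVs⟩ := hV
  refine ⟨V, hV0, hVs, ?_, fun v hv => (hEmem v).1 (hVE hv)⟩
  intro V' hle hst
  by_cases h0 : V' = ⊥
  · exact Or.inl h0
  · right
    have h1 : V' ∈ 𝒮 := ⟨h0, hle.trans hVE, hst⟩
    exact eq_of_le_of_not_lt hle (hmin V' h1)

end Lvl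

end Fermat.Agent.S40Lib
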