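import Fermat.Agent.S40.TopEigV
import Fermat.Agent.S33.MTrunk

/-!
# S40 / S44, TOP, (T1): `T₁` in coordinates
-/

set_option autoImplicit false
set_option synthInstance.maxHeartbeats 400000
set_option linter.unusedSectionVars false

open AlgebraicCurve ModularCurve CongruenceSubgroup

namespace Fermat.Agent.S40Lib

open Fermat.Agent.S18Lib Fermat.Agent.S24Lib Fermat.Agent.ESLib Fermat.Agent.ESLib.P
  Fermat.Agent.S34Lib Fermat.Agent.S33Lib Fermat.Agent.S36Lib Matrix

section Lvl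

variable (M p : ℕ) [NeZero M] [NeZero p] [hpF : Fact p.Prime] (hpM : ¬ p ∣ M)
variable (A : ValuationSubring Qb)
variable (H : TrunkHyp (p * M)) {r : ℕ} (b : Module.Basis (Fin r) ℤ (EP (p * M) ℤ))
  (Θ₀ : TT0 (p * M) →+* Module.End ℤ (EP (p * M) ℤ))

theorem T1_gOne_one : GOne A (1 : LaurentSeries Qb) :=
  ⟨(gRing A).one_mem, by
    have : (⟨1, (gRing A).one_mem⟩ : gRing A) = 1 := rfl
    rw [this, map_one]⟩

/-! ### (T1) `S40/TopT1.lean` : `T₁` in coordinates -/

include H in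
/-- `mtT` as a submodule (`mt_sub_mem`, `Kap.one`) -/
theorem exists_T1 : ∃ T : Submodule (ZMod p) (Fin r → ZMod p),
    ∀ v, v ∈ T ↔ v ∈ mtT M p hpM A b p := by
  have hm : 0 < p := hpF.out.pos
  have h0 : (0 : Fin r → ZMod p) ∈ mtT M p hpM A b p := by
    refine ⟨1, Kap.one H hm, T1_gOne_one A, ?_⟩
    rw [map_one]
    exact T1_gOne_one A
  have hneg : ∀ {v : Fin r → ZMod p}, v ∈ mtT M p hpM A b p → -v ∈ mtT M p hpM A b p := by
    intro v hv
    have := mt_sub_mem M p hpM A H b hm h0 hv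
    rwa [zero_sub] at this
  let T₀ : AddSubgroup (Fin r → ZMod p) :=
    { carrier := mtT M p hpM A b p
      zero_mem' := h0
      add_mem' := by
        intro v w hv hw
        have := mt_sub_mem M p hpM A H b hm hv (hneg hw)
        rwa [sub_neg_eq_add] at this
      neg_mem' := hneg }
  exact ⟨AddSubgroup.toZModSubmodule p T₀, fun v => Iff.rfl⟩

include H in
theorem inT1_iff {v : Fin r → ZMod p} {f : FB (p * M)} (hf : Kap b p f v) :
    InT1 M p hpM A f ↔ v ∈ mtT M p hpM A b p := by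
  have hm : 0 < p := hpF.out.pos
  constructor
  · rintro ⟨g, h, hg, rfl, h1, h2⟩
    refine ⟨h, ?_, h1, h2⟩
    have h3 := hf.pow_mul H hm (inv_ne_zero hg)
    have e2 : g⁻¹ ^ p * (g ^ p * h) = h := by
      rw [← mul_assoc, ← mul_pow, inv_mul_cancel₀ hg, one_pow, one_mul]
    rwa [e2] at h3
  · rintro ⟨h, hK, h1, h2⟩
    have h3 := hf.mul H hm (hK.inv H hm)
    rw [add_neg_cancel] at h3
    obtain ⟨g, hg, hfg⟩ := h3.eq_pow H hm
    exact ⟨g, h, hg, by rw [← hfg, inv_mul_cancel_right₀ (hK.ne_zero H hm)], h1, h2⟩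

include H in
/-- a representative which is a unit on both branches (`exists_normalize`, see
`S33/MTrunk.lean exists_gOne_inertia`; constants are `p`-th powers) -/
theorem exists_kap_isGU (hA : A.LiesOverPrime p) (v : Fin r → ZMod p) :
    ∃ f : FB (p * M), Kap b p f v ∧ IsGU A (f : LaurentSeries Qb) ∧
      IsGU A ((wq M p hpM f : FB (p * M)) : LaurentSeries Qb) := by
  have hm : 0 < p := hpF.out.pos
  obtain ⟨f, hf⟩ := Kap.exists (b := b) H hm v
  have hf0 := hf.ne_zero H hm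
  obtain ⟨R, hR⟩ := exists_red2 M p hpM A hA
  obtain ⟨c, G₀, h, hc, hG₀, hu, hf'⟩ :=
    exists_normalize IsLocalRing.residue_surjective R f hf0 p hm
  obtain ⟨d, hd⟩ := IsAlgClosed.exists_pow_nat_eq c hm
  have hd0 : d ≠ 0 := by
    rintro rfl
    rw [zero_pow hm.ne'] at hd
    exact hc hd.symm
  have hdF : algebraMap Qb (FB (p * M)) d ≠ 0 := by simpa using hd0
  have hg : algebraMap Qb (FB (p * M)) d * G₀ ≠ 0 := mul_ne_zero hdF hG₀
  have e1 : f = (algebraMap Qb (FB (p * M)) d * G₀) ^ p * ((h : R.O) : FB (p * M)) := by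
    rw [mul_pow, ← map_pow, hd]
    exact hf'
  have hK : Kap b p ((h : R.O) : FB (p * M)) v := by
    have h3 := hf.pow_mul H hm (inv_ne_zero hg)
    rw [e1, ← mul_assoc, ← mul_pow, inv_mul_cancel₀ hg, one_pow, one_mul] at h3
    exact h3
  obtain ⟨h1m, h2m⟩ := (hR.mem_iff _).1 h.2
  rw [Prod.isUnit_iff] at hu
  refine ⟨h, hK, ⟨h1m, ?_⟩, ⟨h2m, ?_⟩⟩
  · rw [← hR.red_fst h h1m]
    intro h0
    exact hu.1.ne_zero (Subtype.ext h0)
  · rw [← hR.red_snd h h2m]
    intro h0
    exact hu.2.ne_zero (Subtype.ext h0)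

end Lvl

end Fermat.Agent.S40Lib
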