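import Fermat.Agent.S40.TopEigV
import Fermat.Agent.S40.DSLift
import Fermat.Agent.S29.EigenChar

/-!
# S40 / S44, TOP, (W0): a nonzero eigenvector
-/

set_option autoImplicit false
set_option synthInstance.maxHeartbeats 400000
set_option linter.unusedSectionVars false

open AlgebraicCurve ModularCurve CongruenceSubgroup

namespace Fermat.Agent.S40Lib

open Fermat.Agent.S18Lib Fermat.Agent.S24Lib Fermat.Agent.ESLib Fermat.Agent.ESLib.P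
  Fermat.Agent.S34Lib Fermat.Agent.S33Lib Fermat.Agent.S36Lib Matrix

/-- a rational integer in a maximal ideal above `p` is divisible by `p` -/
theorem W0_dvd_of_mem {p : ℕ} (hp : p.Prime) (𝔪 : Ideal (integralClosure ℤ ℂ)) (h𝔪 : 𝔪.IsMaximal)
    (hp𝔪 : (p : integralClosure ℤ ℂ) ∈ 𝔪) (n : ℤ) (hn : (n : integralClosure ℤ ℂ) ∈ 𝔪) :
    (p : ℤ) ∣ n := by
  by_contra hcon
  have hc : IsCoprime (p : ℤ) n := (Prime.coprime_iff_not_dvd (Nat.prime_iff_prime_int.1 hp)).2 hcon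
  obtain ⟨u, w, huw⟩ := hc
  apply h𝔪.ne_top
  rw [Ideal.eq_top_iff_one]
  have h1 : ((u * (p : ℤ) + w * n : ℤ) : integralClosure ℤ ℂ) = 1 := by rw [huw, Int.cast_one]
  rw [← h1]
  push_cast
  exact 𝔪.add_mem (𝔪.mul_mem_left _ hp𝔪) (𝔪.mul_mem_left _ hn)

section Lvl

variable (M p : ℕ) [NeZero M] [NeZero p] [hpF : Fact p.Prime] (hpM : ¬ p ∣ M)
variable (A : ValuationSubring Qb)
variable (H : TrunkHyp (p * M)) {r : ℕ} (b : Module.Basis (Fin r) ℤ (EP (p * M) ℤ))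
  (Θ₀ : TT0 (p * M) →+* Module.End ℤ (EP (p * M) ℤ))

/-! ### (W0) `S40/TopW0.lean` : a nonzero eigenvector (`S29Lib.exists_eigenChar` +
`exists_eigenvector_mod` of `S40/DSLift.lean`) -/

theorem exists_eigV (hinj : Function.Injective Θ₀) (S : Finset ℕ) (a : ℕ → ℤ)
    (f : CuspForm (Gamma0 (p * M)) 2) (hf : f.IsNormalizedEigenform)
    (𝔪 : Ideal (integralClosure ℤ ℂ)) (h𝔪 : 𝔪.IsMaximal) (hp𝔪 : (p : integralClosure ℤ ℂ) ∈ 𝔪)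
    (hcong : ∀ ℓ : ℕ, ℓ.Prime → ¬ ℓ ∣ p * M → ℓ ∉ S →
      ∃ c : integralClosure ℤ ℂ, (c : ℂ) = ModularFormClass.qCoeff f ℓ ∧
        c - ((a ℓ : ℤ) : integralClosure ℤ ℂ) ∈ 𝔪) :
    ∃ v : Fin r → ZMod p, v ≠ 0 ∧ IsEigV M p b Θ₀ S a v := by
  classical
  have hlam := Fermat.Agent.S29Lib.exists_eigenChar hf
  obtain ⟨lam, hlam⟩ := hlam
  let χ : TT0 (p * M) →+* ℂ := (algebraMap (integralClosure ℤ ℂ) ℂ).comp lam
  have hχ : ∀ t, χ t = ((lam t : integralClosure ℤ ℂ) : ℂ) := fun t => rfl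
  let I : Set (TT0 (p * M)) := {t | ∃ (ℓ : ℕ) (hℓ : ℓ.Prime) (hℓN : ¬ ℓ ∣ p * M), ℓ ∉ S ∧
    t = CuspForm.heckeAlgebra.T hℓ hℓN hℓN}
  let a' : TT0 (p * M) → ℤ := fun t => if h : t ∈ I then a h.choose else 0
  -- the key congruence
  have hkey : ∀ (ℓ : ℕ) (hℓ : ℓ.Prime) (hℓN : ¬ ℓ ∣ p * M), ℓ ∉ S →
      lam (CuspForm.heckeAlgebra.T hℓ hℓN hℓN) - ((a ℓ : ℤ) : integralClosure ℤ ℂ) ∈ 𝔪 := by
    intro ℓ hℓ hℓN hℓS
    obtain ⟨c, hc1, hc2⟩ := hcong ℓ hℓ hℓN hℓS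
    have : lam (CuspForm.heckeAlgebra.T hℓ hℓN hℓN) = c := by
      apply Subtype.ext
      rw [hlam, hc1]
    rwa [this]
  have ha' : ∀ t ∈ I, lam t - ((a' t : ℤ) : integralClosure ℤ ℂ) ∈ 𝔪 := by
    intro t ht
    have h1 : a' t = a ht.choose := dif_pos ht
    obtain ⟨hℓ, hℓN, hℓS, ht'⟩ := ht.choose_spec
    rw [h1]
    have h2 := hkey _ hℓ hℓN hℓS
    rwa [← ht'] at h2
  have hev := exists_eigenvector_mod (ThM b Θ₀) (ThM_injective Θ₀ hinj) χ (p := p) 𝔪 h𝔪 hp𝔪 I a'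
    (fun t ht => ⟨lam t, (hχ t).symm, ha' t ht⟩)
  obtain ⟨v, hv0, hv⟩ := hev
  refine ⟨v, hv0, ?_⟩
  intro ℓ hℓ hℓN hℓS
  have ht : CuspForm.heckeAlgebra.T hℓ hℓN hℓN ∈ I := ⟨ℓ, hℓ, hℓN, hℓS, rfl⟩
  rw [hv _ ht]
  congr 1
  rw [ZMod.intCast_eq_intCast_iff_dvd_sub]
  apply W0_dvd_of_mem hpF.out 𝔪 h𝔪 hp𝔪
  have h1 := 𝔪.sub_mem (ha' _ ht) (hkey ℓ hℓ hℓN hℓS)
  have h2 : ((a ℓ - a' (CuspForm.heckeAlgebra.T hℓ hℓN hℓN) : ℤ) : integralClosure ℤ ℂ) =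
      lam (CuspForm.heckeAlgebra.T hℓ hℓN hℓN) -
        ((a' (CuspForm.heckeAlgebra.T hℓ hℓN hℓN) : ℤ) : integralClosure ℤ ℂ) -
      (lam (CuspForm.heckeAlgebra.T hℓ hℓN hℓN) - ((a ℓ : ℤ) : integralClosure ℤ ℂ)) := by
    push_cast
    ring
  rw [h2]
  exact h1

end Lvl

end Fermat.Agent.S40Lib
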