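import Fermat.Agent.S40.TopDefs
import Fermat.Agent.S40.TopEigV
import Fermat.Agent.S40.TopNE
import Fermat.Agent.S40.TopGapwBase
import Fermat.Agent.S40.TopW0
import Fermat.Agent.S40.TopSimple
import Fermat.Agent.S40.TopKap
import Fermat.Agent.S40.TopEigH
import Fermat.Agent.S40.TopEigN
import Fermat.Agent.S40.TopRhoV
import Fermat.Agent.S40.TopT1
import Fermat.Agent.S40.TopLinAlg
import Fermat.Agent.S40.TopCaseA
import Fermat.Agent.S40.TopCaseB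
import Fermat.Agent.S40.TopCaseC
import Fermat.Agent.S40.TopCaseC2
import Fermat.Agent.S40.EFinalNT
import Fermat.Agent.S40.LocalP
import Fermat.Agent.S40.DSLift
import Fermat.Agent.S33.MTrunk
import Fermat.Agent.S29.EigenChar

/-!
# S40 / S44, TOP: the main theorem

`top_generic : GapwChi → LineCore → (W, p ≥ 5, irreducible, no IsTres on E[p] at ONE place A | p)
   → W.IsResiduallyModularOfLevel p (p * M) → W.IsResiduallyModularOfLevel p M`.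
S44 = `top_generic` + (E44);  S40 for `p ≥ 5` = `top_generic` + `not_isTres_ETor`.
-/

set_option autoImplicit false
set_option synthInstance.maxHeartbeats 400000
set_option linter.unusedSectionVars false

open AlgebraicCurve ModularCurve CongruenceSubgroup

namespace Fermat.Agent.S40Lib

open Fermat.Agent.S18Lib Fermat.Agent.S24Lib Fermat.Agent.ESLib Fermat.Agent.ESLib.P
  Fermat.Agent.S34Lib Fermat.Agent.S33Lib Fermat.Agent.S35Lib Fermat.Agent.S36Lib Matrix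

/-- **TOP**, generic in the E-side -/
theorem top_generic (gapw : GapwChi) (core : LineCore)
    (W : WeierstrassCurve ℤ) (hΔ : W.Δ ≠ 0) (M p : ℕ) [NeZero M] [NeZero p] [Fact p.Prime]
    (hp5 : 5 ≤ p) (hpM : ¬ p ∣ M) (hirr : W.ModRepIsIrreducible p)
    (A : ValuationSubring Qb) (hA : A.LiesOverPrime p)
    (hNT : ∀ x y : ETor W p, ¬ IsTres A p (actE W p) x y)
    (hmod : W.IsResiduallyModularOfLevel p (p * M)) :
    W.IsResiduallyModularOfLevel p M := by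
  classical
  have hp : p.Prime := Fact.out
  have hp2 : p ≠ 2 := by omega
  by_contra hnot
  obtain ⟨f, 𝔪, hf, h𝔪, hp𝔪, hcong⟩ := hmod
  set a : ℕ → ℤ := W.apOfModel with ha
  have hD0 : p * M * W.Δ.natAbs ≠ 0 :=
    mul_ne_zero (mul_ne_zero hp.ne_zero (NeZero.ne M)) (Int.natAbs_ne_zero.2 hΔ)
  set S : Finset ℕ := (p * M * W.Δ.natAbs).primeFactors with hS
  have hmemS : ∀ q : ℕ, q.Prime → (q ∈ S ↔ q ∣ p * M * W.Δ.natAbs) := by
    intro q hq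
    rw [hS, Nat.mem_primeFactors]
    exact ⟨fun h => h.2.1, fun h => ⟨hq, h, hD0⟩⟩
  have hS1 : ∀ q : ℕ, q.Prime → q ∣ p * M → q ∈ S := fun q hq h =>
    (hmemS q hq).2 (Dvd.dvd.mul_right h _)
  have hMS : ∀ q : ℕ, q.Prime → q ∣ M → q ∈ S := fun q hq h =>
    hS1 q hq (Dvd.dvd.mul_left h p)
  have hS2 : ∀ ℓ : ℕ, ℓ.Prime → W.IsGoodPrimeFor ℓ → ¬ ℓ ∣ M → ℓ ≠ p → ℓ ∉ S := by
    intro ℓ hℓ hg hℓM hℓp hmem
    rcases (Nat.Prime.dvd_mul hℓ).1 ((hmemS ℓ hℓ).1 hmem) with h | h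
    · rcases (Nat.Prime.dvd_mul hℓ).1 h with h | h
      · exact hℓp ((Nat.prime_dvd_prime_iff_eq hℓ hp).1 h)
      · exact hℓM h
    · exact hg (Int.natCast_dvd.2 h)
  have hS3 : ∀ ℓ : ℕ, ℓ.Prime → ℓ ∉ S → W.IsGoodPrimeFor ℓ ∧ ¬ ℓ ∣ p * M ∧ ℓ ≠ p := by
    intro ℓ hℓ hℓS
    refine ⟨fun h => hℓS ((hmemS ℓ hℓ).2 (Dvd.dvd.mul_left (Int.natCast_dvd.1 h) _)),
      fun h => hℓS (hS1 ℓ hℓ h), ?_⟩
    rintro rfl
    exact hℓS (hS1 ℓ hℓ (dvd_mul_right ℓ M))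
  have hk : HasKiller M p S a := exists_killer_mod W hp M S hMS hS2 hnot
  have hNE : NonEis p a := nonEis_of_irr W hΔ hp2 hirr
  have H : TrunkHyp (p * M) := (trunkHyp0 (p * M)).toTrunkHyp
  obtain ⟨r, b, Θ₀, hinj, hTr⟩ := H.theta
  have hv := exists_eigV M p b Θ₀ hinj S a f hf 𝔪 h𝔪 hp𝔪
    (fun ℓ hℓ hℓN hℓS => hcong ℓ hℓ (hS3 ℓ hℓ hℓS).1 hℓN (hS3 ℓ hℓ hℓS).2.2)
  obtain ⟨V, hV0, hVs, hVsim, hVe⟩ := exists_simple M p H b Θ₀ hTr S a hv
  have : Nontrivial V := (Submodule.nontrivial_iff_ne_bot).2 hV0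
  obtain ⟨ζ, hζ⟩ := exists_primitiveRoot_Qb p
  obtain ⟨hdim, hE2, hE3, hE4⟩ := e_final_nt W hΔ hp2 hirr (rhoV M p H b V hVs)
    (rhoV_level M p H b V hVs) (rhoV_simple M p H b V hVs hVsim) (p * M * W.Δ.natAbs) hD0
    (fun ℓ hℓ hℓD 𝔄 h𝔄 σ hσ => rhoV_quad M p H b Θ₀ hTr S a V hVs hVe ℓ hℓ
      (fun h => hℓD (Dvd.dvd.mul_right h _)) (fun h => hℓD ((hmemS ℓ hℓ).1 h)) 𝔄 h𝔄 σ hσ)
    A hA hNT hζ
  obtain ⟨T, hT⟩ := exists_T1 M p hpM A H b
  rcases plane_trichotomy p hdim (T.comap V.subtype) with h | h | ⟨x₀, y₀, hy, hy0, hx, hline⟩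
  · apply hE2
    apply caseA M p hpM A H b hA V hVs
    intro v hv hvT
    have h1 : (⟨v, hv⟩ : V) ∈ T.comap V.subtype := (hT v).2 hvT
    rw [h, Submodule.mem_bot] at h1
    exact congrArg Subtype.val h1
  · apply hE3
    intro σ hσ j hj
    apply LinearMap.ext
    intro v
    apply Subtype.ext
    have h1 : v ∈ T.comap V.subtype := by rw [h]; trivial
    have h2 : (v : Fin r → ZMod p) ∈ mtT M p hpM A b p := (hT _).1 h1
    rw [coe_rhoV]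
    exact chi_on_T1 M p hpM A H b Θ₀ gapw hp2 hA hTr S hS1 a hk (hVe _ v.2) h2 hζ σ hσ j hj
  · obtain ⟨x, y, hx', hy', hc⟩ := exists_lineCfg M p hpM A H b Θ₀ gapw hp2 hA hTr S hS1 a hk V hVs
      hVe x₀.2 y₀.2 ((hT _).1 hy) (fun h0 => hy0 (Subtype.ext h0)) (fun h0 => hx ((hT _).2 h0))
      (by
        intro v hv hvT
        obtain ⟨j, hj⟩ := hline ⟨v, hv⟩ ((hT v).2 hvT)
        exact ⟨j, congrArg Subtype.val hj⟩)
    rcases core M p hpM hp5 A hA S a hS1 hNE hk x y hc with ht | ho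
    · exact hE4 x₀ y₀ (isTres_of_tresFn M p hpM A H b S a V hVs hx' hy' hc ht)
    · apply hnot
      obtain ⟨k, _, _, χ, hχ⟩ := ho
      obtain ⟨g, 𝔪', hg, h1, h2, h3⟩ := exists_eigenform_of_char_mod M (↑S : Set ℕ) (p := p) χ
      exact ⟨g, 𝔪', hg, h1, h2, fun ℓ hℓ hgood hℓM hℓp =>
        h3 ℓ hℓ hℓM (by simpa using hS2 ℓ hℓ hgood hℓM hℓp) (a ℓ)
          (hχ ℓ hℓ hℓM (by simpa using hS2 ℓ hℓ hgood hℓM hℓp))⟩

/-! ## (FIN) S40 for `p ≥ 5` (the frozen S40 also needs `p = 3`); S44 = helper20 -/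

theorem s40_of_core (gapw : GapwChi) (core : LineCore)
    (W : WeierstrassCurve ℤ) (hΔ : W.Δ ≠ 0)
    {p : ℕ} (hp : p.Prime) (hp5 : 5 ≤ p)
    (hgood : W.IsGoodPrimeFor p)
    (hirr : W.ModRepIsIrreducible p)
    {M : ℕ} (hM : 0 < M) (hpM : p ∣ M) (hp2M : ¬ p ^ 2 ∣ M)
    (hmod : W.IsResiduallyModularOfLevel p M) :
    W.IsResiduallyModularOfLevel p (M / p) := by
  obtain ⟨M', rfl⟩ := hpM
  have hM' : M' ≠ 0 := by
    rintro rfl
    simp at hM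
  have : NeZero M' := ⟨hM'⟩
  have : NeZero p := ⟨hp.ne_zero⟩
  have : Fact p.Prime := ⟨hp⟩
  have hpM' : ¬ p ∣ M' := fun h => hp2M (by rw [pow_two]; exact Nat.mul_dvd_mul_left p h)
  rw [Nat.mul_div_cancel_left M' hp.pos]
  obtain ⟨A, hA⟩ := Fermat.Agent.FrobLib.exists_liesOverPrime hp
  exact top_generic gapw core W hΔ M' p hp5 hpM' hirr A hA
    (not_isTres_ETor W hΔ hp (by omega) hgood A hA) hmod

end Fermat.Agent.S40Lib
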